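import Fermat.Agent.S51x.Basic

/-!
# S51 project, module M22_GAL

From reducibility of the mod `p` representation to a Galois-stable cyclic subgroup.
-/

set_option autoImplicit false
open WeierstrassCurve WeierstrassCurve.Affine WeierstrassCurve.Affine.Point

namespace Fermat.Agent.S51x

noncomputable section

section GAL
variable (E : WeierstrassCurve ℚ)

theorem smul_some (σ : Qbar ≃ₐ[ℚ] Qbar) {x y : Qbar} (h : (E⁄Qbar).Nonsingular x y) :
    ∃ h' : (E⁄Qbar).Nonsingular (σ x) (σ y),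
      σ • (Point.some x y h : (E⁄Qbar).Point) = Point.some (σ x) (σ y) h' :=
  ⟨(WeierstrassCurve.Affine.baseChange_nonsingular (W := E) (f := σ.toAlgHom) σ.toAlgHom.injective ..).mpr h, rfl⟩

theorem smul_zero_point (σ : Qbar ≃ₐ[ℚ] Qbar) : σ • (0 : (E⁄Qbar).Point) = 0 := rfl

theorem smul_add_point (σ : Qbar ≃ₐ[ℚ] Qbar) (P Q : (E⁄Qbar).Point) :
    σ • (P + Q) = σ • P + σ • Q := smul_add σ P Q

theorem smul_neg_point (σ : Qbar ≃ₐ[ℚ] Qbar) (P : (E⁄Qbar).Point) :
    σ • (-P) = -(σ • P) := smul_neg σ P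

theorem smul_nsmul_point (σ : Qbar ≃ₐ[ℚ] Qbar) (k : ℕ) (P : (E⁄Qbar).Point) :
    σ • (k • P) = k • (σ • P) := by
  have := algEquiv_smul_zsmul (W' := E) (S := ℚ) (K := Qbar) σ (k : ℤ) P
  simpa using this

theorem smul_zsmul_point (σ : Qbar ≃ₐ[ℚ] Qbar) (k : ℤ) (P : (E⁄Qbar).Point) :
    σ • (k • P) = k • (σ • P) :=
  algEquiv_smul_zsmul (W' := E) (S := ℚ) (K := Qbar) σ k P

theorem exists_stable_line (p : ℕ) [Fact p.Prime]
    (hnt : Nontrivial (Submodule.torsionBy ℤ (E⁄Qbar).Point p))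
    (hfin : Finite (Submodule.torsionBy ℤ (E⁄Qbar).Point p))
    (hcard : Nat.card (Submodule.torsionBy ℤ (E⁄Qbar).Point p) ≤ p ^ 2)
    (hred : ¬ GaloisRepIsIrreducible (K := Qbar) ℚ E p) :
    ∃ P : (E⁄Qbar).Point, P ≠ 0 ∧ (p : ℤ) • P = 0 ∧
      ∀ σ : Qbar ≃ₐ[ℚ] Qbar, ∃ k : ℕ, ¬ p ∣ k ∧ σ • P = k • P := by
  classical
  have hp : p.Prime := Fact.out
  -- a stable, proper, nonzero subspace
  obtain ⟨N, hNst, hN0, hN1⟩ : ∃ N : Submodule (ZMod p)
      (Submodule.torsionBy ℤ (E⁄Qbar).Point p), IsGaloisStable ℚ N ∧ N ≠ ⊥ ∧ N ≠ ⊤ := by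
    by_contra hcon
    apply hred
    refine ⟨hnt, fun N hN => ?_⟩
    by_contra hN'
    rw [not_or] at hN'
    exact hcon ⟨N, hN, hN'.1, hN'.2⟩
  -- dimension count
  have : Module.Finite (ZMod p) (Submodule.torsionBy ℤ (E⁄Qbar).Point p) :=
    Module.Finite.of_finite
  have hVcard := Module.natCard_eq_pow_finrank (K := ZMod p)
    (V := Submodule.torsionBy ℤ (E⁄Qbar).Point p)
  rw [Nat.card_zmod] at hVcard
  have hdimV : Module.finrank (ZMod p) (Submodule.torsionBy ℤ (E⁄Qbar).Point p) ≤ 2 := by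
    rw [hVcard] at hcard
    exact (Nat.pow_le_pow_iff_right hp.one_lt).mp hcard
  have hdimN_lt : Module.finrank (ZMod p) N <
      Module.finrank (ZMod p) (Submodule.torsionBy ℤ (E⁄Qbar).Point p) :=
    Submodule.finrank_lt hN1
  have hdimN_pos : 0 < Module.finrank (ZMod p) N := by
    rw [Module.finrank_pos_iff]
    exact Submodule.nontrivial_iff_ne_bot.mpr hN0
  have hdimN : Module.finrank (ZMod p) N = 1 := by omega
  obtain ⟨v, hv0, hv⟩ := finrank_eq_one_iff'.mp hdimN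
  refine ⟨((v : Submodule.torsionBy ℤ (E⁄Qbar).Point p) : (E⁄Qbar).Point), ?_, ?_, ?_⟩
  · intro h0
    apply hv0
    ext
    simp [h0]
  · have := (v : Submodule.torsionBy ℤ (E⁄Qbar).Point p).2
    rw [Submodule.mem_torsionBy_iff] at this
    exact this
  · intro σ
    have hσv : σ • (v : Submodule.torsionBy ℤ (E⁄Qbar).Point p) ∈ N := hNst σ _ v.2
    obtain ⟨c, hc⟩ := hv ⟨_, hσv⟩
    have hc' : c • (v : Submodule.torsionBy ℤ (E⁄Qbar).Point p) =
        σ • (v : Submodule.torsionBy ℤ (E⁄Qbar).Point p) := by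
      have := congrArg Subtype.val hc
      simpa using this
    have hc0 : c ≠ 0 := by
      rintro rfl
      rw [zero_smul] at hc'
      apply hv0
      ext
      have h1 : σ⁻¹ • (σ • (v : Submodule.torsionBy ℤ (E⁄Qbar).Point p)) =
          (v : Submodule.torsionBy ℤ (E⁄Qbar).Point p) := inv_smul_smul σ _
      rw [← hc', smul_zero] at h1
      rw [← h1]
      rfl
    refine ⟨c.val, ?_, ?_⟩
    · intro hdvd
      apply hc0
      rw [← ZMod.natCast_zmod_val c]
      exact (ZMod.natCast_eq_zero_iff _ _).mpr hdvd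
    · have h2 : (c.val : ZMod p) • (v : Submodule.torsionBy ℤ (E⁄Qbar).Point p) =
          σ • (v : Submodule.torsionBy ℤ (E⁄Qbar).Point p) := by
        rw [ZMod.natCast_zmod_val]; exact hc'
      rw [Nat.cast_smul_eq_nsmul] at h2
      have h3 := congrArg Subtype.val h2
      rw [Submodule.coe_smul_of_tower] at h3
      exact h3.symm

/-- multiples of a `p`-torsion point only depend on the multiplier modulo `p`. -/
theorem nsmul_eq_mod_nsmul {p : ℕ} {P : (E⁄Qbar).Point} (hP : (p : ℤ) • P = 0) (k : ℕ) :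
    k • P = (k % p) • P := by
  have hP' : p • P = 0 := by
    rw [← natCast_zsmul]; exact hP
  conv_lhs => rw [← Nat.div_add_mod k p]
  rw [add_nsmul, mul_nsmul, hP', nsmul_zero, zero_add]

/-- for a `3`-torsion point, a Galois conjugate which is a multiple prime to `3` is `±P`. -/
theorem smul_eq_or_eq_neg_of_three {P : (E⁄Qbar).Point} (hP : (3 : ℤ) • P = 0)
    {σ : Qbar ≃ₐ[ℚ] Qbar} {k : ℕ} (hk : ¬ 3 ∣ k) (hσ : σ • P = k • P) :
    σ • P = P ∨ σ • P = -P := by
  have hP' : (((3 : ℕ) : ℤ)) • P = 0 := by exact_mod_cast hP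
  rw [hσ, nsmul_eq_mod_nsmul E hP' k]
  have h3 : 3 • P = 0 := by
    rw [← natCast_zsmul]; exact hP'
  have hk' : k % 3 = 1 ∨ k % 3 = 2 := by omega
  rcases hk' with h | h
  · left; rw [h, one_nsmul]
  · right
    rw [h]
    have : 2 • P + P = 0 := by
      rw [← succ_nsmul]; exact h3
    exact eq_neg_of_add_eq_zero_left this

/-- the `x`-coordinate of a `3`-torsion point spanning a Galois-stable line is Galois-fixed. -/
theorem x_fixed_of_three {x y : Qbar} (h : (E⁄Qbar).Nonsingular x y)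
    (hP : (3 : ℤ) • (Point.some x y h : (E⁄Qbar).Point) = 0)
    {σ : Qbar ≃ₐ[ℚ] Qbar} {k : ℕ} (hk : ¬ 3 ∣ k)
    (hσ : σ • (Point.some x y h : (E⁄Qbar).Point) = k • (Point.some x y h : (E⁄Qbar).Point)) :
    σ x = x := by
  obtain ⟨h', hs⟩ := smul_some E σ h
  rcases smul_eq_or_eq_neg_of_three E hP hk hσ with h1 | h1
  · rw [hs] at h1
    exact (Point.some.inj h1).1
  · rw [hs, Point.neg_some] at h1
    exact (Point.some.inj h1).1

end GAL

end

end Fermat.Agent.S51x
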