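import Fermat.Statements.S51

/-!
# S51 project: shared basics

`Qbar`, the Galois instance for `ℚ ⊆ Qbar` with the `DivisionRing.toRatAlgebra` algebra structure
(the one the frozen statement uses), and "fixed by Galois implies rational".
-/

set_option autoImplicit false

namespace Fermat.Agent.S51x

/-- Abbreviation for the algebraic closure of `ℚ` used in the frozen statement. -/
abbrev Qbar := AlgebraicClosure ℚ

theorem ratAlg_eq :
    (DivisionRing.toRatAlgebra : Algebra ℚ (AlgebraicClosure ℚ)) = AlgebraicClosure.instAlgebra ℚ :=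
  Subsingleton.elim _ _

instance instIsAlgClosureQbar : IsAlgClosure ℚ (AlgebraicClosure ℚ) := by
  have h := ratAlg_eq
  have key : ∀ (a : Algebra ℚ (AlgebraicClosure ℚ)), a = AlgebraicClosure.instAlgebra ℚ →
      @Algebra.IsAlgebraic ℚ (AlgebraicClosure ℚ) _ _ a := by
    intro a ha
    subst ha
    infer_instance
  exact ⟨inferInstance, key _ h⟩

instance instIsGaloisQbar : IsGalois ℚ (AlgebraicClosure ℚ) := by
  have h1 : Algebra.IsAlgebraic ℚ (AlgebraicClosure ℚ) := IsAlgClosure.isAlgebraic
  have h2 : Algebra.IsSeparable ℚ (AlgebraicClosure ℚ) :=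
    Algebra.IsAlgebraic.isSeparable_of_perfectField
  have h3 : Normal ℚ (AlgebraicClosure ℚ) := IsAlgClosure.normal ℚ (AlgebraicClosure ℚ)
  exact isGalois_iff.mpr ⟨h2, h3⟩

/-- An element of `Qbar` fixed by every `ℚ`-automorphism is rational. -/
theorem exists_rat_of_fixed (x : Qbar) (h : ∀ σ : Qbar ≃ₐ[ℚ] Qbar, σ x = x) :
    ∃ q : ℚ, algebraMap ℚ Qbar q = x :=
  (InfiniteGalois.mem_range_algebraMap_iff_fixed x).mpr h

end Fermat.Agent.S51x
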