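import Mathlib

/-!
# S51 middle step (helper3): the plane model of `X_0(15)` and its four non-cuspidal rational points

`A` is a Hauptmodul of `X_0(3)` and `B` a Hauptmodul of `X_0(5)`, normalised so that
`j = (A+27)(A+3)^3/A = (B^2+10B+5)^3/B`.  The plane curve
`(A+27)(A+3)^3 B = (B^2+10B+5)^3 A` is birational to the `(2,2)`-curve
`u^2 w - u w^2 - 5 u w - 9 u - w = 0`, which is birational to `y^2 = x (x+9) (x-16)`.
All identities below are certified by explicit cofactors (computed with exact arithmetic).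
-/

namespace Fermat.Agent.S51x

/-- `5` is not the square of a rational number. -/
theorem mid_sq_ne_five (r : ℚ) : r ^ 2 ≠ 5 := by
  intro h
  have h5 : IsSquare (5 : ℚ) := ⟨r, by rw [← h]; ring⟩
  rw [Rat.isSquare_iff] at h5
  norm_num at h5

theorem mid_d1_ne_zero (B : ℚ) : B ^ 2 + 4 * B - 1 ≠ 0 := by
  intro h
  exact mid_sq_ne_five (B + 2) (by linear_combination h)

theorem mid_d2_ne_zero (B : ℚ) : B ^ 2 + 10 * B + 5 ≠ 0 := by
  intro h
  exact mid_sq_ne_five ((B + 5) / 2) (by linear_combination h / 4)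

/-- numerator of `u` -/
def midNu (A B : ℚ) : ℚ := 3*A^3*B^2 + 25*A^3*B + A^2*B^4 + 25*A^2*B^3 + 254*A^2*B^2 + 900*A^2*B + 9*A*B^5 + 210*A*B^4 + 1740*A*B^3 + 6063*A*B^2 + 6750*A*B - B^6 - 15*B^5 - 54*B^4 - 25*B^3 + 9*B^2 - 225*B - 3125

/-- numerator of `w` -/
def midNw (A B : ℚ) : ℚ := -A^3*B^3 + 2*A^3*B^2 + 25*A^3*B - 18*A^2*B^3 + 216*A^2*B^2 + 900*A^2*B + 9*A*B^5 + 180*A*B^4 + 1269*A*B^3 + 5742*A*B^2 + 6750*A*B + B^8 + 28*B^7 + 275*B^6 + 1090*B^5 + 1450*B^4 + 272*B^3 + 11*B^2 - 100*B - 3125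

/-- numerator of `1/u` -/
def midNui (A B : ℚ) : ℚ := A^3*B^2 + 3*A^3*B + 33*A^2*B^2 + 99*A^2*B + A*B^4 + 20*A*B^3 + 281*A*B^2 + 613*A*B + 25*A - B^7 - 33*B^6 - 405*B^5 - 2230*B^4 - 5175*B^3 - 3582*B^2 - 146*B

/-- numerator of `1/w` -/
def midNwi (A B : ℚ) : ℚ := -2*A^3*B + A^2*B^3 + 10*A^2*B^2 - 61*A^2*B - A*B^4 + 10*A*B^3 + 190*A*B^2 - 292*A*B - 25*A + 9*B^5 + 180*B^4 + 1071*B^3 + 1710*B^2 + 144*B

/-- the common denominator `(B^2+4B-1)(B^2+10B+5)^2` -/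
def midD (B : ℚ) : ℚ := (B ^ 2 + 4 * B - 1) * (B ^ 2 + 10 * B + 5) ^ 2

theorem midD_ne_zero (B : ℚ) : midD B ≠ 0 :=
  mul_ne_zero (mid_d1_ne_zero B) (pow_ne_zero 2 (mid_d2_ne_zero B))

theorem mid_u_mul_ui (A B : ℚ) (hF : (A + 27) * (A + 3) ^ 3 * B = (B ^ 2 + 10 * B + 5) ^ 3 * A) :
    midNu A B * midNui A B = B * midD B ^ 2 := by
  unfold midNu midNui midD
  linear_combination (3*A^2*B^3 + 34*A^2*B^2 + 75*A^2*B + A*B^5 + 28*A*B^4 + 320*A*B^3 + 1560*A*B^2 + 2475*A*B + 9*B^6 + 237*B^5 + 2371*B^4 + 11153*B^3 + 23309*B^2 + 15400*B + 625) * hF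

theorem mid_w_mul_wi (A B : ℚ) (hF : (A + 27) * (A + 3) ^ 3 * B = (B ^ 2 + 10 * B + 5) ^ 3 * A) :
    midNw A B * midNwi A B = 9 * B * midD B ^ 2 := by
  unfold midNw midNwi midD
  linear_combination (2*A^2*B^3 - 4*A^2*B^2 - 50*A^2*B - A*B^5 - 8*A*B^4 + 70*A*B^3 - 160*A*B^2 - 1525*A*B + B^6 - 12*B^5 - 231*B^4 - 518*B^3 - 4629*B^2 - 7350*B - 625) * hF

theorem mid_G_num (A B : ℚ) (hF : (A + 27) * (A + 3) ^ 3 * B = (B ^ 2 + 10 * B + 5) ^ 3 * A) :
    midNu A B ^ 2 * midNw A B - midNu A B * midNw A B ^ 2 - 5 * midNu A B * midNw A B * (B * midD B)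
      - 9 * midNu A B * (B * midD B) ^ 2 - midNw A B * (B * midD B) ^ 2 = 0 := by
  unfold midNu midNw midD
  linear_combination (-3*A^5*B^7 - 22*A^5*B^6 + 106*A^5*B^5 + 750*A^5*B^4 + 625*A^5*B^3 - A^4*B^9 - 27*A^4*B^8 - 296*A^4*B^7 + 184*A^4*B^6 + 18143*A^4*B^5 + 65875*A^4*B^4 + 46250*A^4*B^3 - 10*A^3*B^10 - 222*A^3*B^9 - 1125*A^3*B^8 + 11159*A^3*B^7 + 190776*A^3*B^6 + 1060752*A^3*B^5 + 2212375*A^3*B^4 + 1224375*A^3*B^3 + 3*A^2*B^12 + 119*A^2*B^11 + 1851*A^2*B^10 + 18494*A^2*B^9 + 176401*A^2*B^8 + 1466313*A^2*B^7 + 8005028*A^2*B^6 + 24097356*A^2*B^5 + 32642250*A^2*B^4 + 13543750*A^2*B^3 - 78125*A^2*B^2 + A*B^14 + 56*A*B^13 + 1470*A*B^12 + 23188*A*B^11 + 238790*A*B^10 + 1699138*A*B^9 + 8882325*A*B^8 + 35357212*A*B^7 + 102200623*A*B^6 + 184912546*A*B^5 + 168334125*A*B^4 + 49857500*A*B^3 - 2968750*A*B^2 + 9*B^15 + 489*B^14 + 11481*B^13 + 152523*B^12 + 1259355*B^11 + 6670221*B^10 + 22526265*B^9 + 46587978*B^8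 + 54135084*B^7 + 29103069*B^6 - 2158962*B^5 - 34234875*B^4 - 58260000*B^3 - 25078125*B^2) * hF

theorem mid_A_num (A B : ℚ) (hF : (A + 27) * (A + 3) ^ 3 * B = (B ^ 2 + 10 * B + 5) ^ 3 * A) :
    A * midNw A B ^ 3 = 729 * midNu A B ^ 2 * (B * midD B) := by
  unfold midNu midNw midD
  linear_combination (-A^6*B^8 + 6*A^6*B^7 + 63*A^6*B^6 - 292*A^6*B^5 - 1575*A^6*B^4 + 3750*A^6*B^3 + 15625*A^6*B^2 - 18*A^5*B^8 + 648*A^5*B^7 + 324*A^5*B^6 - 35496*A^5*B^5 - 36450*A^5*B^4 + 540000*A^5*B^3 + 1125000*A^5*B^2 + 27*A^4*B^10 + 432*A^4*B^9 + 351*A^4*B^8 - 19818*A^4*B^7 - 246699*A^4*B^6 - 462564*A^4*B^5 + 5879925*A^4*B^4 + 26358750*A^4*B^3 + 28687500*A^4*B^2 + 2*A^3*B^13 + 48*A^3*B^12 + 279*A^3*B^11 - 1406*A^3*B^10 - 30390*A^3*B^9 - 274416*A^3*B^8 - 1162034*A^3*B^7 + 2781258*A^3*B^6 + 62723118*A^3*B^5 + 289342100*A^3*B^4 + 521746875*A^3*B^3 + 303000000*A^3*B^2 - 3906250*A^3*B + 18*A^2*B^13 - 351*A^2*B^12 - 23328*A^2*B^11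 - 348858*A^2*B^10 - 2277342*A^2*B^9 - 3807972*A^2*B^8 + 56157606*A^2*B^7 + 525640698*A^2*B^6 + 2151148428*A^2*B^5 + 4361039775*A^2*B^4 + 3792116250*A^2*B^3 + 1078312500*A^2*B^2 - 140625000*A^2*B - 27*A*B^15 - 1242*A*B^14 - 24570*A*B^13 - 276588*A*B^12 - 1908333*A*B^11 - 6727590*A*B^10 + 14653980*A*B^9 + 352439532*A*B^8 + 2271332043*A*B^7 + 8159428134*A*B^6 + 16741959714*A*B^5 + 17367652800*A*B^4 + 6138163125*A*B^3 - 1421718750*A*B^2 - 1054687500*A*B - B^18 - 54*B^17 - 1242*B^16 - 15852*B^15 - 122580*B^14 - 588672*B^13 - 1744515*B^12 - 3387852*B^11 - 8201043*B^10 - 38195554*B^9 - 134622729*B^8 - 248401170*B^7 - 231161940*B^6 - 542234250*B^5 - 2566460475*B^4 - 5517288750*B^3 - 3076312500*B^2 + 35156250*B + 244140625) * hF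

/-- From a rational point `(A, B)` (with `A B ≠ 0`) of the plane model of `X_0(15)` we get a
rational point `(u, w)` (with `u w ≠ 0`) of the `(2,2)`-model, and `A = 729 u^2 / w^3`. -/
theorem mid_uw_of_AB (A B : ℚ) (hA : A ≠ 0) (hB : B ≠ 0)
    (hF : (A + 27) * (A + 3) ^ 3 * B = (B ^ 2 + 10 * B + 5) ^ 3 * A) :
    ∃ u w : ℚ, u ≠ 0 ∧ w ≠ 0 ∧ u ^ 2 * w - u * w ^ 2 - 5 * u * w - 9 * u - w = 0 ∧
      A * w ^ 3 = 729 * u ^ 2 := by
  have hD : midD B ≠ 0 := midD_ne_zero B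
  have hBD : B * midD B ≠ 0 := mul_ne_zero hB hD
  have hNu : midNu A B ≠ 0 := by
    intro h0
    have := mid_u_mul_ui A B hF
    rw [h0, zero_mul] at this
    exact (mul_ne_zero hB (pow_ne_zero 2 hD)) this.symm
  have hNw : midNw A B ≠ 0 := by
    intro h0
    have := mid_w_mul_wi A B hF
    rw [h0, zero_mul] at this
    exact (mul_ne_zero (mul_ne_zero (by norm_num) hB) (pow_ne_zero 2 hD)) this.symm
  refine ⟨midNu A B / (B * midD B), midNw A B / (B * midD B), div_ne_zero hNu hBD,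
    div_ne_zero hNw hBD, ?_, ?_⟩
  · have h1 := mid_G_num A B hF
    have : (midNu A B / (B * midD B)) ^ 2 * (midNw A B / (B * midD B))
        - (midNu A B / (B * midD B)) * (midNw A B / (B * midD B)) ^ 2
        - 5 * (midNu A B / (B * midD B)) * (midNw A B / (B * midD B))
        - 9 * (midNu A B / (B * midD B)) - midNw A B / (B * midD B)
        = (midNu A B ^ 2 * midNw A B - midNu A B * midNw A B ^ 2
            - 5 * midNu A B * midNw A B * (B * midD B)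
            - 9 * midNu A B * (B * midD B) ^ 2 - midNw A B * (B * midD B) ^ 2) / (B * midD B) ^ 3 := by
      field_simp
    rw [this, h1, zero_div]
  · have h2 := mid_A_num A B hF
    have : A * (midNw A B / (B * midD B)) ^ 3 = (A * midNw A B ^ 3) / (B * midD B) ^ 3 := by
      field_simp
    rw [this, h2]
    field_simp

/-- The rational points with nonzero coordinates of the `(2,2)`-model of `X_0(15)`, given the
rational points of `y^2 = x (x+9) (x-16)`. -/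
theorem mid_uw_points
    (hpts : ∀ x y : ℚ, y ^ 2 = x * (x + 9) * (x - 16) →
      x = 0 ∨ x = -9 ∨ x = 16 ∨ x = 36 ∨ x = -4)
    (u w : ℚ) (hu : u ≠ 0) (_hw : w ≠ 0)
    (hG : u ^ 2 * w - u * w ^ 2 - 5 * u * w - 9 * u - w = 0) :
    (u = -2 ∨ u = 1 / 2) ∧ (w = -9 / 2 ∨ w = -2) := by
  by_cases hden : u - w - 5 = 0
  · -- then `u = 1/2`, `w = -9/2`
    have hw' : w = u - 5 := by linear_combination -hden
    have hu' : u = 1 / 2 := by
      rw [hw'] at hG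
      linear_combination (-1 / 10 : ℚ) * hG
    refine ⟨Or.inr hu', Or.inl ?_⟩
    rw [hw', hu']; norm_num
  · set x : ℚ := (36 * u + 4 * w) / (u - w - 5) with hx
    set y : ℚ := 2 * u * (x - 36) - 5 * x with hy
    have hxe : x * (u - w - 5) = 36 * u + 4 * w := by
      rw [hx]; field_simp
    have hE : y ^ 2 = x * (x + 9) * (x - 16) := by
      have key : (y ^ 2 - x * (x + 9) * (x - 16)) * (u - w - 5) ^ 3 = 0 := by
        have e1 : (y ^ 2 - x * (x + 9) * (x - 16)) * (u - w - 5) ^ 3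
            = (u - w - 5) * (2 * u * (x * (u - w - 5) - 36 * (u - w - 5)) - 5 * (x * (u - w - 5))) ^ 2
              - (x * (u - w - 5)) * (x * (u - w - 5) + 9 * (u - w - 5))
                * (x * (u - w - 5) - 16 * (u - w - 5)) := by
          rw [hy]; ring
        rw [e1, hxe]
        linear_combination (6400 * u * w + 28800 * u - 3200 * w - 14400) * hG
      have := (mul_eq_zero.mp key).resolve_right (pow_ne_zero 3 hden)
      linear_combination this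
    rcases hpts x y hE with h | h | h | h | h
    · -- x = 0
      have hl : 36 * u + 4 * w = 0 := by rw [← hxe, h]; ring
      have hw' : w = -9 * u := by linear_combination hl / 4
      have h2 : u ^ 2 * (1 - 2 * u) = 0 := by
        rw [hw'] at hG; linear_combination hG / 45
      have hu' : u = 1 / 2 := by
        rcases mul_eq_zero.mp h2 with h3 | h3
        · exact absurd (pow_eq_zero_iff (n := 2) (by norm_num) |>.mp h3) hu
        · linear_combination (-1 / 2 : ℚ) * h3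
      refine ⟨Or.inr hu', Or.inl ?_⟩
      rw [hw', hu']; norm_num
    · -- x = -9
      have hl : 36 * u + 4 * w = -9 * (u - w - 5) := by rw [← hxe, h]
      have hw' : w = 9 * u - 9 := by linear_combination (-1 / 5 : ℚ) * hl
      have h2 : (2 * u - 1) ^ 3 = 0 := by
        rw [hw'] at hG; linear_combination (-1 / 9 : ℚ) * hG
      have hu' : u = 1 / 2 := by
        have := pow_eq_zero_iff (n := 3) (by norm_num) |>.mp h2
        linear_combination this / 2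
      refine ⟨Or.inr hu', Or.inl ?_⟩
      rw [hw', hu']; norm_num
    · -- x = 16
      have hl : 36 * u + 4 * w = 16 * (u - w - 5) := by rw [← hxe, h]
      have hw' : w = -u - 4 := by linear_combination hl / 20
      have h2 : (u + 2) ^ 2 * (2 * u - 1) = 0 := by
        rw [hw'] at hG; linear_combination -hG
      rcases mul_eq_zero.mp h2 with h3 | h3
      · have h4 := pow_eq_zero_iff (n := 2) (by norm_num) |>.mp h3
        have hu' : u = -2 := by linear_combination h4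
        refine ⟨Or.inl hu', Or.inr ?_⟩
        rw [hw', hu']; norm_num
      · have hu' : u = 1 / 2 := by linear_combination h3 / 2
        refine ⟨Or.inr hu', Or.inl ?_⟩
        rw [hw', hu']; norm_num
    · -- x = 36
      have hl : 36 * u + 4 * w = 36 * (u - w - 5) := by rw [← hxe, h]
      have hw' : w = -9 / 2 := by linear_combination hl / 40
      have h2 : (2 * u - 1) * (u + 2) = 0 := by
        rw [hw'] at hG; linear_combination (-4 / 9 : ℚ) * hG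
      refine ⟨?_, Or.inl hw'⟩
      rcases mul_eq_zero.mp h2 with h3 | h3
      · right; linear_combination h3 / 2
      · left; linear_combination h3
    · -- x = -4
      have hl : 36 * u + 4 * w = -4 * (u - w - 5) := by rw [← hxe, h]
      have hu' : u = 1 / 2 := by linear_combination hl / 40
      have h2 : (2 * w + 9) * (w + 2) = 0 := by
        rw [hu'] at hG; linear_combination (-4 : ℚ) * hG
      refine ⟨Or.inr hu', ?_⟩
      rcases mul_eq_zero.mp h2 with h3 | h3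
      · left; linear_combination h3 / 2
      · right; linear_combination h3

/-- The four possible values of the level-3 Hauptmodul `A` at a non-cuspidal rational point of
`X_0(15)`. -/
theorem mid_A_values
    (hpts : ∀ x y : ℚ, y ^ 2 = x * (x + 9) * (x - 16) →
      x = 0 ∨ x = -9 ∨ x = 16 ∨ x = 36 ∨ x = -4)
    (A B : ℚ) (hA : A ≠ 0) (hB : B ≠ 0)
    (hF : (A + 27) * (A + 3) ^ 3 * B = (B ^ 2 + 10 * B + 5) ^ 3 * A) :
    A = -32 ∨ A = -729 / 2 ∨ A = -2 ∨ A = -729 / 32 := by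
  obtain ⟨u, w, hu, hw, hG, hAw⟩ := mid_uw_of_AB A B hA hB hF
  obtain ⟨hu', hw'⟩ := mid_uw_points hpts u w hu hw hG
  rcases hu' with hu' | hu' <;> rcases hw' with hw' | hw' <;> rw [hu', hw'] at hAw
  · left; linear_combination (-8 / 729 : ℚ) * hAw
  · right; left; linear_combination (-1 / 8 : ℚ) * hAw
  · right; right; left; linear_combination (-8 / 729 : ℚ) * hAw
  · right; right; right; linear_combination (-1 / 8 : ℚ) * hAw

/-- Integer core of the final contradiction: `a c₄³ = b Δ` with `5 ∤ a`, and `b = 5 b'` or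
`b = 25 b'` with `5 ∤ b'`, is impossible when `5 ∣ Δ → 5 ∤ c₄`. -/
theorem mid_five_contra (c4 Δ a b' : ℤ) (hss : (5 : ℤ) ∣ Δ → ¬ (5 : ℤ) ∣ c4)
    (ha : ¬ (5 : ℤ) ∣ a) (hb' : ¬ (5 : ℤ) ∣ b')
    (h : a * c4 ^ 3 = 5 * b' * Δ ∨ a * c4 ^ 3 = 25 * b' * Δ) : False := by
  have p5 : Prime (5 : ℤ) := Int.prime_iff_natAbs_prime.mpr (by norm_num)
  have h5 : (5 : ℤ) ∣ a * c4 ^ 3 := by
    rcases h with h | h
    · exact ⟨b' * Δ, by rw [h]; ring⟩
    · exact ⟨5 * b' * Δ, by rw [h]; ring⟩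
  have h5c : (5 : ℤ) ∣ c4 :=
    p5.dvd_of_dvd_pow ((p5.dvd_or_dvd h5).resolve_left ha)
  obtain ⟨k, rfl⟩ := h5c
  have h5Δ : (5 : ℤ) ∣ b' * Δ := by
    rcases h with h | h
    · have e : (5 : ℤ) * (b' * Δ) = 5 * (5 * (5 * a * k ^ 3)) := by linear_combination -h
      exact ⟨5 * a * k ^ 3, mul_left_cancel₀ (by norm_num) e⟩
    · have e : (25 : ℤ) * (b' * Δ) = 25 * (5 * (a * k ^ 3)) := by linear_combination -h
      exact ⟨a * k ^ 3, mul_left_cancel₀ (by norm_num) e⟩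
  exact hss ((p5.dvd_or_dvd h5Δ).resolve_left hb') ⟨k, rfl⟩

/-- **S51 core**: a semistable integral model cannot have both a rational point on `X_0(3)`
and a rational point on `X_0(5)` above its `j`-invariant `c₄³/Δ` (given the rational points of
`y² = x (x+9) (x-16)`, i.e. of `X_0(15)`). Only semistability at `5` is used. -/
theorem mid_core
    (hpts : ∀ x y : ℚ, y ^ 2 = x * (x + 9) * (x - 16) →
      x = 0 ∨ x = -9 ∨ x = 16 ∨ x = 36 ∨ x = -4)
    (c4 Δ : ℤ) (hΔ : Δ ≠ 0) (hss : (5 : ℤ) ∣ Δ → ¬ (5 : ℤ) ∣ c4)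
    (τ t : ℚ) (hτ : τ ≠ 0) (ht : t ≠ 0)
    (h3 : (c4 : ℚ) ^ 3 * τ = (Δ : ℚ) * (τ + 27) * (τ + 3) ^ 3)
    (h5 : (c4 : ℚ) ^ 3 * t = (Δ : ℚ) * (t ^ 2 + 10 * t + 5) ^ 3) : False := by
  have hΔq : (Δ : ℚ) ≠ 0 := by exact_mod_cast hΔ
  have hF : (τ + 27) * (τ + 3) ^ 3 * t = (t ^ 2 + 10 * t + 5) ^ 3 * τ := by
    apply mul_left_cancel₀ hΔq
    linear_combination (-t) * h3 + τ * h5
  rcases mid_A_values hpts τ t hτ ht hF with h | h | h | h
  · -- τ = -32
    rw [h] at h3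
    have hz : (32 : ℤ) * c4 ^ 3 = 5 * (-24389) * Δ := by
      have : ((32 : ℤ) : ℚ) * (c4 : ℚ) ^ 3 = ((5 : ℤ) : ℚ) * ((-24389 : ℤ) : ℚ) * (Δ : ℚ) := by
        push_cast; linear_combination -h3
      exact_mod_cast this
    exact mid_five_contra c4 Δ 32 (-24389) hss (by norm_num) (by norm_num) (Or.inl hz)
  · -- τ = -729/2
    rw [h] at h3
    have hz : (-5832 : ℤ) * c4 ^ 3 = 25 * 10204192809 * Δ := by
      have : ((-5832 : ℤ) : ℚ) * (c4 : ℚ) ^ 3 = ((25 : ℤ) : ℚ) * ((10204192809 : ℤ) : ℚ) * (Δ : ℚ) := by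
        push_cast; linear_combination 16 * h3
      exact_mod_cast this
    exact mid_five_contra c4 Δ (-5832) 10204192809 hss (by norm_num) (by norm_num) (Or.inr hz)
  · -- τ = -2
    rw [h] at h3
    have hz : (-2 : ℤ) * c4 ^ 3 = 25 * 1 * Δ := by
      have : ((-2 : ℤ) : ℚ) * (c4 : ℚ) ^ 3 = ((25 : ℤ) : ℚ) * ((1 : ℤ) : ℚ) * (Δ : ℚ) := by
        push_cast; linear_combination h3
      exact_mod_cast this
    exact mid_five_contra c4 Δ (-2) 1 hss (by norm_num) (by norm_num) (Or.inr hz)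
  · -- τ = -729/32
    rw [h] at h3
    have hz : (23887872 : ℤ) * c4 ^ 3 = 5 * 6848175699 * Δ := by
      have : ((23887872 : ℤ) : ℚ) * (c4 : ℚ) ^ 3 = ((5 : ℤ) : ℚ) * ((6848175699 : ℤ) : ℚ) * (Δ : ℚ) := by
        push_cast; linear_combination (-1048576) * h3
      exact_mod_cast this
    exact mid_five_contra c4 Δ 23887872 6848175699 hss (by norm_num) (by norm_num) (Or.inl hz)

/-! ### Adapters in the shape of `Spec.lean` (module `M50_X015`) -/

/-- `Spec.exists_uw_of_tau_t` (the extra hypotheses `τ + 3 ≠ 0`, `τ² + 18τ - 27 ≠ 0` are not needed). -/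
theorem mid_exists_uw_of_tau_t (τ t : ℚ) (hτ0 : τ ≠ 0) (ht0 : t ≠ 0)
    (hP : t * ((τ + 27) * (τ + 3) ^ 3) = τ * (t ^ 2 + 10 * t + 5) ^ 3) :
    ∃ u w : ℚ, u ≠ 0 ∧ w ≠ 0 ∧ u ^ 2 * w - u * w ^ 2 - 5 * u * w - 9 * u - w = 0 ∧
      τ * w ^ 3 = 729 * u ^ 2 :=
  mid_uw_of_AB τ t hτ0 ht0 (by linear_combination hP)

/-- `Spec.tau_classification`, given the rational points of `y² = x (x+9) (x-16)`
(the hypotheses `j ≠ 0`, `j ≠ 1728` are not needed). -/
theorem mid_tau_classification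
    (hpts : ∀ x y : ℚ, y ^ 2 = x * (x + 9) * (x - 16) →
      x = 0 ∨ x = -9 ∨ x = 16 ∨ x = 36 ∨ x = -4)
    (j τ t : ℚ) (hτ0 : τ ≠ 0) (ht0 : t ≠ 0)
    (h3 : j * τ = (τ + 27) * (τ + 3) ^ 3) (h5 : j * t = (t ^ 2 + 10 * t + 5) ^ 3) :
    τ = -729 / 2 ∨ τ = -32 ∨ τ = -729 / 32 ∨ τ = -2 := by
  have hF : (τ + 27) * (τ + 3) ^ 3 * t = (t ^ 2 + 10 * t + 5) ^ 3 * τ := by
    linear_combination (-t) * h3 + τ * h5
  rcases mid_A_values hpts τ t hτ0 ht0 hF with h | h | h | h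
  · exact Or.inr (Or.inl h)
  · exact Or.inl h
  · exact Or.inr (Or.inr (Or.inr h))
  · exact Or.inr (Or.inr (Or.inl h))

end Fermat.Agent.S51x
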