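import Fermat.Agent.S51x.JCheck

/-!
# S51 project, module M60: arithmetic of the `j`-invariant of a semistable integral model

For a semistable integral Weierstrass model `W` with `Δ ≠ 0` we show `j ≠ 0`, `j ≠ 1728`, and that
`j` is not the `j`-invariant attached to any of the four exceptional values
`τ ∈ {-729/2, -32, -729/32, -2}` of the `X₀(3)`-parameter.
-/

set_option autoImplicit false

namespace Fermat.Agent.S51x

/-- If no prime divides the nonzero integer `D`, then `D = 1` or `D = -1`. -/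
theorem sst_eq_one_or_neg_one_of_no_prime (D : ℤ)
    (h : ∀ p : ℕ, p.Prime → ¬ (p : ℤ) ∣ D) : D = 1 ∨ D = -1 := by
  have h1 : D.natAbs = 1 := by
    by_contra hne
    obtain ⟨p, hp, hpd⟩ := Nat.exists_prime_and_dvd hne
    exact h p hp (Int.natCast_dvd.mpr hpd)
  exact Int.natAbs_eq_natAbs_iff.mp (by simpa using h1)

/-- A semistable model with `c₄ = 0` has `Δ = ±1`. -/
theorem sst_unit_of_c₄_dvd (W : WeierstrassCurve ℤ) (hW : W.IsSemistableModel)
    (hdiv : ∀ p : ℕ, p.Prime → (p : ℤ) ∣ W.Δ → (p : ℤ) ∣ W.c₄) : W.Δ = 1 ∨ W.Δ = -1 := by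
  apply sst_eq_one_or_neg_one_of_no_prime
  intro p hp hpΔ
  exact hW p hp hpΔ (hdiv p hp hpΔ)

/-- `1728` is not a square of an integer. -/
theorem sst_not_sq_1728 (c : ℤ) : c ^ 2 ≠ 1728 := by
  intro h
  have h1 : c.natAbs ^ 2 = 1728 := by
    have : (c.natAbs : ℤ) ^ 2 = 1728 := by rw [Int.natCast_natAbs, sq_abs, h]
    exact_mod_cast this
  have h2 : c.natAbs < 42 := by
    by_contra hge
    have hge' : 42 ≤ c.natAbs := Nat.le_of_not_lt hge
    have : 42 ^ 2 ≤ c.natAbs ^ 2 := Nat.pow_le_pow_left hge' 2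
    omega
  have h3 : 41 < c.natAbs := by
    by_contra hle
    have hle' : c.natAbs ≤ 41 := Nat.le_of_not_lt hle
    have : c.natAbs ^ 2 ≤ 41 ^ 2 := Nat.pow_le_pow_left hle' 2
    omega
  omega

/-- The congruence obstruction: `b₂ = a₁² + 4a₂` never satisfies `b₂² - 24 b₄ = ±12`. -/
theorem sst_c₄_ne_twelve (a₁ a₂ b₄ : ℤ) :
    (a₁ ^ 2 + 4 * a₂) ^ 2 - 24 * b₄ ≠ 12 ∧ (a₁ ^ 2 + 4 * a₂) ^ 2 - 24 * b₄ ≠ -12 := by
  have key : ∀ x y z : ZMod 8, (x ^ 2 + 4 * y) ^ 2 - 24 * z ≠ 12 ∧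
      (x ^ 2 + 4 * y) ^ 2 - 24 * z ≠ -12 := by decide
  obtain ⟨k1, k2⟩ := key (a₁ : ZMod 8) (a₂ : ZMod 8) (b₄ : ZMod 8)
  constructor
  · intro h
    apply k1
    have := congrArg (Int.cast : ℤ → ZMod 8) h
    push_cast at this
    exact this
  · intro h
    apply k2
    have := congrArg (Int.cast : ℤ → ZMod 8) h
    push_cast at this
    exact this

/-- The basic relation `c₄³ = j Δ` over `ℚ` for an integral model. -/
theorem sst_c₄_cube_eq (W : WeierstrassCurve ℤ)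
    [(W.map (Int.castRingHom ℚ)).IsElliptic] :
    (W.c₄ : ℚ) ^ 3 = (W.map (Int.castRingHom ℚ)).j * (W.Δ : ℚ) := by
  have hc : (W.map (Int.castRingHom ℚ)).c₄ = (W.c₄ : ℚ) := by
    rw [WeierstrassCurve.map_c₄]; rfl
  have hd : (W.map (Int.castRingHom ℚ)).Δ = (W.Δ : ℚ) := by
    rw [WeierstrassCurve.map_Δ]; rfl
  have hu : ((W.map (Int.castRingHom ℚ)).Δ' : ℚ) = (W.Δ : ℚ) := by
    rw [WeierstrassCurve.coe_Δ', hd]
  rw [WeierstrassCurve.j, hc, ← hu]
  rw [mul_comm, ← mul_assoc, Units.mul_inv, one_mul]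

theorem semistable_j_facts (W : WeierstrassCurve ℤ) (_hΔ : W.Δ ≠ 0) (hW : W.IsSemistableModel)
    [(W.map (Int.castRingHom ℚ)).IsElliptic] :
    (W.map (Int.castRingHom ℚ)).j ≠ 0 ∧ (W.map (Int.castRingHom ℚ)).j ≠ 1728 ∧
    ∀ τ : ℚ, (τ = -729 / 2 ∨ τ = -32 ∨ τ = -729 / 32 ∨ τ = -2) →
      (W.map (Int.castRingHom ℚ)).j * τ ≠ (τ + 27) * (τ + 3) ^ 3 := by
  have hj := sst_c₄_cube_eq W
  have hrel : 1728 * W.Δ = W.c₄ ^ 3 - W.c₆ ^ 2 := W.c_relation
  refine ⟨?_, ?_, ?_⟩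
  · -- `j ≠ 0`
    intro h0
    rw [h0, zero_mul] at hj
    have hc4 : W.c₄ = 0 := by
      have : (W.c₄ : ℚ) = 0 := by simpa using hj
      exact_mod_cast this
    have hunit : W.Δ = 1 ∨ W.Δ = -1 :=
      sst_unit_of_c₄_dvd W hW (fun p _ _ => by rw [hc4]; exact dvd_zero _)
    rw [hc4] at hrel
    rcases hunit with h1 | h1
    · rw [h1] at hrel
      nlinarith [sq_nonneg W.c₆]
    · rw [h1] at hrel
      exact sst_not_sq_1728 W.c₆ (by linarith)
  · -- `j ≠ 1728`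
    intro h1728
    rw [h1728] at hj
    have hc4 : W.c₄ ^ 3 = 1728 * W.Δ := by exact_mod_cast hj
    have hunit : W.Δ = 1 ∨ W.Δ = -1 := by
      apply sst_unit_of_c₄_dvd W hW
      intro p hp hpΔ
      have h1 : (p : ℤ) ∣ W.c₄ ^ 3 := by
        rw [hc4]; exact Dvd.dvd.mul_left hpΔ _
      exact (Nat.prime_iff_prime_int.mp hp).dvd_of_dvd_pow h1
    have hinj : Function.Injective fun a : ℤ => a ^ 3 :=
      (Odd.strictMono_pow (R := ℤ) (by decide : Odd 3)).injective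
    have hb : W.c₄ = W.b₂ ^ 2 - 24 * W.b₄ := rfl
    have hb2 : W.b₂ = W.a₁ ^ 2 + 4 * W.a₂ := rfl
    obtain ⟨k1, k2⟩ := sst_c₄_ne_twelve W.a₁ W.a₂ W.b₄
    rcases hunit with h1 | h1
    · rw [h1] at hc4
      have : W.c₄ = 12 := hinj (by simpa using hc4.trans (by norm_num))
      apply k1
      rw [← hb2, ← hb, this]
    · rw [h1] at hc4
      have : W.c₄ = -12 := hinj (by simpa using hc4.trans (by norm_num))
      apply k2
      rw [← hb2, ← hb, this]
  · -- the four exceptional values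
    intro τ hτ hjτ
    obtain ⟨e1, e2, e3, e4⟩ := jcheck_four W hW _ hj
    rcases hτ with rfl | rfl | rfl | rfl
    · apply e2
      have : (W.map (Int.castRingHom ℚ)).j * (-729 / 2) * (-2 / 729) =
          (-729 / 2 + 27) * (-729 / 2 + 3) ^ 3 * (-2 / 729) := by rw [hjτ]
      linarith
    · apply e3
      have : (W.map (Int.castRingHom ℚ)).j * (-32) * (-1 / 32) =
          (-32 + 27) * (-32 + 3) ^ 3 * (-1 / 32) := by rw [hjτ]
      linarith
    · apply e4
      have : (W.map (Int.castRingHom ℚ)).j * (-729 / 32) * (-32 / 729) =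
          (-729 / 32 + 27) * (-729 / 32 + 3) ^ 3 * (-32 / 729) := by rw [hjτ]
      linarith
    · apply e1
      have : (W.map (Int.castRingHom ℚ)).j * (-2) * (-1 / 2) =
          (-2 + 27) * (-2 + 3) ^ 3 * (-1 / 2) := by rw [hjτ]
      linarith

end Fermat.Agent.S51x
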