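import Fermat.Agent.S51x.Basic
import Fermat.Agent.S51x.Middle
import Fermat.Agent.S51x.Semistable

/-! S51 project, module M70: final assembly, parametrised by the three interface inputs
(3-part, 5-part, rational points of `y² = x (x+9) (x-16)`), in both shapes
(`j`-form as in the blueprint, or integral `c₄³ τ = Δ …` form). -/

set_option autoImplicit false
open WeierstrassCurve WeierstrassCurve.Affine WeierstrassCurve.Affine.Point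

namespace Fermat.Agent.S51x

/-- 3-part interface, `j`-form. -/
def FinI3j : Prop :=
  ∀ (E : WeierstrassCurve ℚ) [E.IsElliptic], E.j ≠ 0 → E.j ≠ 1728 →
    ¬ GaloisRepIsIrreducible (K := Qbar) ℚ E 3 →
    ∃ τ : ℚ, τ ≠ 0 ∧ E.j * τ = (τ + 27) * (τ + 3) ^ 3

/-- 5-part interface, `j`-form. -/
def FinI5j : Prop :=
  ∀ (E : WeierstrassCurve ℚ) [E.IsElliptic], E.j ≠ 0 → E.j ≠ 1728 →
    ¬ GaloisRepIsIrreducible (K := Qbar) ℚ E 5 →
    ∃ t : ℚ, t ≠ 0 ∧ E.j * t = (t ^ 2 + 10 * t + 5) ^ 3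

/-- 3-part interface, integral form. -/
def FinI3z : Prop :=
  ∀ W : WeierstrassCurve ℤ, W.Δ ≠ 0 → W.IsSemistableModel → ¬ W.ModRepIsIrreducible 3 →
    ∃ τ : ℚ, τ ≠ 0 ∧ (W.c₄ : ℚ) ^ 3 * τ = (W.Δ : ℚ) * (τ + 27) * (τ + 3) ^ 3

/-- 5-part interface, integral form. -/
def FinI5z : Prop :=
  ∀ W : WeierstrassCurve ℤ, W.Δ ≠ 0 → W.IsSemistableModel → ¬ W.ModRepIsIrreducible 5 →
    ∃ t : ℚ, t ≠ 0 ∧ (W.c₄ : ℚ) ^ 3 * t = (W.Δ : ℚ) * (t ^ 2 + 10 * t + 5) ^ 3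

/-- Rational points of `15a1`. -/
def FinIX : Prop :=
  ∀ x y : ℚ, y ^ 2 = x * (x + 9) * (x - 16) → x = 0 ∨ x = -9 ∨ x = 16 ∨ x = 36 ∨ x = -4

theorem fin_isElliptic (W : WeierstrassCurve ℤ) (hΔ : W.Δ ≠ 0) :
    (W.map (Int.castRingHom ℚ)).IsElliptic := by
  have hΔ' : (W.map (Int.castRingHom ℚ)).Δ ≠ 0 := by
    rw [WeierstrassCurve.map_Δ]
    simpa using hΔ
  exact ⟨isUnit_iff_ne_zero.mpr hΔ'⟩

theorem fin_I3z_of_I3j (h : FinI3j) : FinI3z := by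
  intro W hΔ hW hred
  have := fin_isElliptic W hΔ
  obtain ⟨hj0, hj1728, -⟩ := semistable_j_facts W hΔ hW
  obtain ⟨τ, hτ0, hτ⟩ := h (W.map (Int.castRingHom ℚ)) hj0 hj1728 hred
  refine ⟨τ, hτ0, ?_⟩
  rw [sst_c₄_cube_eq W]
  linear_combination (W.Δ : ℚ) * hτ

theorem fin_I5z_of_I5j (h : FinI5j) : FinI5z := by
  intro W hΔ hW hred
  have := fin_isElliptic W hΔ
  obtain ⟨hj0, hj1728, -⟩ := semistable_j_facts W hΔ hW
  obtain ⟨t, ht0, ht⟩ := h (W.map (Int.castRingHom ℚ)) hj0 hj1728 hred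
  refine ⟨t, ht0, ?_⟩
  rw [sst_c₄_cube_eq W]
  linear_combination (W.Δ : ℚ) * ht

/-- **S51 from the three interface inputs** (integral form). -/
theorem fin_s51_of_z (h3 : FinI3z) (h5 : FinI5z) (hX : FinIX)
    (W : WeierstrassCurve ℤ) (hΔ : W.Δ ≠ 0) (hW : W.IsSemistableModel) :
    W.ModRepIsIrreducible 3 ∨ W.ModRepIsIrreducible 5 := by
  by_contra hcon
  rw [not_or] at hcon
  obtain ⟨τ, hτ0, hτ⟩ := h3 W hΔ hW hcon.1
  obtain ⟨t, ht0, ht⟩ := h5 W hΔ hW hcon.2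
  exact mid_core hX W.c₄ W.Δ hΔ (hW 5 (by norm_num)) τ t hτ0 ht0 hτ ht

/-- **S51 from the three interface inputs** (`j`-form, as in the blueprint). -/
theorem fin_s51_of_j (h3 : FinI3j) (h5 : FinI5j) (hX : FinIX)
    (W : WeierstrassCurve ℤ) (hΔ : W.Δ ≠ 0) (hW : W.IsSemistableModel) :
    W.ModRepIsIrreducible 3 ∨ W.ModRepIsIrreducible 5 :=
  fin_s51_of_z (fin_I3z_of_I3j h3) (fin_I5z_of_I5j h5) hX W hΔ hW

end Fermat.Agent.S51x
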