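import Mathlib

/-!
# Complete 2-descent ("Selmer analysis") on `E3 : Y² = X (X - 1) (X - 81)`

For a rational point `X = n / m` (lowest terms, `n, m > 0`) with `Y ≠ 0` we show that, after one of
four Moebius transformations (translations by the 2-torsion points), the point has
`X', X' - 1, X' - 81` all rational squares, i.e. we get a primitive solution of
`U² = V² + D²`, `U² = W² + 81 D²`, with the size bound `U² ≤ 81 * max n m`.

Main result: `Fermat.Agent.S51x.Normalize81.normalize81`.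
-/

namespace Fermat.Agent.S51x.Normalize81

/-- gcd splitting: if `x * y = z ^ 2` with `z ≠ 0` then `x = ± g u²`, `y = ± g v²` with
`g = gcd x y` and `u, v` coprime. -/
theorem sq_split {x y z : ℤ} (h : x * y = z ^ 2) (hz : z ≠ 0) :
    ∃ (g : ℕ) (u v : ℤ), 0 < g ∧ (g : ℤ) ∣ x ∧ (g : ℤ) ∣ y ∧ IsCoprime u v ∧ u ≠ 0 ∧ v ≠ 0 ∧
      ((x = g * u ^ 2 ∧ y = g * v ^ 2) ∨ (x = -(g * u ^ 2) ∧ y = -(g * v ^ 2))) := by
  have hx : x ≠ 0 := by
    rintro rfl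
    simp at h
    exact hz (by simpa using h.symm)
  have hy : y ≠ 0 := by
    rintro rfl
    simp at h
    exact hz (by simpa using h.symm)
  set g := Int.gcd x y with hg
  have hgpos : 0 < g := Int.gcd_pos_of_ne_zero_left y hx
  have hgx : (g : ℤ) ∣ x := Int.gcd_dvd_left x y
  have hgy : (g : ℤ) ∣ y := Int.gcd_dvd_right x y
  obtain ⟨x', hx'⟩ := hgx
  obtain ⟨y', hy'⟩ := hgy
  have hcop : Int.gcd x' y' = 1 := by
    have := Int.gcd_div_gcd_div_gcd (i := x) (j := y) hgpos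
    rw [← hg] at this
    have hg0 : (g : ℤ) ≠ 0 := by exact_mod_cast hgpos.ne'
    rwa [hx', hy', Int.mul_ediv_cancel_left _ hg0, Int.mul_ediv_cancel_left _ hg0] at this
  have hgz : (g : ℤ) ∣ z := by
    rw [← Int.pow_dvd_pow_iff (n := 2) two_ne_zero, ← h, hx', hy']
    exact ⟨x' * y', by ring⟩
  obtain ⟨z', hz'⟩ := hgz
  have hg0 : (g : ℤ) ≠ 0 := by exact_mod_cast hgpos.ne'
  have h' : x' * y' = z' ^ 2 := by
    have : (g : ℤ) ^ 2 * (x' * y') = (g : ℤ) ^ 2 * z' ^ 2 := by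
      rw [hx', hy', hz'] at h
      linear_combination h
    exact mul_left_cancel₀ (pow_ne_zero 2 hg0) this
  have hz'0 : z' ≠ 0 := by
    rintro rfl
    exact hz (by simpa using hz')
  have hx'0 : x' ≠ 0 := by
    rintro rfl
    exact hx (by simpa using hx')
  have hy'0 : y' ≠ 0 := by
    rintro rfl
    exact hy (by simpa using hy')
  obtain ⟨u, hu⟩ := Int.sq_of_gcd_eq_one hcop h'
  obtain ⟨v, hv⟩ := Int.sq_of_gcd_eq_one (by rwa [Int.gcd_comm]) (by rwa [mul_comm] at h')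
  have hu0 : u ≠ 0 := by
    rintro rfl
    rcases hu with hu | hu <;> simp at hu <;> exact hx'0 hu
  have hv0 : v ≠ 0 := by
    rintro rfl
    rcases hv with hv | hv <;> simp at hv <;> exact hy'0 hv
  have hpos : 0 < x' * y' := by
    rw [h']; positivity
  have hu2 : 0 < u ^ 2 := by positivity
  have hv2 : 0 < v ^ 2 := by positivity
  have hcopuv : IsCoprime u v := by
    rw [← IsCoprime.pow_iff (m := 2) (n := 2) two_pos two_pos]
    rw [Int.isCoprime_iff_gcd_eq_one]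
    rcases hu with hu | hu <;> rcases hv with hv | hv <;> rw [hu, hv] at hcop <;>
      simpa [Int.gcd_neg] using hcop
  refine ⟨g, u, v, hgpos, ⟨x', hx'⟩, ⟨y', hy'⟩, hcopuv, hu0, hv0, ?_⟩
  rcases hu with hu | hu <;> rcases hv with hv | hv
  · left; rw [hx', hy', hu, hv]; exact ⟨rfl, rfl⟩
  · exfalso; rw [hu, hv] at hpos; nlinarith
  · exfalso; rw [hu, hv] at hpos; nlinarith
  · right; rw [hx', hy', hu, hv]; constructor <;> ring

/-- gcd reduction: an integer solution of the two quadrics (not nec. primitive) gives a primitive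
natural-number solution with smaller `U`. -/
theorem sol81_reduce {U₀ D₀ V₀ W₀ : ℤ} {B : ℕ} (hD : D₀ ≠ 0) (hV : V₀ ≠ 0) (hW : W₀ ≠ 0)
    (h1 : U₀ ^ 2 = V₀ ^ 2 + D₀ ^ 2) (h2 : U₀ ^ 2 = W₀ ^ 2 + 81 * D₀ ^ 2) (hB : U₀ ^ 2 ≤ (B : ℤ)) :
    ∃ U D V W : ℕ, (0 < D ∧ 0 < V ∧ 0 < W ∧ Nat.Coprime U D ∧ U ^ 2 = V ^ 2 + D ^ 2 ∧
      U ^ 2 = W ^ 2 + 81 * D ^ 2) ∧ U ^ 2 ≤ B := by
  set g := Int.gcd U₀ D₀ with hg
  have hgpos : 0 < g := Int.gcd_pos_of_ne_zero_right U₀ hD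
  have hg0 : (g : ℤ) ≠ 0 := by exact_mod_cast hgpos.ne'
  obtain ⟨U', hU'⟩ := Int.gcd_dvd_left U₀ D₀
  obtain ⟨D', hD'⟩ := Int.gcd_dvd_right U₀ D₀
  rw [← hg] at hU' hD'
  have hcop : Int.gcd U' D' = 1 := by
    have := Int.gcd_div_gcd_div_gcd (i := U₀) (j := D₀) hgpos
    rw [← hg] at this
    rwa [hU', hD', Int.mul_ediv_cancel_left _ hg0, Int.mul_ediv_cancel_left _ hg0] at this
  have hgV : (g : ℤ) ∣ V₀ := by
    rw [← Int.pow_dvd_pow_iff (n := 2) two_ne_zero]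
    have : V₀ ^ 2 = U₀ ^ 2 - D₀ ^ 2 := by linarith
    rw [this, hU', hD']
    exact ⟨U' ^ 2 - D' ^ 2, by ring⟩
  have hgW : (g : ℤ) ∣ W₀ := by
    rw [← Int.pow_dvd_pow_iff (n := 2) two_ne_zero]
    have : W₀ ^ 2 = U₀ ^ 2 - 81 * D₀ ^ 2 := by linarith
    rw [this, hU', hD']
    exact ⟨U' ^ 2 - 81 * D' ^ 2, by ring⟩
  obtain ⟨V', hV'⟩ := hgV
  obtain ⟨W', hW'⟩ := hgW
  have hg2 : (g : ℤ) ^ 2 ≠ 0 := pow_ne_zero 2 hg0
  have e1 : U' ^ 2 = V' ^ 2 + D' ^ 2 := by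
    apply mul_left_cancel₀ hg2
    rw [hU', hV', hD'] at h1
    linear_combination h1
  have e2 : U' ^ 2 = W' ^ 2 + 81 * D' ^ 2 := by
    apply mul_left_cancel₀ hg2
    rw [hU', hW', hD'] at h2
    linear_combination h2
  have hD'0 : D' ≠ 0 := by rintro rfl; exact hD (by simpa using hD')
  have hV'0 : V' ≠ 0 := by rintro rfl; exact hV (by simpa using hV')
  have hW'0 : W' ≠ 0 := by rintro rfl; exact hW (by simpa using hW')
  have hle : U' ^ 2 ≤ U₀ ^ 2 := by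
    rw [hU']
    have h1g : (1 : ℤ) ≤ g := by exact_mod_cast hgpos
    have : (1 : ℤ) ≤ (g : ℤ) ^ 2 := by nlinarith
    nlinarith [sq_nonneg U']
  refine ⟨U'.natAbs, D'.natAbs, V'.natAbs, W'.natAbs,
    ⟨Int.natAbs_pos.mpr hD'0, Int.natAbs_pos.mpr hV'0, Int.natAbs_pos.mpr hW'0, ?_, ?_, ?_⟩, ?_⟩
  · exact hcop
  · zify
    simpa [sq_abs] using e1
  · zify
    simpa [sq_abs] using e2
  · zify
    rw [sq_abs]
    exact hle.trans hB

/-! ### Small modular computations -/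

theorem zmod3_aux1 : ∀ q u v : ZMod 3, q ≠ 0 →
    (3 * u ^ 2 - q ^ 2) * (u ^ 2 - 27 * q ^ 2) = v ^ 2 → u = 0 ∧ v = 0 := by decide

theorem zmod3_aux2 : ∀ q u v : ZMod 3, q ≠ 0 →
    (27 * u ^ 2 - q ^ 2) * (u ^ 2 - 3 * q ^ 2) = v ^ 2 → u = 0 ∧ v = 0 := by decide

theorem zmod8_aux2p : ∀ s q u v : ZMod 8, s ^ 2 - q ^ 2 = 2 * u ^ 2 →
    s ^ 2 - 81 * q ^ 2 = 2 * v ^ 2 → 4 * u = 0 ∧ 4 * v = 0 := by decide

theorem zmod8_aux2m : ∀ s q u v : ZMod 8, q ^ 2 - s ^ 2 = 2 * u ^ 2 →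
    81 * q ^ 2 - s ^ 2 = 2 * v ^ 2 → 4 * u = 0 ∧ 4 * v = 0 := by decide

theorem zmod8_aux10p : ∀ s q u v : ZMod 8, s ^ 2 - q ^ 2 = 10 * u ^ 2 →
    s ^ 2 - 81 * q ^ 2 = 10 * v ^ 2 → 4 * u = 0 ∧ 4 * v = 0 := by decide

theorem zmod8_aux10m : ∀ s q u v : ZMod 8, q ^ 2 - s ^ 2 = 10 * u ^ 2 →
    81 * q ^ 2 - s ^ 2 = 10 * v ^ 2 → 4 * u = 0 ∧ 4 * v = 0 := by decide

theorem zmod8_aux8p : ∀ s q u v : ZMod 8, 10 * q ^ 2 = u ^ 2 - v ^ 2 →
    10 * s ^ 2 = 81 * u ^ 2 - v ^ 2 → (4 * u = 0 ∧ 4 * v = 0) ∨ (4 * s = 0 ∧ 4 * q = 0) := by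
  decide

theorem zmod8_aux8m : ∀ s q u v : ZMod 8, 10 * q ^ 2 = v ^ 2 - u ^ 2 →
    10 * s ^ 2 = v ^ 2 - 81 * u ^ 2 → (4 * u = 0 ∧ 4 * v = 0) ∨ (4 * s = 0 ∧ 4 * q = 0) := by
  decide

theorem zmod8_aux40p : ∀ s q u v : ZMod 8, 2 * q ^ 2 = u ^ 2 - v ^ 2 →
    2 * s ^ 2 = 81 * u ^ 2 - v ^ 2 → (4 * u = 0 ∧ 4 * v = 0) ∨ (4 * s = 0 ∧ 4 * q = 0) := by
  decide

theorem zmod8_aux40m : ∀ s q u v : ZMod 8, 2 * q ^ 2 = v ^ 2 - u ^ 2 →
    2 * s ^ 2 = v ^ 2 - 81 * u ^ 2 → (4 * u = 0 ∧ 4 * v = 0) ∨ (4 * s = 0 ∧ 4 * q = 0) := by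
  decide

theorem even_of_four_mul_zmod8 {x : ℤ} (h : 4 * (x : ZMod 8) = 0) : (2 : ℤ) ∣ x := by
  have h' : ((4 * x : ℤ) : ZMod 8) = 0 := by push_cast; exact h
  have := (ZMod.intCast_zmod_eq_zero_iff_dvd (4 * x) 8).mp h'
  omega

theorem three_dvd_of_zmod3 {x : ℤ} (h : (x : ZMod 3) = 0) : (3 : ℤ) ∣ x := by
  have := (ZMod.intCast_zmod_eq_zero_iff_dvd x 3).mp h
  omega

theorem not_both_even {x y : ℤ} (h : IsCoprime x y) (hx : (2 : ℤ) ∣ x) (hy : (2 : ℤ) ∣ y) :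
    False := by
  have := h.isUnit_of_dvd' hx hy
  rw [Int.isUnit_iff] at this
  omega

theorem not_both_three {x y : ℤ} (h : IsCoprime x y) (hx : (3 : ℤ) ∣ x) (hy : (3 : ℤ) ∣ y) :
    False := by
  have := h.isUnit_of_dvd' hx hy
  rw [Int.isUnit_iff] at this
  omega

/-- The "even" Selmer classes are empty. -/
theorem excl_even {s q u v : ℤ} (hsq : IsCoprime s q) (huv : IsCoprime u v) {c : ℤ}
    (hc : c = 2 ∨ c = -2 ∨ c = 8 ∨ c = -8 ∨ c = 10 ∨ c = -10 ∨ c = 40 ∨ c = -40)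
    (h1 : s ^ 2 - q ^ 2 = c * u ^ 2) (h2 : s ^ 2 - 81 * q ^ 2 = c * v ^ 2) : False := by
  have key : (4 * (u : ZMod 8) = 0 ∧ 4 * (v : ZMod 8) = 0) ∨
      (4 * (s : ZMod 8) = 0 ∧ 4 * (q : ZMod 8) = 0) := by
    rcases hc with rfl | rfl | rfl | rfl | rfl | rfl | rfl | rfl
    · left
      have e1 := congrArg (Int.cast : ℤ → ZMod 8) h1
      have e2 := congrArg (Int.cast : ℤ → ZMod 8) h2
      push_cast at e1 e2
      exact zmod8_aux2p _ _ _ _ e1 e2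
    · left
      have h1' : q ^ 2 - s ^ 2 = 2 * u ^ 2 := by linarith
      have h2' : 81 * q ^ 2 - s ^ 2 = 2 * v ^ 2 := by linarith
      have e1 := congrArg (Int.cast : ℤ → ZMod 8) h1'
      have e2 := congrArg (Int.cast : ℤ → ZMod 8) h2'
      push_cast at e1 e2
      exact zmod8_aux2m _ _ _ _ e1 e2
    · have h1' : 10 * q ^ 2 = u ^ 2 - v ^ 2 := by linarith
      have h2' : 10 * s ^ 2 = 81 * u ^ 2 - v ^ 2 := by linarith
      have e1 := congrArg (Int.cast : ℤ → ZMod 8) h1'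
      have e2 := congrArg (Int.cast : ℤ → ZMod 8) h2'
      push_cast at e1 e2
      exact zmod8_aux8p _ _ _ _ e1 e2
    · have h1' : 10 * q ^ 2 = v ^ 2 - u ^ 2 := by linarith
      have h2' : 10 * s ^ 2 = v ^ 2 - 81 * u ^ 2 := by linarith
      have e1 := congrArg (Int.cast : ℤ → ZMod 8) h1'
      have e2 := congrArg (Int.cast : ℤ → ZMod 8) h2'
      push_cast at e1 e2
      exact zmod8_aux8m _ _ _ _ e1 e2
    · left
      have e1 := congrArg (Int.cast : ℤ → ZMod 8) h1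
      have e2 := congrArg (Int.cast : ℤ → ZMod 8) h2
      push_cast at e1 e2
      exact zmod8_aux10p _ _ _ _ e1 e2
    · left
      have h1' : q ^ 2 - s ^ 2 = 10 * u ^ 2 := by linarith
      have h2' : 81 * q ^ 2 - s ^ 2 = 10 * v ^ 2 := by linarith
      have e1 := congrArg (Int.cast : ℤ → ZMod 8) h1'
      have e2 := congrArg (Int.cast : ℤ → ZMod 8) h2'
      push_cast at e1 e2
      exact zmod8_aux10m _ _ _ _ e1 e2
    · have h1' : 2 * q ^ 2 = u ^ 2 - v ^ 2 := by linarith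
      have h2' : 2 * s ^ 2 = 81 * u ^ 2 - v ^ 2 := by linarith
      have e1 := congrArg (Int.cast : ℤ → ZMod 8) h1'
      have e2 := congrArg (Int.cast : ℤ → ZMod 8) h2'
      push_cast at e1 e2
      exact zmod8_aux40p _ _ _ _ e1 e2
    · have h1' : 2 * q ^ 2 = v ^ 2 - u ^ 2 := by linarith
      have h2' : 2 * s ^ 2 = v ^ 2 - 81 * u ^ 2 := by linarith
      have e1 := congrArg (Int.cast : ℤ → ZMod 8) h1'
      have e2 := congrArg (Int.cast : ℤ → ZMod 8) h2'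
      push_cast at e1 e2
      exact zmod8_aux40m _ _ _ _ e1 e2
  rcases key with ⟨hu, hv⟩ | ⟨hs, hq⟩
  · exact not_both_even huv (even_of_four_mul_zmod8 hu) (even_of_four_mul_zmod8 hv)
  · exact not_both_even hsq (even_of_four_mul_zmod8 hs) (even_of_four_mul_zmod8 hq)

/-- Packaging of the four surviving Selmer classes `±1, ±5`. -/
theorem selmer_finish {s q u v : ℤ} (c h : ℤ) (hh : h ≠ 0) (hu0 : u ≠ 0) (hv0 : v ≠ 0)
    (hc : c = 1 ∨ c = -1 ∨ c = 5 ∨ c = -5)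
    (hK : s ^ 2 - q ^ 2 = c * (h * u) ^ 2) (hL : s ^ 2 - 81 * q ^ 2 = c * (h * v) ^ 2) :
    ∃ V W : ℤ, V ≠ 0 ∧ W ≠ 0 ∧
      ((s ^ 2 - q ^ 2 = V ^ 2 ∧ s ^ 2 - 81 * q ^ 2 = W ^ 2) ∨
       (q ^ 2 - s ^ 2 = V ^ 2 ∧ 81 * q ^ 2 - s ^ 2 = W ^ 2) ∨
       (s ^ 2 - q ^ 2 = 5 * V ^ 2 ∧ s ^ 2 - 81 * q ^ 2 = 5 * W ^ 2) ∨
       (q ^ 2 - s ^ 2 = 5 * V ^ 2 ∧ 81 * q ^ 2 - s ^ 2 = 5 * W ^ 2)) := by
  refine ⟨h * u, h * v, mul_ne_zero hh hu0, mul_ne_zero hh hv0, ?_⟩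
  rcases hc with rfl | rfl | rfl | rfl
  · left; exact ⟨by linarith, by linarith⟩
  · right; left; exact ⟨by linarith, by linarith⟩
  · right; right; left; exact ⟨by linarith, by linarith⟩
  · right; right; right; exact ⟨by linarith, by linarith⟩

/-- Second descent step: `(s² - q²)(s² - 81 q²)` a nonzero square forces the class `±1, ±5`. -/
theorem selmer81_stepC {s q t : ℤ} (hsq : IsCoprime s q) (ht : t ≠ 0)
    (hKL : (s ^ 2 - q ^ 2) * (s ^ 2 - 81 * q ^ 2) = t ^ 2) :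
    ∃ V W : ℤ, V ≠ 0 ∧ W ≠ 0 ∧
      ((s ^ 2 - q ^ 2 = V ^ 2 ∧ s ^ 2 - 81 * q ^ 2 = W ^ 2) ∨
       (q ^ 2 - s ^ 2 = V ^ 2 ∧ 81 * q ^ 2 - s ^ 2 = W ^ 2) ∨
       (s ^ 2 - q ^ 2 = 5 * V ^ 2 ∧ s ^ 2 - 81 * q ^ 2 = 5 * W ^ 2) ∨
       (q ^ 2 - s ^ 2 = 5 * V ^ 2 ∧ 81 * q ^ 2 - s ^ 2 = 5 * W ^ 2)) := by
  obtain ⟨g, u, v, hgpos, hgK, hgL, huv, hu0, hv0, hsign⟩ := sq_split hKL ht
  have hg80 : (g : ℤ) ∣ 80 := by
    have hsq2 : IsCoprime (s ^ 2) (q ^ 2) := hsq.pow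
    obtain ⟨α, β, hαβ⟩ := hsq2
    have h1 : (g : ℤ) ∣ 80 * q ^ 2 := by
      have : 80 * q ^ 2 = (s ^ 2 - q ^ 2) - (s ^ 2 - 81 * q ^ 2) := by ring
      rw [this]; exact dvd_sub hgK hgL
    have h2 : (g : ℤ) ∣ 80 * s ^ 2 := by
      have : 80 * s ^ 2 = 81 * (s ^ 2 - q ^ 2) - (s ^ 2 - 81 * q ^ 2) := by ring
      rw [this]; exact dvd_sub (Dvd.dvd.mul_left hgK _) hgL
    have : (80 : ℤ) = α * (80 * s ^ 2) + β * (80 * q ^ 2) := by linear_combination (-80) * hαβ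
    rw [this]; exact dvd_add (Dvd.dvd.mul_left h2 _) (Dvd.dvd.mul_left h1 _)
  have hg80' : g ∣ 80 := by exact_mod_cast hg80
  have hgmem : g ∈ Nat.divisors 80 := Nat.mem_divisors.mpr ⟨hg80', by norm_num⟩
  rw [show Nat.divisors 80 = {1, 2, 4, 5, 8, 10, 16, 20, 40, 80} by decide] at hgmem
  simp only [Finset.mem_insert, Finset.mem_singleton] at hgmem
  rcases hgmem with rfl | rfl | rfl | rfl | rfl | rfl | rfl | rfl | rfl | rfl <;>
    rcases hsign with ⟨hK, hL⟩ | ⟨hK, hL⟩ <;> push_cast at hK hL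
  · exact selmer_finish 1 1 one_ne_zero hu0 hv0 (by norm_num) (by linarith) (by linarith)
  · exact selmer_finish (-1) 1 one_ne_zero hu0 hv0 (by norm_num) (by linarith) (by linarith)
  · exact (excl_even hsq huv (c := 2) (by norm_num) (by linarith) (by linarith)).elim
  · exact (excl_even hsq huv (c := -2) (by norm_num) (by linarith) (by linarith)).elim
  · exact selmer_finish 1 2 two_ne_zero hu0 hv0 (by norm_num) (by linarith) (by linarith)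
  · exact selmer_finish (-1) 2 two_ne_zero hu0 hv0 (by norm_num) (by linarith) (by linarith)
  · exact selmer_finish 5 1 one_ne_zero hu0 hv0 (by norm_num) (by linarith) (by linarith)
  · exact selmer_finish (-5) 1 one_ne_zero hu0 hv0 (by norm_num) (by linarith) (by linarith)
  · exact (excl_even hsq huv (c := 8) (by norm_num) (by linarith) (by linarith)).elim
  · exact (excl_even hsq huv (c := -8) (by norm_num) (by linarith) (by linarith)).elim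
  · exact (excl_even hsq huv (c := 10) (by norm_num) (by linarith) (by linarith)).elim
  · exact (excl_even hsq huv (c := -10) (by norm_num) (by linarith) (by linarith)).elim
  · exact selmer_finish 1 4 (by norm_num) hu0 hv0 (by norm_num) (by linarith) (by linarith)
  · exact selmer_finish (-1) 4 (by norm_num) hu0 hv0 (by norm_num) (by linarith) (by linarith)
  · exact selmer_finish 5 2 two_ne_zero hu0 hv0 (by norm_num) (by linarith) (by linarith)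
  · exact selmer_finish (-5) 2 two_ne_zero hu0 hv0 (by norm_num) (by linarith) (by linarith)
  · exact (excl_even hsq huv (c := 40) (by norm_num) (by linarith) (by linarith)).elim
  · exact (excl_even hsq huv (c := -40) (by norm_num) (by linarith) (by linarith)).elim
  · exact selmer_finish 5 4 (by norm_num) hu0 hv0 (by norm_num) (by linarith) (by linarith)
  · exact selmer_finish (-5) 4 (by norm_num) hu0 hv0 (by norm_num) (by linarith) (by linarith)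

/-- Once `a` and `b` are squares, apply the second step. -/
theorem selmer81_from_squares {a b s q t : ℤ} (hab : IsCoprime a b) (has : a = s ^ 2)
    (hbq : b = q ^ 2) (ht : t ≠ 0) (hKL : (a - b) * (a - 81 * b) = t ^ 2) :
    ∃ s q V W : ℤ, a = s ^ 2 ∧ b = q ^ 2 ∧ V ≠ 0 ∧ W ≠ 0 ∧
      ((s ^ 2 - q ^ 2 = V ^ 2 ∧ s ^ 2 - 81 * q ^ 2 = W ^ 2) ∨
       (q ^ 2 - s ^ 2 = V ^ 2 ∧ 81 * q ^ 2 - s ^ 2 = W ^ 2) ∨
       (s ^ 2 - q ^ 2 = 5 * V ^ 2 ∧ s ^ 2 - 81 * q ^ 2 = 5 * W ^ 2) ∨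
       (q ^ 2 - s ^ 2 = 5 * V ^ 2 ∧ 81 * q ^ 2 - s ^ 2 = 5 * W ^ 2)) := by
  subst has hbq
  have hsq : IsCoprime s q := (IsCoprime.pow_iff two_pos two_pos).mp hab
  obtain ⟨V, W, hV, hW, hcases⟩ := selmer81_stepC hsq ht hKL
  exact ⟨s, q, V, W, rfl, rfl, hV, hW, hcases⟩

/-- Complete 2-descent on `a b (a - b) (a - 81 b) = Z²`. -/
theorem selmer81 {a b Z : ℤ} (ha : 0 < a) (hb : 0 < b) (hab : IsCoprime a b) (hZ : Z ≠ 0)
    (h : a * b * (a - b) * (a - 81 * b) = Z ^ 2) :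
    ∃ s q V W : ℤ, a = s ^ 2 ∧ b = q ^ 2 ∧ V ≠ 0 ∧ W ≠ 0 ∧
      ((s ^ 2 - q ^ 2 = V ^ 2 ∧ s ^ 2 - 81 * q ^ 2 = W ^ 2) ∨
       (q ^ 2 - s ^ 2 = V ^ 2 ∧ 81 * q ^ 2 - s ^ 2 = W ^ 2) ∨
       (s ^ 2 - q ^ 2 = 5 * V ^ 2 ∧ s ^ 2 - 81 * q ^ 2 = 5 * W ^ 2) ∨
       (q ^ 2 - s ^ 2 = 5 * V ^ 2 ∧ 81 * q ^ 2 - s ^ 2 = 5 * W ^ 2)) := by
  have hZpos : 0 < Z ^ 2 := by positivity
  -- Step A : `b` is a square
  have hba : IsCoprime b a := hab.symm
  have hbK : IsCoprime b (a - b) := by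
    have h2 := hba.add_mul_left_right (-1)
    have e : a - b = a + b * -1 := by ring
    rw [e]; exact h2
  have hbL : IsCoprime b (a - 81 * b) := by
    have h2 := hba.add_mul_left_right (-81)
    have e : a - 81 * b = a + b * -81 := by ring
    rw [e]; exact h2
  have hcop : IsCoprime b (a * (a - b) * (a - 81 * b)) := (hba.mul_right hbK).mul_right hbL
  have h' : b * (a * (a - b) * (a - 81 * b)) = Z ^ 2 := by linear_combination h
  obtain ⟨q, hq⟩ := Int.sq_of_isCoprime hcop h'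
  obtain ⟨r, hr⟩ := Int.sq_of_isCoprime hcop.symm (by rw [mul_comm]; exact h')
  have hbq : b = q ^ 2 := by
    rcases hq with hq | hq
    · exact hq
    · exfalso; nlinarith [sq_nonneg q]
  have hR : a * (a - b) * (a - 81 * b) = r ^ 2 := by
    rcases hr with hr | hr
    · exact hr
    · exfalso
      rw [hr] at h'
      have := mul_nonneg hb.le (sq_nonneg r)
      nlinarith
  have hr0 : r ≠ 0 := by
    rintro rfl
    rw [hR] at h'
    simp at h'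
    rw [← h'] at hZpos
    simp at hZpos
  -- Step B : `a` is a square
  have hR' : a * ((a - b) * (a - 81 * b)) = r ^ 2 := by rw [← mul_assoc]; exact hR
  obtain ⟨g, u, v, hgpos, hga, hgKL, huv, hu0, hv0, hsign⟩ := sq_split hR' hr0
  have hapos : a = g * u ^ 2 ∧ (a - b) * (a - 81 * b) = g * v ^ 2 := by
    rcases hsign with h1 | ⟨h1, _⟩
    · exact h1
    · exfalso
      have : (0 : ℤ) ≤ (g : ℤ) * u ^ 2 := by positivity
      linarith
  obtain ⟨hau, hKL⟩ := hapos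
  have hgb : IsCoprime (g : ℤ) b := IsCoprime.of_isCoprime_of_dvd_left hab hga
  have hg81 : (g : ℤ) ∣ 81 := by
    have h1 : (g : ℤ) ∣ 81 * b ^ 2 := by
      have : 81 * b ^ 2 = (a - b) * (a - 81 * b) - a * (a - 82 * b) := by ring
      rw [this]; exact dvd_sub hgKL (Dvd.dvd.mul_right hga _)
    exact (hgb.pow_right (n := 2)).dvd_of_dvd_mul_right h1
  have hg81' : g ∣ 81 := by exact_mod_cast hg81
  have hgmem : g ∈ Nat.divisors 81 := Nat.mem_divisors.mpr ⟨hg81', by norm_num⟩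
  rw [show Nat.divisors 81 = {1, 3, 9, 27, 81} by decide] at hgmem
  simp only [Finset.mem_insert, Finset.mem_singleton] at hgmem
  have h3q : (3 : ℤ) ∣ a → ((q : ℤ) : ZMod 3) ≠ 0 := by
    intro h3a h0
    have h3q : (3 : ℤ) ∣ q := three_dvd_of_zmod3 h0
    have h3b : (3 : ℤ) ∣ b := by rw [hbq]; exact dvd_pow h3q two_ne_zero
    exact not_both_three hab h3a h3b
  rcases hgmem with rfl | rfl | rfl | rfl | rfl <;> push_cast at hau hKL
  · exact selmer81_from_squares (s := u) (q := q) (t := v) hab (by linarith) hbq hv0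
      (by linarith)
  · exfalso
    have hq3 := h3q ⟨u ^ 2, hau⟩
    have e : (3 * u ^ 2 - q ^ 2) * (u ^ 2 - 27 * q ^ 2) = v ^ 2 := by
      rw [hau, hbq] at hKL
      apply mul_left_cancel₀ (three_ne_zero (α := ℤ))
      linear_combination hKL
    have e3 := congrArg (Int.cast : ℤ → ZMod 3) e
    push_cast at e3
    obtain ⟨hu3, hv3⟩ := zmod3_aux1 _ _ _ hq3 e3
    exact not_both_three huv (three_dvd_of_zmod3 hu3) (three_dvd_of_zmod3 hv3)
  · exact selmer81_from_squares (s := 3 * u) (q := q) (t := 3 * v) hab (by linarith) hbq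
      (mul_ne_zero three_ne_zero hv0) (by linarith)
  · exfalso
    have hq3 := h3q ⟨9 * u ^ 2, by rw [hau]; ring⟩
    have e : (27 * u ^ 2 - q ^ 2) * (u ^ 2 - 3 * q ^ 2) = v ^ 2 := by
      rw [hau, hbq] at hKL
      apply mul_left_cancel₀ (show (27 : ℤ) ≠ 0 by norm_num)
      linear_combination hKL
    have e3 := congrArg (Int.cast : ℤ → ZMod 3) e
    push_cast at e3
    obtain ⟨hu3, hv3⟩ := zmod3_aux2 _ _ _ hq3 e3
    exact not_both_three huv (three_dvd_of_zmod3 hu3) (three_dvd_of_zmod3 hv3)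
  · exact selmer81_from_squares (s := 9 * u) (q := q) (t := 9 * v) hab (by linarith) hbq
      (mul_ne_zero (by norm_num) hv0) (by linarith)

/-- Clearing denominators. -/
theorem int_of_rat81 (n m : ℕ) (hm : 0 < m) {Y : ℚ} (hY0 : Y ≠ 0)
    (hY : Y ^ 2 = ((n : ℚ) / m) * ((n : ℚ) / m - 1) * ((n : ℚ) / m - 81)) :
    ∃ Z : ℤ, Z ≠ 0 ∧ (n : ℤ) * m * ((n : ℤ) - m) * ((n : ℤ) - 81 * m) = Z ^ 2 := by
  have hm0 : (m : ℚ) ≠ 0 := by exact_mod_cast hm.ne'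
  have key : (((n : ℤ) * m * ((n : ℤ) - m) * ((n : ℤ) - 81 * m) : ℤ) : ℚ) =
      (Y * (m : ℚ) ^ 2) * (Y * (m : ℚ) ^ 2) := by
    push_cast
    have : Y * (m : ℚ) ^ 2 * (Y * (m : ℚ) ^ 2) = Y ^ 2 * (m : ℚ) ^ 4 := by ring
    rw [this, hY]
    field_simp
  have hsq : IsSquare (((n : ℤ) * m * ((n : ℤ) - m) * ((n : ℤ) - 81 * m) : ℤ) : ℚ) := ⟨_, key⟩
  rw [Rat.isSquare_intCast_iff] at hsq
  obtain ⟨Z, hZ⟩ := hsq
  refine ⟨Z, ?_, by rw [hZ]; ring⟩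
  rintro rfl
  rw [hZ] at key
  have h0 : Y * (m : ℚ) ^ 2 = 0 := by
    have : (Y * (m : ℚ) ^ 2) * (Y * (m : ℚ) ^ 2) = 0 := by rw [← key]; simp
    exact mul_self_eq_zero.mp this
  rcases mul_eq_zero.mp h0 with h1 | h1
  · exact hY0 h1
  · exact hm0 (pow_eq_zero_iff (two_ne_zero) |>.mp h1)

/-- **Normalisation**: any rational point `(n/m, Y)`, `Y ≠ 0`, on `Y² = X (X - 1) (X - 81)` yields a
primitive solution of `U² = V² + D² = W² + 81 D²` with `U² ≤ 81 max n m`. -/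
theorem normalize81 (n m : ℕ) (hn : 0 < n) (hm : 0 < m) (hnm : Nat.Coprime n m)
    (h : ∃ Y : ℚ, Y ≠ 0 ∧ Y ^ 2 = ((n : ℚ) / m) * ((n : ℚ) / m - 1) * ((n : ℚ) / m - 81)) :
    ∃ U D V W : ℕ, (0 < D ∧ 0 < V ∧ 0 < W ∧ Nat.Coprime U D ∧ U ^ 2 = V ^ 2 + D ^ 2 ∧
      U ^ 2 = W ^ 2 + 81 * D ^ 2) ∧ U ^ 2 ≤ 81 * max n m := by
  obtain ⟨Y, hY0, hY⟩ := h
  obtain ⟨Z, hZ0, hZ⟩ := int_of_rat81 n m hm hY0 hY
  have ha : (0 : ℤ) < n := by exact_mod_cast hn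
  have hb : (0 : ℤ) < m := by exact_mod_cast hm
  have hab : IsCoprime (n : ℤ) (m : ℤ) := Nat.Coprime.isCoprime hnm
  obtain ⟨s, q, V, W, has, hbq, hV, hW, hcases⟩ := selmer81 ha hb hab hZ0 hZ
  have hs0 : s ≠ 0 := by
    rintro rfl
    rw [has] at ha
    simp at ha
  have hq0 : q ≠ 0 := by
    rintro rfl
    rw [hbq] at hb
    simp at hb
  have hmaxn : (n : ℤ) ≤ max (n : ℤ) (m : ℤ) := le_max_left _ _
  have hmaxm : (m : ℤ) ≤ max (n : ℤ) (m : ℤ) := le_max_right _ _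
  rcases hcases with ⟨hK, hL⟩ | ⟨hK, hL⟩ | ⟨hK, hL⟩ | ⟨hK, hL⟩
  · refine sol81_reduce (U₀ := s) (D₀ := q) (V₀ := V) (W₀ := W) hq0 hV hW
      (by linarith) (by linarith) ?_
    push_cast
    linarith
  · refine sol81_reduce (U₀ := 9 * q) (D₀ := s) (V₀ := W) (W₀ := 9 * V) hs0 hW
      (mul_ne_zero (by norm_num) hV) (by linarith) (by linarith) ?_
    push_cast
    linarith
  · refine sol81_reduce (U₀ := 9 * V) (D₀ := W) (V₀ := 4 * s) (W₀ := 36 * q) hW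
      (mul_ne_zero (by norm_num) hs0) (mul_ne_zero (by norm_num) hq0)
      (by linarith) (by linarith) ?_
    push_cast
    nlinarith [sq_nonneg V, sq_nonneg q]
  · refine sol81_reduce (U₀ := W) (D₀ := V) (V₀ := 4 * q) (W₀ := 4 * s) hV
      (mul_ne_zero (by norm_num) hq0) (mul_ne_zero (by norm_num) hs0)
      (by linarith) (by linarith) ?_
    push_cast
    nlinarith [sq_nonneg W, sq_nonneg s]

end Fermat.Agent.S51x.Normalize81
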