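import Fermat.Agent.S51x.Rank15a
import Fermat.Agent.S51x.Normalize81

/-! S51 project (captain's file of record for input (I3)): all rational points of
`y² = x (x + 9) (x - 16)`, from `Normalize81.normalize81` (2-descent and Moebius normalisation),
`Descent81` (halving descent) and `Rank15a` (transfer along the 2-isogeny).
All names here carry the prefix `finpts_`. -/

namespace Fermat.Agent.S51x

/-- The normalisation hypothesis of `Descent81` holds. -/
theorem finpts_normalizeHyp : NormalizeHyp :=
  fun n m hn hm hnm h => Normalize81.normalize81 n m hn hm hnm h

/-- The curve `y² = x (x + 9) (x - 16)` has exactly the eight rational torsion points. -/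
theorem finpts_rational_points_15a (x y : ℚ) (h : y ^ 2 = x * (x + 9) * (x - 16)) :
    x = 0 ∨ x = -9 ∨ x = 16 ∨ x = 36 ∨ x = -4 :=
  rank15a_of_normalizeHyp finpts_normalizeHyp x y h

end Fermat.Agent.S51x
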