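import Mathlib

/-! S51 project, module M21_MOD3: a rational root of the 3-division polynomial gives a rational
point on the `X_0(3)` parameter curve `j τ = (τ + 27) (τ + 3)^3`.  Pure algebra over `ℚ`. -/

namespace Fermat.Agent.S51x

theorem tau_of_Ψ₃_root (E : WeierstrassCurve ℚ) [E.IsElliptic] (hj0 : E.j ≠ 0) (q : ℚ)
    (hq : E.Ψ₃.eval q = 0) : ∃ τ : ℚ, τ ≠ 0 ∧ E.j * τ = (τ + 27) * (τ + 3) ^ 3 := by
  have hP3 : 3 * q ^ 4 + E.b₂ * q ^ 3 + 3 * E.b₄ * q ^ 2 + 3 * E.b₆ * q + E.b₈ = 0 := by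
    simpa [WeierstrassCurve.Ψ₃] using hq
  have hR := E.b_relation
  obtain ⟨A, hA⟩ : ∃ A : ℚ, A = E.b₂ + 12 * q := ⟨_, rfl⟩
  obtain ⟨B, hB⟩ : ∃ B : ℚ, B = E.b₄ + q * E.b₂ + 6 * q ^ 2 := ⟨_, rfl⟩
  obtain ⟨C, hC⟩ : ∃ C : ℚ, C = 4 * q ^ 3 + E.b₂ * q ^ 2 + 2 * E.b₄ * q + E.b₆ := ⟨_, rfl⟩
  have hAC : A * C = B ^ 2 := by
    rw [hA, hB, hC]; linear_combination 4 * hP3 - hR
  have hc4 : E.c₄ = A ^ 2 - 24 * B := by
    rw [hA, hB, WeierstrassCurve.c₄]; ring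
  have hΔ : E.Δ = -8 * B ^ 3 - 27 * C ^ 2 + 9 * A * B * C := by
    rw [hA, hB, hC, WeierstrassCurve.Δ]
    linear_combination (-(E.b₂ + 12 * q) ^ 2) * hP3 + (6 * q * E.b₂ + 36 * q ^ 2) * hR
  have hΔ0 : E.Δ ≠ 0 := E.isUnit_Δ.ne_zero
  have hj : E.j * E.Δ = (A ^ 2 - 24 * B) ^ 3 := by
    rw [← hc4, WeierstrassCurve.j, ← E.coe_Δ']
    calc (↑E.Δ'⁻¹ * E.c₄ ^ 3 : ℚ) * ↑E.Δ' = (↑E.Δ'⁻¹ * ↑E.Δ') * E.c₄ ^ 3 := by ring
      _ = E.c₄ ^ 3 := by rw [Units.inv_mul, one_mul]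
  have hΔA : E.Δ * A ^ 2 = B ^ 3 * (A ^ 2 - 27 * B) := by
    rw [hΔ]; linear_combination (-27 * (A * C + B ^ 2) + 9 * A ^ 2 * B) * hAC
  have hB0 : B ≠ 0 := by
    intro hB0
    rw [hB0] at hAC hΔ hj
    rcases mul_eq_zero.mp (hAC.trans (by ring)) with hA0 | hC0
    · rw [hA0] at hj
      have : E.j * E.Δ = 0 := by rw [hj]; ring
      rcases mul_eq_zero.mp this with h | h
      · exact hj0 h
      · exact hΔ0 h
    · rw [hC0] at hΔ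
      exact hΔ0 (by rw [hΔ]; ring)
  have hA0 : A ≠ 0 := by
    intro hA0
    rw [hA0] at hAC
    exact hB0 ((pow_eq_zero_iff (two_ne_zero)).mp (by rw [← hAC]; ring))
  have hne : A ^ 2 - 27 * B ≠ 0 := by
    intro h
    rw [h, mul_zero] at hΔA
    rcases mul_eq_zero.mp hΔA with h | h
    · exact hΔ0 h
    · exact hA0 ((pow_eq_zero_iff (two_ne_zero)).mp h)
  refine ⟨(A ^ 2 - 27 * B) / B, div_ne_zero hne hB0, ?_⟩
  have e1 : (A ^ 2 - 27 * B) / B + 27 = A ^ 2 / B := by field_simp; ring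
  have e2 : (A ^ 2 - 27 * B) / B + 3 = (A ^ 2 - 24 * B) / B := by field_simp; ring
  rw [e1, e2, div_pow, div_mul_div_comm, mul_div_assoc', div_eq_div_iff hB0 (mul_ne_zero hB0 (pow_ne_zero 3 hB0))]
  linear_combination (-E.j * B) * hΔA + (A ^ 2 * B) * hj

end Fermat.Agent.S51x
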