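import Mathlib
import Fermat.Prelude.Def_FLTPrelim_Modularity

/-!
# S51 endgame: the four non-cuspidal rational points of `X₀(15)` are not semistable

For a semistable integral model `W` (`p ∣ Δ → ¬ p ∣ c₄`) the relation
`c₄³ τ = Δ (τ+27)(τ+3)³` (i.e. `j = (τ+27)(τ+3)³/τ`) is impossible for
`τ ∈ {-2, -729/2, -32, -729/32}`, and likewise
`c₄³ t = Δ (t²+10t+5)³` is impossible for `t ∈ {-10, -40, -25/2, -25/8}`.
In each case `5 ∣ c₄` and `5 ∣ Δ`.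
-/

set_option autoImplicit false

namespace Fermat.Agent.S51x

open WeierstrassCurve

/-- Core arithmetic fact: if `A * c^3 = 5 * B * D` (resp. `25 * B * D`) with `5 ∤ A`, `5 ∤ B`,
then `5 ∣ c` and `5 ∣ D`. -/
theorem eg_five_dvd_of_eq {c D A B : ℤ} (hA : ¬ (5 : ℤ) ∣ A) (hB : ¬ (5 : ℤ) ∣ B)
    (k : ℕ) (hk : k = 1 ∨ k = 2) (h : A * c ^ 3 = 5 ^ k * B * D) :
    (5 : ℤ) ∣ c ∧ (5 : ℤ) ∣ D := by
  have h5 : Prime (5 : ℤ) := by
    rw [Int.prime_iff_natAbs_prime]; norm_num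
  have hc : (5 : ℤ) ∣ c := by
    have h1 : (5 : ℤ) ∣ A * c ^ 3 := by
      rw [h]
      rcases hk with rfl | rfl
      · exact ⟨B * D, by ring⟩
      · exact ⟨5 * B * D, by ring⟩
    rcases h5.dvd_or_dvd h1 with h2 | h2
    · exact absurd h2 hA
    · exact h5.dvd_of_dvd_pow h2
  refine ⟨hc, ?_⟩
  obtain ⟨c', rfl⟩ := hc
  rcases hk with rfl | rfl
  · -- A * 125 c'^3 = 5 B D  =>  25 A c'^3 = B D
    have h2 : B * D = 5 * (5 * A * c' ^ 3) := by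
      have : 5 * (B * D) = 5 * (5 * (5 * A * c' ^ 3)) := by linarith [h]
      exact mul_left_cancel₀ (by norm_num) this
    have h3 : (5 : ℤ) ∣ B * D := ⟨_, h2⟩
    rcases h5.dvd_or_dvd h3 with h4 | h4
    · exact absurd h4 hB
    · exact h4
  · have h2 : B * D = 5 * (A * c' ^ 3) := by
      have : 25 * (B * D) = 25 * (5 * (A * c' ^ 3)) := by linarith [h]
      exact mul_left_cancel₀ (by norm_num) this
    have h3 : (5 : ℤ) ∣ B * D := ⟨_, h2⟩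
    rcases h5.dvd_or_dvd h3 with h4 | h4
    · exact absurd h4 hB
    · exact h4

/-- A semistable model cannot have `5 ∣ c₄` and `5 ∣ Δ`. -/
theorem eg_semistable_five {W : WeierstrassCurve ℤ} (hW : W.IsSemistableModel)
    (h : (5 : ℤ) ∣ W.c₄ ∧ (5 : ℤ) ∣ W.Δ) : False :=
  hW 5 (by norm_num) (by exact_mod_cast h.2) (by exact_mod_cast h.1)

/-- Endgame in terms of the `X₀(3)` Hauptmodul `τ`. -/
theorem eg_false_of_tau {W : WeierstrassCurve ℤ} (hW : W.IsSemistableModel) {τ : ℚ}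
    (hτ : τ = -2 ∨ τ = -729 / 2 ∨ τ = -32 ∨ τ = -729 / 32)
    (h : (W.c₄ : ℚ) ^ 3 * τ = (W.Δ : ℚ) * (τ + 27) * (τ + 3) ^ 3) : False := by
  apply eg_semistable_five hW
  rcases hτ with rfl | rfl | rfl | rfl
  · -- -2 c4^3 = 25 Δ
    have h' : (-2 : ℤ) * W.c₄ ^ 3 = 5 ^ 2 * 1 * W.Δ := by
      have : ((-2 : ℤ) * W.c₄ ^ 3 : ℚ) = ((5 ^ 2 * 1 * W.Δ : ℤ) : ℚ) := by
        push_cast; linarith [h]
      exact_mod_cast this
    exact eg_five_dvd_of_eq (by norm_num) (by norm_num) 2 (Or.inr rfl) h'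
  · -- -8 c4^3 = 25 * 241^3 Δ
    have h' : (-8 : ℤ) * W.c₄ ^ 3 = 5 ^ 2 * 241 ^ 3 * W.Δ := by
      have : ((-8 : ℤ) * W.c₄ ^ 3 : ℚ) = ((5 ^ 2 * 241 ^ 3 * W.Δ : ℤ) : ℚ) := by
        push_cast; linarith [h]
      exact_mod_cast this
    exact eg_five_dvd_of_eq (by norm_num) (by norm_num) 2 (Or.inr rfl) h'
  · -- -32 c4^3 = 5 * 29^3 Δ
    have h' : (-32 : ℤ) * W.c₄ ^ 3 = 5 ^ 1 * 29 ^ 3 * W.Δ := by
      have : ((-32 : ℤ) * W.c₄ ^ 3 : ℚ) = ((5 ^ 1 * 29 ^ 3 * W.Δ : ℤ) : ℚ) := by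
        push_cast; linarith [h]
      exact_mod_cast this
    exact eg_five_dvd_of_eq (by norm_num) (by norm_num) 1 (Or.inl rfl) h'
  · -- 32768 c4^3 = 5 * 211^3 Δ
    have h' : (32768 : ℤ) * W.c₄ ^ 3 = 5 ^ 1 * 211 ^ 3 * W.Δ := by
      have : ((32768 : ℤ) * W.c₄ ^ 3 : ℚ) = ((5 ^ 1 * 211 ^ 3 * W.Δ : ℤ) : ℚ) := by
        push_cast; linarith [h]
      exact_mod_cast this
    exact eg_five_dvd_of_eq (by norm_num) (by norm_num) 1 (Or.inl rfl) h'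

/-- Endgame in terms of the `X₀(5)` Hauptmodul `t`. -/
theorem eg_false_of_t {W : WeierstrassCurve ℤ} (hW : W.IsSemistableModel) {t : ℚ}
    (ht : t = -10 ∨ t = -40 ∨ t = -25 / 2 ∨ t = -25 / 8)
    (h : (W.c₄ : ℚ) ^ 3 * t = (W.Δ : ℚ) * (t ^ 2 + 10 * t + 5) ^ 3) : False := by
  apply eg_semistable_five hW
  rcases ht with rfl | rfl | rfl | rfl
  · -- t=-10: t^2+10t+5 = 5 ; -10 c4^3 = 125 Δ  => -2 c4^3 = 25 Δ
    have h' : (-2 : ℤ) * W.c₄ ^ 3 = 5 ^ 2 * 1 * W.Δ := by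
      have : ((-2 : ℤ) * W.c₄ ^ 3 : ℚ) = ((5 ^ 2 * 1 * W.Δ : ℤ) : ℚ) := by
        push_cast; linarith [h]
      exact_mod_cast this
    exact eg_five_dvd_of_eq (by norm_num) (by norm_num) 2 (Or.inr rfl) h'
  · -- t=-40: t^2+10t+5 = 1205 = 5*241 ; -40 c4^3 = 125*241^3 Δ => -8 c4^3 = 25*241^3 Δ
    have h' : (-8 : ℤ) * W.c₄ ^ 3 = 5 ^ 2 * 241 ^ 3 * W.Δ := by
      have : ((-8 : ℤ) * W.c₄ ^ 3 : ℚ) = ((5 ^ 2 * 241 ^ 3 * W.Δ : ℤ) : ℚ) := by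
        push_cast; linarith [h]
      exact_mod_cast this
    exact eg_five_dvd_of_eq (by norm_num) (by norm_num) 2 (Or.inr rfl) h'
  · -- t=-25/2: t^2+10t+5 = 625/4-125+5 = 145/4 ; (-25/2) c4^3 = 145^3/64 Δ
    -- => -800 c4^3 = 145^3 Δ = 125*29^3 Δ => -32 c4^3 = 5*29^3 Δ
    have h' : (-32 : ℤ) * W.c₄ ^ 3 = 5 ^ 1 * 29 ^ 3 * W.Δ := by
      have : ((-32 : ℤ) * W.c₄ ^ 3 : ℚ) = ((5 ^ 1 * 29 ^ 3 * W.Δ : ℤ) : ℚ) := by
        push_cast; linarith [h]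
      exact_mod_cast this
    exact eg_five_dvd_of_eq (by norm_num) (by norm_num) 1 (Or.inl rfl) h'
  · -- t=-25/8: t^2+10t+5 = 625/64 - 250/8 + 5 = (625-2000+320)/64 = -1055/64
    -- (-25/8) c4^3 = -1055^3/64^3 Δ => 25*32768 c4^3 = 1055^3 Δ = 125*211^3 Δ
    have h' : (32768 : ℤ) * W.c₄ ^ 3 = 5 ^ 1 * 211 ^ 3 * W.Δ := by
      have : ((32768 : ℤ) * W.c₄ ^ 3 : ℚ) = ((5 ^ 1 * 211 ^ 3 * W.Δ : ℤ) : ℚ) := by
        push_cast; linarith [h]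
      exact_mod_cast this
    exact eg_five_dvd_of_eq (by norm_num) (by norm_num) 1 (Or.inl rfl) h'

/-- If `c₄ = 0` (i.e. `j = 0`) the 5-isogeny relation has no rational solution:
`t² + 10 t + 5` has no rational root. -/
theorem eg_c4_ne_zero_of_t {c4 Δ t : ℚ} (hΔ : Δ ≠ 0)
    (h : c4 ^ 3 * t = Δ * (t ^ 2 + 10 * t + 5) ^ 3) : c4 ≠ 0 := by
  rintro rfl
  have h0 : (t ^ 2 + 10 * t + 5) ^ 3 = 0 := by
    have : Δ * (t ^ 2 + 10 * t + 5) ^ 3 = 0 := by rw [← h]; ring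
    rcases mul_eq_zero.mp this with h1 | h1
    · exact absurd h1 hΔ
    · exact h1
  have h1 : t ^ 2 + 10 * t + 5 = 0 := by
    exact pow_eq_zero_iff (by norm_num) |>.mp h0
  -- (t+5)^2 = 20, but 20 is not a rational square
  have h2 : (t + 5) ^ 2 = 20 := by linarith [h1]
  have h3 : IsSquare ((20 : ℕ) : ℚ) := ⟨t + 5, by push_cast; rw [← h2]; ring⟩
  rw [Rat.isSquare_natCast_iff] at h3
  obtain ⟨r, hr⟩ := h3
  have hr' : r * r = 20 := hr.symm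
  have : r ≤ 4 ∨ 5 ≤ r := by omega
  rcases this with h4 | h4
  · interval_cases r <;> omega
  · nlinarith

end Fermat.Agent.S51x
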