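import Mathlib
import Fermat.Prelude.Def_FLTPrelim_Modularity
import Fermat.Prelude.Def_FLTPrelim_ModularRep
import Fermat.Agent.S51x.Endgame

/-!
# S51 top level: assembly of the three pieces

`s51_of_pieces` proves the S51 statement from three explicit interface hypotheses:

* `I3`  (3-part): a reducible mod-3 representation gives a rational `τ ≠ 0` with
  `c₄³ τ = Δ (τ+27)(τ+3)³`  (i.e. `j = (τ+27)(τ+3)³/τ`);
* `I5`  (5-part): a reducible mod-5 representation gives a rational `t ≠ 0` with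
  `c₄³ t = Δ (t²+10t+5)³`   (i.e. `j = (t²+10t+5)³/t`);
* `IX`  (rational points of `X₀(15)`): the only rational points with `τ t ≠ 0` on the plane model
  `t (τ+27)(τ+3)³ = τ (t²+10t+5)³` have `τ ∈ {-2, -729/2, -32, -729/32}`.
-/

set_option autoImplicit false

namespace Fermat.Agent.S51x

open WeierstrassCurve

/-- Interface of the 3-part. -/
def I3 : Prop :=
  ∀ W : WeierstrassCurve ℤ, W.Δ ≠ 0 → ¬ W.ModRepIsIrreducible 3 →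
    ∃ τ : ℚ, τ ≠ 0 ∧ (W.c₄ : ℚ) ^ 3 * τ = (W.Δ : ℚ) * (τ + 27) * (τ + 3) ^ 3

/-- Interface of the 5-part. -/
def I5 : Prop :=
  ∀ W : WeierstrassCurve ℤ, W.Δ ≠ 0 → ¬ W.ModRepIsIrreducible 5 →
    ∃ t : ℚ, t ≠ 0 ∧ (W.c₄ : ℚ) ^ 3 * t = (W.Δ : ℚ) * (t ^ 2 + 10 * t + 5) ^ 3

/-- Interface of the `X₀(15)` part (plane model in the two Hauptmoduln). -/
def IX : Prop :=
  ∀ τ t : ℚ, τ ≠ 0 → t ≠ 0 →
    t * (τ + 27) * (τ + 3) ^ 3 = τ * (t ^ 2 + 10 * t + 5) ^ 3 →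
    τ = -2 ∨ τ = -729 / 2 ∨ τ = -32 ∨ τ = -729 / 32

/-- Variant of `IX` giving the `t`-values instead. -/
def IXt : Prop :=
  ∀ τ t : ℚ, τ ≠ 0 → t ≠ 0 →
    t * (τ + 27) * (τ + 3) ^ 3 = τ * (t ^ 2 + 10 * t + 5) ^ 3 →
    t = -10 ∨ t = -40 ∨ t = -25 / 2 ∨ t = -25 / 8

theorem s51_plane_relation {c4 Δ τ t : ℚ} (hΔ : Δ ≠ 0)
    (h3 : c4 ^ 3 * τ = Δ * (τ + 27) * (τ + 3) ^ 3)
    (h5 : c4 ^ 3 * t = Δ * (t ^ 2 + 10 * t + 5) ^ 3) :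
    t * (τ + 27) * (τ + 3) ^ 3 = τ * (t ^ 2 + 10 * t + 5) ^ 3 := by
  have : Δ * (t * (τ + 27) * (τ + 3) ^ 3) = Δ * (τ * (t ^ 2 + 10 * t + 5) ^ 3) := by
    linear_combination t * (-1) * h3 + τ * h5
  exact mul_left_cancel₀ hΔ this

theorem s51_of_pieces (h3 : I3) (h5 : I5) (hX : IX)
    (W : WeierstrassCurve ℤ) (hΔ : W.Δ ≠ 0) (hW : W.IsSemistableModel) :
    W.ModRepIsIrreducible 3 ∨ W.ModRepIsIrreducible 5 := by
  by_contra hcon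
  rw [not_or] at hcon
  obtain ⟨τ, hτ0, hτ⟩ := h3 W hΔ hcon.1
  obtain ⟨t, ht0, ht⟩ := h5 W hΔ hcon.2
  have hΔq : (W.Δ : ℚ) ≠ 0 := by exact_mod_cast hΔ
  exact eg_false_of_tau hW (hX τ t hτ0 ht0 (s51_plane_relation hΔq hτ ht)) hτ

theorem s51_of_pieces' (h3 : I3) (h5 : I5) (hX : IXt)
    (W : WeierstrassCurve ℤ) (hΔ : W.Δ ≠ 0) (hW : W.IsSemistableModel) :
    W.ModRepIsIrreducible 3 ∨ W.ModRepIsIrreducible 5 := by
  by_contra hcon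
  rw [not_or] at hcon
  obtain ⟨τ, hτ0, hτ⟩ := h3 W hΔ hcon.1
  obtain ⟨t, ht0, ht⟩ := h5 W hΔ hcon.2
  have hΔq : (W.Δ : ℚ) ≠ 0 := by exact_mod_cast hΔ
  exact eg_false_of_t hW (hX τ t hτ0 ht0 (s51_plane_relation hΔq hτ ht)) ht

end Fermat.Agent.S51x
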