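import Fermat.Agent.S51x.VC

/-!
# S51 project, module M41_TATE5: Tate normal form for a point of order 5 (owner helper72)
-/

set_option autoImplicit false
set_option linter.unusedSectionVars false
open WeierstrassCurve WeierstrassCurve.Affine WeierstrassCurve.Affine.Point

namespace Fermat.Agent.S51x

noncomputable section

variable {F : Type} [Field F] [DecidableEq F]

/-- x-coordinate of a point (0 for the point at infinity). -/
def px {W : WeierstrassCurve F} : W.toAffine.Point → F
  | .zero => 0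
  | .some x _ _ => x

/-- `η = 2y + a₁x + a₃` of a point (0 for the point at infinity). -/
def peta {W : WeierstrassCurve F} : W.toAffine.Point → F
  | .zero => 0
  | .some x y _ => 2 * y + W.a₁ * x + W.a₃

/-- `(x(2P) - x(P))^3 / η(P)^2`. -/
def dInv (W : WeierstrassCurve F) (P : W.toAffine.Point) : F :=
  (px (P + P) - px P) ^ 3 / (peta P) ^ 2

/-- Transport of a `some` point along equalities of coordinates. -/
theorem some_eq_some_of_eq {W : WeierstrassCurve F} {x y x' y' : F}
    (h : W.toAffine.Nonsingular x y) (hx : x = x') (hy : y = y') :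
    ∃ h' : W.toAffine.Nonsingular x' y', Point.some x y h = Point.some x' y' h' := by
  subst hx hy
  exact ⟨h, rfl⟩

@[simp] theorem px_zero {W : WeierstrassCurve F} : px (0 : W.toAffine.Point) = 0 := rfl
@[simp] theorem px_some {W : WeierstrassCurve F} {x y : F} (h : W.toAffine.Nonsingular x y) :
    px (Point.some x y h) = x := rfl
@[simp] theorem peta_zero {W : WeierstrassCurve F} : peta (0 : W.toAffine.Point) = 0 := rfl
@[simp] theorem peta_some {W : WeierstrassCurve F} {x y : F} (h : W.toAffine.Nonsingular x y) :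
    peta (Point.some x y h) = 2 * y + W.a₁ * x + W.a₃ := rfl

/-- The Tate curve `T(b,c) : y² + (1-c)xy - by = x³ - bx²`. -/
def tateCurve (b c : F) : WeierstrassCurve F := ⟨1 - c, -b, -b, 0, 0⟩

section Tate

variable {b c : F}

theorem tate_two (hb : b ≠ 0) (h0 : (tateCurve b c).toAffine.Nonsingular 0 0) :
    ∃ h2 : (tateCurve b c).toAffine.Nonsingular b (b * c),
      Point.some 0 0 h0 + Point.some 0 0 h0 = Point.some b (b * c) h2 := by
  have hy : (0 : F) ≠ (tateCurve b c).toAffine.negY 0 0 := by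
    simp [tateCurve, negY, hb.symm]
  rw [add_self_of_Y_ne hy]
  apply some_eq_some_of_eq
  · rw [slope_of_Y_ne rfl hy]
    simp [tateCurve, addX]
  · rw [slope_of_Y_ne rfl hy]
    simp [tateCurve, addY, negAddY, negY, addX]
    ring

theorem tate_three (hb : b ≠ 0) (h0 : (tateCurve b c).toAffine.Nonsingular 0 0)
    (h2 : (tateCurve b c).toAffine.Nonsingular b (b * c)) :
    ∃ h3 : (tateCurve b c).toAffine.Nonsingular c (b - c),
      Point.some b (b * c) h2 + Point.some 0 0 h0 = Point.some c (b - c) h3 := by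
  rw [add_of_X_ne hb]
  apply some_eq_some_of_eq
  · rw [slope_of_X_ne hb]
    simp [tateCurve, addX]
    field_simp
    ring
  · rw [slope_of_X_ne hb]
    simp [tateCurve, addY, negAddY, negY, addX]
    field_simp
    ring

theorem tate_neg_two (h2 : (tateCurve b c).toAffine.Nonsingular b (b * c)) :
    ∃ h2' : (tateCurve b c).toAffine.Nonsingular b 0,
      -Point.some b (b * c) h2 = Point.some b 0 h2' := by
  rw [neg_some]
  apply some_eq_some_of_eq
  · rfl
  · simp [tateCurve, negY]
    ring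

/-- On `T(b,c)` with `b ≠ 0`, if `(0,0)` is killed by `5` then `c = b`. -/
theorem tate_five (hb : b ≠ 0) (h0 : (tateCurve b c).toAffine.Nonsingular 0 0)
    (h5 : (5 : ℤ) • (Point.some 0 0 h0 : (tateCurve b c).toAffine.Point) = 0) : c = b := by
  obtain ⟨h2, e2⟩ := tate_two (c := c) hb h0
  obtain ⟨h3, e3⟩ := tate_three hb h0 h2
  obtain ⟨h2', e2'⟩ := tate_neg_two h2
  set P : (tateCurve b c).toAffine.Point := Point.some 0 0 h0 with hP
  have h5' : (P + P + P) + (P + P) = 0 := by
    have : (5 : ℤ) • P = (P + P + P) + (P + P) := by abel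
    rw [← this]; exact h5
  have h32 : P + P + P = -(P + P) := eq_neg_of_add_eq_zero_left h5'
  rw [e2, e3, e2'] at h32
  have := Point.some.inj h32
  exact this.1

end Tate

/-- Variant of `tate_five` for a curve merely *equal* to a Tate curve. -/
theorem tate_five' {T : WeierstrassCurve F} {b c : F} (hT : T = tateCurve b c) (hb : b ≠ 0)
    (h0 : T.toAffine.Nonsingular 0 0)
    (h5 : (5 : ℤ) • (Point.some 0 0 h0 : T.toAffine.Point) = 0) : c = b := by
  subst hT
  exact tate_five hb h0 h5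

theorem tate_Δ (d : F) : (tateCurve d d).Δ = d ^ 5 * (d ^ 2 - 11 * d - 1) := by
  simp only [tateCurve, WeierstrassCurve.Δ, b₂, b₄, b₆, b₈]
  ring

theorem tate_c₄ (d : F) : (tateCurve d d).c₄ = d ^ 4 - 12 * d ^ 3 + 14 * d ^ 2 + 12 * d + 1 := by
  simp only [tateCurve, c₄, b₂, b₄]
  ring

theorem j_mul_Δ (W : WeierstrassCurve F) [W.IsElliptic] : W.j * W.Δ = W.c₄ ^ 3 := by
  rw [WeierstrassCurve.j, ← W.coe_Δ', mul_comm, ← mul_assoc, Units.mul_inv, one_mul]

/-! ### Basic facts on `px`, `peta`, `dInv` -/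

theorem px_neg {W : WeierstrassCurve F} (P : W.toAffine.Point) : px (-P) = px P := by
  cases P <;> rfl

/-- On a curve equal to `T(d,d)` with `d ≠ 0` and `5·(0,0) = 0`: `dInv (2·(0,0)) = -1/d`. -/
theorem tate_dInv_two {T : WeierstrassCurve F} {d : F} (hT : T = tateCurve d d) (hd : d ≠ 0)
    (h0 : T.toAffine.Nonsingular 0 0)
    (h5 : (5 : ℤ) • (Point.some 0 0 h0 : T.toAffine.Point) = 0) :
    dInv T (Point.some 0 0 h0 + Point.some 0 0 h0) = -d⁻¹ := by
  subst hT
  obtain ⟨h2, e2⟩ := tate_two (c := d) hd h0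
  set P : (tateCurve d d).toAffine.Point := Point.some 0 0 h0 with hP
  have h4 : (P + P) + (P + P) = -P := by
    have : (P + P) + (P + P) = (5 : ℤ) • P - P := by abel
    rw [this, h5, zero_sub]
  unfold dInv
  rw [h4, px_neg, e2, hP, px_some, px_some, peta_some]
  simp only [tateCurve]
  rw [show 2 * (d * d) + (1 - d) * d + -d = d ^ 2 by ring]
  field_simp
  ring

theorem peta_neg {W : WeierstrassCurve F} (P : W.toAffine.Point) : peta (-P) = -peta P := by
  cases P with
  | zero => simp [← zero_def]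
  | some x y h =>
    rw [neg_some, peta_some, peta_some]
    simp only [negY]
    ring

theorem dInv_neg (W : WeierstrassCurve F) [W.IsElliptic] (P : W.toAffine.Point) :
    dInv W (-P) = dInv W P := by
  unfold dInv
  rw [← neg_add, px_neg, px_neg, peta_neg, neg_sq]

/-- A nonzero point with `P + P = 0` has `η = 0`. -/
theorem peta_eq_zero_of_add_self {W : WeierstrassCurve F} (P : W.toAffine.Point)
    (h : P + P = 0) : peta P = 0 := by
  cases P with
  | zero => rfl
  | some x y hxy =>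
    by_contra hne
    have hy : y ≠ W.toAffine.negY x y := by
      intro hy
      apply hne
      rw [peta_some]
      simp only [negY] at hy
      linear_combination hy
    rw [add_self_of_Y_ne hy] at h
    exact some_ne_zero _ h

/-- `η ≠ 0` implies the doubling is given by the tangent formula. -/
theorem add_self_of_peta_ne {W : WeierstrassCurve F} {x y : F} (h : W.toAffine.Nonsingular x y)
    (hη : 2 * y + W.a₁ * x + W.a₃ ≠ 0) :
    ∃ h2 : W.toAffine.Nonsingular
        (W.toAffine.addX x x ((3 * x ^ 2 + 2 * W.a₂ * x + W.a₄ - W.a₁ * y) / (2 * y + W.a₁ * x + W.a₃)))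
        (W.toAffine.addY x x y ((3 * x ^ 2 + 2 * W.a₂ * x + W.a₄ - W.a₁ * y) / (2 * y + W.a₁ * x + W.a₃))),
      Point.some x y h + Point.some x y h = Point.some _ _ h2 := by
  have hy : y ≠ W.toAffine.negY x y := by
    intro hy
    apply hη
    simp only [negY] at hy
    linear_combination hy
  have hs : W.toAffine.slope x x y y =
      (3 * x ^ 2 + 2 * W.a₂ * x + W.a₄ - W.a₁ * y) / (2 * y + W.a₁ * x + W.a₃) := by
    rw [slope_of_Y_ne rfl hy]
    congr 1
    simp only [negY]
    ring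
  rw [add_self_of_Y_ne hy]
  exact some_eq_some_of_eq _ (by rw [hs]) (by rw [hs])

theorem exists_some_of_ne_zero {W : WeierstrassCurve F} {P : W.toAffine.Point} (hP : P ≠ 0) :
    ∃ (x y : F) (h : W.toAffine.Nonsingular x y), P = Point.some x y h := by
  cases P with
  | zero => exact absurd rfl hP
  | some x y h => exact ⟨x, y, h, rfl⟩

/-! ### Invariance under variable change -/

section VCInv

variable (W : WeierstrassCurve F) (C : VariableChange F)

theorem px_vcEquiv {x y : F} (h : (C • W).toAffine.Nonsingular x y) :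
    px (vcEquiv W C (Point.some x y h)) = (C.u : F) ^ 2 * x + C.r := by
  obtain ⟨h', e⟩ := vcEquiv_some W C h
  rw [e, px_some]

theorem peta_vcEquiv (Q : (C • W).toAffine.Point) :
    peta (vcEquiv W C Q) = (C.u : F) ^ 3 * peta Q := by
  cases Q with
  | zero =>
    show peta (vcEquiv W C 0) = (C.u : F) ^ 3 * peta (0 : (C • W).toAffine.Point)
    rw [_root_.map_zero, peta_zero, peta_zero, mul_zero]
  | some x y h =>
    obtain ⟨h', e⟩ := vcEquiv_some W C h
    have hu : (C.u : F) ≠ 0 := C.u.ne_zero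
    rw [e, peta_some, peta_some, variableChange_a₁, variableChange_a₃]
    simp only [Units.val_inv_eq_inv_val]
    field_simp
    ring

theorem dInv_vcEquiv (Q : (C • W).toAffine.Point) :
    dInv W (vcEquiv W C Q) = dInv (C • W) Q := by
  unfold dInv
  rw [← map_add, peta_vcEquiv]
  by_cases hη : peta Q = 0
  · simp [hη]
  · have hQ : Q ≠ 0 := by
      rintro rfl
      exact hη rfl
    have hQQ : Q + Q ≠ 0 := fun h => hη (peta_eq_zero_of_add_self Q h)
    obtain ⟨x, y, h, rfl⟩ := exists_some_of_ne_zero hQ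
    obtain ⟨x2, y2, h2, e2⟩ := exists_some_of_ne_zero hQQ
    rw [e2, px_vcEquiv, px_vcEquiv, px_some, px_some]
    have hu : (C.u : F) ≠ 0 := C.u.ne_zero
    field_simp
    ring

end VCInv

/-! ### Main theorems -/

section Main

variable (W : WeierstrassCurve F)

theorem eq_zero_of_five_of_two {P : W.toAffine.Point} (h5 : (5 : ℤ) • P = 0) (h2 : P + P = 0) :
    P = 0 := by
  have : P = (5 : ℤ) • P - (2 : ℤ) • (P + P) := by abel
  rw [this, h5, h2]
  simp

theorem eq_zero_of_five_of_three {P : W.toAffine.Point} (h5 : (5 : ℤ) • P = 0)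
    (h3 : P + P = -P) : P = 0 := by
  have h3' : P + P + P = 0 := by rw [h3]; simp
  have : P = (2 : ℤ) • (P + P + P) - (5 : ℤ) • P := by abel
  rw [this, h5, h3']
  simp

variable [W.IsElliptic]

/-- Tate normal form, with the target written as `tateCurve d d`. -/
theorem exists_vc_tate_aux (P : W.toAffine.Point) (hP : P ≠ 0) (h5 : (5 : ℤ) • P = 0) :
    ∃ (d : F) (C : VariableChange F) (h0 : (C • W).toAffine.Nonsingular 0 0),
      d ≠ 0 ∧ C • W = tateCurve d d ∧ vcEquiv W C (Point.some 0 0 h0) = P ∧ dInv W P = d := by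
  obtain ⟨x₁, y₁, h, rfl⟩ := exists_some_of_ne_zero hP
  have hη : 2 * y₁ + W.a₁ * x₁ + W.a₃ ≠ 0 := by
    intro h0
    have hy : y₁ = W.toAffine.negY x₁ y₁ := by
      simp only [negY]
      linear_combination h0
    exact hP (eq_zero_of_five_of_two W h5 (add_self_of_Y_eq hy))
  obtain ⟨h2, e2⟩ := add_self_of_peta_ne h hη
  set η := 2 * y₁ + W.a₁ * x₁ + W.a₃ with hη_def
  set s := (3 * x₁ ^ 2 + 2 * W.a₂ * x₁ + W.a₄ - W.a₁ * y₁) / η with hs_def
  set x₂ := W.toAffine.addX x₁ x₁ s with hx₂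
  have hx : x₂ ≠ x₁ := by
    intro hx
    rcases (X_eq_iff (h₁ := h2) (h₂ := h)).mp hx with e | e
    · rw [← e2] at e
      simp at e
    · rw [← e2] at e
      exact hP (eq_zero_of_five_of_three W h5 e)
  have hx' : x₂ - x₁ ≠ 0 := sub_ne_zero.mpr hx
  have hu : -η / (x₂ - x₁) ≠ 0 := div_ne_zero (neg_ne_zero.mpr hη) hx'
  set u : F := -η / (x₂ - x₁) with hu_def
  set C : VariableChange F := ⟨Units.mk0 u hu, x₁, s, y₁⟩ with hC
  set d : F := (x₂ - x₁) ^ 3 / η ^ 2 with hd_def
  have hd : d ≠ 0 := div_ne_zero (pow_ne_zero 3 hx') (pow_ne_zero 2 hη)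
  have huinv : ((C.u⁻¹ : Fˣ) : F) = -(x₂ - x₁) / η := by
    simp only [hC, Units.val_inv_eq_inv_val, Units.val_mk0, hu_def]
    field_simp
  have hkey : W.a₂ - s * W.a₁ + 3 * x₁ - s ^ 2 = -(x₂ - x₁) := by
    simp only [hx₂, addX]
    ring
  have heq := (W.toAffine.equation_iff x₁ y₁).mp h.1
  set c : F := 1 - -(x₂ - x₁) / η * (W.a₁ + 2 * s) with hc_def
  have hT : C • W = tateCurve d c := by
    ext
    · rw [variableChange_a₁, huinv]
      simp only [tateCurve, hc_def, hC]
      ring
    · rw [variableChange_a₂, huinv]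
      simp only [tateCurve, hC]
      rw [hkey, hd_def]
      field_simp
    · rw [variableChange_a₃, huinv]
      simp only [tateCurve, hC]
      rw [hd_def, show W.a₃ + x₁ * W.a₁ + 2 * y₁ = η by rw [hη_def]; ring]
      field_simp
    · rw [variableChange_a₄, huinv]
      simp only [tateCurve, hC]
      have : W.a₄ - s * W.a₃ + 2 * x₁ * W.a₂ - (y₁ + x₁ * s) * W.a₁ + 3 * x₁ ^ 2 - 2 * s * y₁ = 0 := by
        have hsη : s * η = 3 * x₁ ^ 2 + 2 * W.a₂ * x₁ + W.a₄ - W.a₁ * y₁ := by
          rw [hs_def]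
          field_simp
        linear_combination -hsη + s * hη_def
      rw [this, mul_zero]
    · rw [variableChange_a₆, huinv]
      simp only [tateCurve, hC]
      have : W.a₆ + x₁ * W.a₄ + x₁ ^ 2 * W.a₂ + x₁ ^ 3 - y₁ * W.a₃ - y₁ ^ 2 - x₁ * y₁ * W.a₁ = 0 := by
        linear_combination -heq
      rw [this, mul_zero]
  have ha₆ : (C • W).a₆ = 0 := by rw [hT]; rfl
  have h0 : (C • W).toAffine.Nonsingular 0 0 :=
    (C • W).toAffine.equation_iff_nonsingular.mp ((C • W).toAffine.equation_zero.mpr ha₆)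
  have e6 : vcEquiv W C (Point.some 0 0 h0) = Point.some x₁ y₁ h := by
    obtain ⟨h', e⟩ := vcEquiv_some W C h0
    rw [e]
    have : ∀ (a b : F) (_ : a = x₁) (_ : b = y₁) (h' : W.toAffine.Nonsingular a b),
        Point.some a b h' = Point.some x₁ y₁ h := by
      intro a b ha hb h'
      subst ha hb
      rfl
    exact this _ _ (by simp [hC]) (by simp [hC]) h'
  have h5₀ : (5 : ℤ) • (Point.some 0 0 h0 : (C • W).toAffine.Point) = 0 := by
    apply (vcEquiv W C).injective
    rw [map_zsmul, e6, h5, _root_.map_zero]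
  have hcd : c = d := tate_five' hT hd h0 h5₀
  rw [hcd] at hT
  refine ⟨d, C, h0, hd, hT, e6, ?_⟩
  unfold dInv
  rw [e2, px_some, px_some, peta_some]

/-- Tate normal form: `(W, P)` is a variable change of `(T(d,d), (0,0))`. -/
theorem exists_vc_tate [CharZero F] (P : W.toAffine.Point) (hP : P ≠ 0) (h5 : (5 : ℤ) • P = 0) :
    ∃ (d : F) (C : VariableChange F)
      (h0 : (C • W).toAffine.Nonsingular 0 0),
      d ≠ 0 ∧ C • W = ⟨1 - d, -d, -d, 0, 0⟩ ∧ vcEquiv W C (Point.some 0 0 h0) = P ∧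
        dInv W P = d :=
  exists_vc_tate_aux W P hP h5

theorem dInv_spec [CharZero F] (P : W.toAffine.Point) (hP : P ≠ 0) (h5 : (5 : ℤ) • P = 0) :
    dInv W P ≠ 0 ∧ dInv W P ^ 2 - 11 * dInv W P - 1 ≠ 0 ∧
      W.j * (dInv W P ^ 5 * (dInv W P ^ 2 - 11 * dInv W P - 1)) =
        (dInv W P ^ 4 - 12 * dInv W P ^ 3 + 14 * dInv W P ^ 2 + 12 * dInv W P + 1) ^ 3 := by
  obtain ⟨d, C, h0, hd, hT, -, hdP⟩ := exists_vc_tate_aux W P hP h5
  rw [hdP]
  have hΔ : (C • W).Δ = d ^ 5 * (d ^ 2 - 11 * d - 1) := by rw [hT, tate_Δ]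
  have hc₄ : (C • W).c₄ = d ^ 4 - 12 * d ^ 3 + 14 * d ^ 2 + 12 * d + 1 := by rw [hT, tate_c₄]
  have hne : (C • W).Δ ≠ 0 := (C • W).isUnit_Δ.ne_zero
  have hj := j_mul_Δ (C • W)
  rw [variableChange_j, hΔ, hc₄] at hj
  refine ⟨hd, ?_, hj⟩
  intro h
  apply hne
  rw [hΔ, h, mul_zero]

theorem dInv_two_smul [CharZero F] (P : W.toAffine.Point) (hP : P ≠ 0) (h5 : (5 : ℤ) • P = 0) :
    dInv W (P + P) = - (dInv W P)⁻¹ := by
  obtain ⟨d, C, h0, hd, hT, e6, hdP⟩ := exists_vc_tate_aux W P hP h5
  have h5₀ : (5 : ℤ) • (Point.some 0 0 h0 : (C • W).toAffine.Point) = 0 := by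
    apply (vcEquiv W C).injective
    rw [map_zsmul, e6, h5, _root_.map_zero]
  rw [hdP, ← e6, ← map_add, dInv_vcEquiv]
  exact tate_dInv_two hT hd h0 h5₀

end Main

end

end Fermat.Agent.S51x
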