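import Fermat.Agent.S51x.VC
import Fermat.Agent.S51x.Tate5

/-!
# S51 project, module M42: points of order 5 over an algebraically closed field of char 0

`exists_five_torsion` : an elliptic curve over an algebraically closed field of characteristic 0
has a point of exact order 5 (via the Tate normal form `T(d,d)` and a root of a degree 12
polynomial).

`card_five_torsion_le` : if `j ≠ 0, 1728` there are at most 25 points killed by 5 (the Tate
parameter `dInv` takes at most 12 values and each value is taken by at most two points `±P`).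
-/

set_option autoImplicit false
open WeierstrassCurve WeierstrassCurve.Affine WeierstrassCurve.Affine.Point

namespace Fermat.Agent.S51x
namespace Tor5

section Tate
variable {F : Type} [Field F]

/-- Tate normal form curve `T(d,d)`. -/
def tateDD (d : F) : WeierstrassCurve F := ⟨1 - d, -d, -d, 0, 0⟩

lemma tateDD_Δ (d : F) : (tateDD d).Δ = d ^ 5 * (d ^ 2 - 11 * d - 1) := by
  simp only [tateDD, Δ, b₂, b₄, b₆, b₈]; ring

lemma tateDD_c₄ (d : F) : (tateDD d).c₄ = d ^ 4 - 12 * d ^ 3 + 14 * d ^ 2 + 12 * d + 1 := by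
  simp only [tateDD, c₄, b₂, b₄]; ring

lemma some_eq_some {W : Affine F} {x y x' y' : F} (h : W.Nonsingular x y)
    (h' : W.Nonsingular x' y') (hx : x = x') (hy : y = y') :
    Point.some x y h = Point.some x' y' h' := by
  subst hx hy; rfl

lemma tate_five_torsion [DecidableEq F] (d : F) (hd : d ≠ 0)
    (h0 : (tateDD d).toAffine.Nonsingular 0 0) :
    (5 : ℤ) • (Point.some 0 0 h0 : (tateDD d).toAffine.Point) = 0 := by
  set P : (tateDD d).toAffine.Point := Point.some 0 0 h0 with hP
  have hneg0 : (tateDD d).toAffine.negY 0 0 = d := by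
    simp [negY, tateDD]
  -- 2P = (d, d^2)
  have hy0 : (0 : F) ≠ (tateDD d).toAffine.negY 0 0 := by
    rw [hneg0]; exact hd.symm
  have h2 : ∃ h2 : (tateDD d).toAffine.Nonsingular d (d ^ 2), P + P = Point.some d (d ^ 2) h2 := by
    have hs : (tateDD d).toAffine.slope 0 0 0 0 = 0 := by
      rw [slope_of_Y_ne rfl hy0]
      simp [tateDD]
    have hx : (tateDD d).toAffine.addX 0 0 ((tateDD d).toAffine.slope 0 0 0 0) = d := by
      rw [hs]; simp [addX, tateDD]
    have hy : (tateDD d).toAffine.addY 0 0 0 ((tateDD d).toAffine.slope 0 0 0 0) = d ^ 2 := by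
      rw [hs]; simp [addY, negAddY, negY, addX, tateDD]; ring
    have hns := nonsingular_add h0 h0 (fun hxy => hy0 hxy.right)
    rw [hx, hy] at hns
    refine ⟨hns, ?_⟩
    rw [hP, add_self_of_Y_ne hy0]
    exact some_eq_some _ _ hx hy
  obtain ⟨h2, h2P⟩ := h2
  -- 3P = (d, 0)
  have h3 : ∃ h3 : (tateDD d).toAffine.Nonsingular d 0, (P + P) + P = Point.some d 0 h3 := by
    have hs : (tateDD d).toAffine.slope d 0 (d ^ 2) 0 = d := by
      rw [slope_of_X_ne hd, sub_zero, sub_zero, pow_two, mul_div_assoc, div_self hd, mul_one]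
    have hx : (tateDD d).toAffine.addX d 0 ((tateDD d).toAffine.slope d 0 (d ^ 2) 0) = d := by
      rw [hs]; simp [addX, tateDD]; ring
    have hy : (tateDD d).toAffine.addY d 0 (d ^ 2) ((tateDD d).toAffine.slope d 0 (d ^ 2) 0) = 0 := by
      rw [hs]; simp [addY, negAddY, negY, addX, tateDD]; ring
    have hns := nonsingular_add h2 h0 (fun hxy => hd hxy.left)
    rw [hx, hy] at hns
    refine ⟨hns, ?_⟩
    rw [h2P, hP, add_of_X_ne hd]
    exact some_eq_some _ _ hx hy
  obtain ⟨h3, h3P⟩ := h3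
  -- 3P = -(2P)
  have h32 : (P + P) + P = -(P + P) := by
    rw [h3P, h2P, neg_some]
    refine some_eq_some _ _ rfl ?_
    simp [negY, tateDD]; ring
  have : (5 : ℤ) • P = (P + P) + ((P + P) + P) := by
    rw [show (5 : ℤ) = 1 + 1 + (1 + 1 + 1) by norm_num]
    simp only [add_smul, one_smul]
  rw [this, h32, add_neg_cancel]

/-- the degree 12 polynomial whose roots are the Tate parameters of the points of order 5 -/
noncomputable def tatePoly (j : F) : Polynomial F :=
  (Polynomial.X ^ 4 - 12 * Polynomial.X ^ 3 + 14 * Polynomial.X ^ 2 + 12 * Polynomial.X + 1) ^ 3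
    - Polynomial.C j * (Polynomial.X ^ 5 * (Polynomial.X ^ 2 - 11 * Polynomial.X - 1))

lemma tatePoly_natDegree (j : F) : (tatePoly j).natDegree = 12 := by
  unfold tatePoly
  compute_degree!

lemma tatePoly_ne_zero (j : F) : tatePoly j ≠ 0 := by
  intro h
  have := tatePoly_natDegree j
  rw [h, Polynomial.natDegree_zero] at this
  omega

lemma tatePoly_eval (j d : F) : (tatePoly j).eval d =
    (d ^ 4 - 12 * d ^ 3 + 14 * d ^ 2 + 12 * d + 1) ^ 3 - j * (d ^ 5 * (d ^ 2 - 11 * d - 1)) := by
  simp [tatePoly]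

/-- a root of `tatePoly` gives an elliptic Tate curve -/
lemma tate_root_facts [CharZero F] (j d : F) (h : (tatePoly j).eval d = 0) :
    d ≠ 0 ∧ d ^ 2 - 11 * d - 1 ≠ 0 := by
  rw [tatePoly_eval] at h
  have hd : d ≠ 0 := by
    rintro rfl
    norm_num at h
  refine ⟨hd, fun h2 => ?_⟩
  rw [h2] at h
  have h4 : d ^ 4 - 12 * d ^ 3 + 14 * d ^ 2 + 12 * d + 1 = 0 := by
    have : (d ^ 4 - 12 * d ^ 3 + 14 * d ^ 2 + 12 * d + 1) ^ 3 = 0 := by
      linear_combination h
    exact pow_eq_zero_iff (by norm_num) |>.mp this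
  have h5 : 5 * d ^ 2 = 0 := by
    linear_combination h4 - (d ^ 2 - d - 1) * h2
  have : d ^ 2 = 0 := by
    rcases mul_eq_zero.mp h5 with h | h
    · norm_num at h
    · exact h
  exact hd (pow_eq_zero_iff (by norm_num) |>.mp this)

lemma tateDD_isElliptic (d : F) (hd : d ≠ 0) (hd2 : d ^ 2 - 11 * d - 1 ≠ 0) :
    (tateDD d).IsElliptic := by
  rw [isElliptic_iff, tateDD_Δ]
  exact isUnit_iff_ne_zero.mpr (mul_ne_zero (pow_ne_zero _ hd) hd2)

lemma tateDD_j (d : F) [(tateDD d).IsElliptic] :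
    (tateDD d).j * (d ^ 5 * (d ^ 2 - 11 * d - 1)) =
      (d ^ 4 - 12 * d ^ 3 + 14 * d ^ 2 + 12 * d + 1) ^ 3 := by
  rw [j, ← tateDD_Δ, ← tateDD_c₄, ← coe_Δ', mul_right_comm, Units.inv_mul, one_mul]

/-- a curve equal to a Tate curve has a point of order 5 -/
lemma exists_five_torsion_of_eq_tate [DecidableEq F] (W' : WeierstrassCurve F) (d : F) (hd : d ≠ 0)
    (hd2 : d ^ 2 - 11 * d - 1 ≠ 0) (hW' : W' = tateDD d) :
    ∃ P : W'.toAffine.Point, P ≠ 0 ∧ (5 : ℤ) • P = 0 := by
  subst hW'
  have := tateDD_isElliptic d hd hd2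
  have h0 : (tateDD d).toAffine.Nonsingular 0 0 := by
    rw [← equation_iff_nonsingular, equation_zero]
    rfl
  exact ⟨Point.some 0 0 h0, some_ne_zero h0, tate_five_torsion d hd h0⟩

end Tate


section Aut
variable {F : Type} [Field F]

lemma c₄_ne_zero_of_j_ne_zero (W : WeierstrassCurve F) [W.IsElliptic] (hj0 : W.j ≠ 0) :
    W.c₄ ≠ 0 := by
  intro h
  apply hj0
  rw [j, h]
  ring

lemma c₆_ne_zero_of_j_ne_1728 (W : WeierstrassCurve F) [W.IsElliptic] (hj : W.j ≠ 1728) :
    W.c₆ ≠ 0 := by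
  intro h
  apply hj
  have h1 := W.c_relation
  rw [h] at h1
  have hΔ : W.Δ ≠ 0 := by
    rw [← coe_Δ']; exact W.Δ'.ne_zero
  have : W.j * W.Δ = 1728 * W.Δ := by
    rw [j, ← coe_Δ', mul_right_comm, Units.inv_mul, one_mul, coe_Δ']
    linear_combination -h1
  exact mul_right_cancel₀ hΔ this

/-- automorphisms of an elliptic curve with `j ≠ 0, 1728` in characteristic 0 -/
lemma aut_cases [CharZero F] (W : WeierstrassCurve F) [W.IsElliptic] (hj0 : W.j ≠ 0)
    (hj : W.j ≠ 1728) (D : VariableChange F) (hD : D • W = W) :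
    (D.u = 1 ∧ D.r = 0 ∧ D.s = 0 ∧ D.t = 0) ∨
      (D.u = -1 ∧ D.r = 0 ∧ D.s = -W.a₁ ∧ D.t = -W.a₃) := by
  have h4 := c₄_ne_zero_of_j_ne_zero W hj0
  have h6 := c₆_ne_zero_of_j_ne_1728 W hj
  have e4 : (D • W).c₄ = W.c₄ := by rw [hD]
  have e6 : (D • W).c₆ = W.c₆ := by rw [hD]
  rw [variableChange_c₄] at e4
  rw [variableChange_c₆] at e6
  set v : F := ((D.u⁻¹ : Fˣ) : F) with hv
  have hv0 : v ≠ 0 := Units.ne_zero _
  have v4 : v ^ 4 = 1 := by
    apply mul_right_cancel₀ h4
    rw [e4, one_mul]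
  have v6 : v ^ 6 = 1 := by
    apply mul_right_cancel₀ h6
    rw [e6, one_mul]
  have v2 : v ^ 2 = 1 := by
    have : v ^ 6 = v ^ 4 * v ^ 2 := by ring
    rw [v4, one_mul] at this
    rw [← this, v6]
  have e1 : (D • W).a₁ = W.a₁ := by rw [hD]
  have e2 : (D • W).a₂ = W.a₂ := by rw [hD]
  have e3 : (D • W).a₃ = W.a₃ := by rw [hD]
  rw [variableChange_a₁] at e1
  rw [variableChange_a₂] at e2
  rw [variableChange_a₃] at e3
  rw [← hv] at e1 e2 e3
  have hv1 : v = 1 ∨ v = -1 := by
    have : (v - 1) * (v + 1) = 0 := by linear_combination v2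
    rcases mul_eq_zero.mp this with h | h
    · left; linear_combination h
    · right; linear_combination h
  have two : (2 : F) ≠ 0 := by norm_num
  have three : (3 : F) ≠ 0 := by norm_num
  rcases hv1 with h1 | h1
  · left
    rw [h1] at e1 e2 e3
    have hs : D.s = 0 := by
      have : 2 * D.s = 0 := by linear_combination e1
      exact (mul_eq_zero.mp this).resolve_left two
    have hr : D.r = 0 := by
      rw [hs] at e2
      have : 3 * D.r = 0 := by linear_combination e2
      exact (mul_eq_zero.mp this).resolve_left three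
    have ht : D.t = 0 := by
      rw [hr] at e3
      have : 2 * D.t = 0 := by linear_combination e3
      exact (mul_eq_zero.mp this).resolve_left two
    refine ⟨?_, hr, hs, ht⟩
    have : D.u⁻¹ = 1 := Units.ext (by rw [← hv, h1]; rfl)
    rw [inv_eq_one] at this
    exact this
  · right
    rw [h1] at e1 e2 e3
    have hs : D.s = -W.a₁ := by
      have : 2 * (D.s + W.a₁) = 0 := by linear_combination -e1
      have := (mul_eq_zero.mp this).resolve_left two
      linear_combination this
    have hr : D.r = 0 := by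
      rw [hs] at e2
      have : 3 * D.r = 0 := by linear_combination e2
      exact (mul_eq_zero.mp this).resolve_left three
    have ht : D.t = -W.a₃ := by
      rw [hr] at e3
      have : 2 * (D.t + W.a₃) = 0 := by linear_combination -e3
      have := (mul_eq_zero.mp this).resolve_left two
      linear_combination this
    refine ⟨?_, hr, hs, ht⟩
    have : D.u⁻¹ = -1 := Units.ext (by rw [← hv, h1]; simp)
    rw [inv_eq_iff_eq_inv] at this
    rw [this]; simp


variable [DecidableEq F]

/-- image of `(0,0)` under a variable change -/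
lemma vcEquiv_origin (W : WeierstrassCurve F) (C : VariableChange F)
    (h0 : (C • W).toAffine.Nonsingular 0 0) :
    ∃ h' : W.toAffine.Nonsingular C.r C.t, vcEquiv W C (Point.some 0 0 h0) = Point.some _ _ h' := by
  obtain ⟨h', e⟩ := vcEquiv_some W C h0
  have hx : (C.u : F) ^ 2 * 0 + C.r = C.r := by ring
  have hy : (C.u : F) ^ 3 * 0 + (C.u : F) ^ 2 * C.s * 0 + C.t = C.t := by ring
  have h'' : W.toAffine.Nonsingular C.r C.t := by
    rw [hx, hy] at h'; exact h'
  exact ⟨h'', e.trans (some_eq_some _ _ hx hy)⟩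

/-- two variable changes with the same effect on `W` send the origin to `±` the same point -/
lemma origin_eq_or_neg [CharZero F] (W : WeierstrassCurve F) [W.IsElliptic] (hj0 : W.j ≠ 0)
    (hj : W.j ≠ 1728) (C C' : VariableChange F) (hCC' : C • W = C' • W)
    (h0 : (C • W).toAffine.Nonsingular 0 0) (h0' : (C' • W).toAffine.Nonsingular 0 0) :
    vcEquiv W C' (Point.some 0 0 h0') = vcEquiv W C (Point.some 0 0 h0) ∨
      vcEquiv W C' (Point.some 0 0 h0') = - vcEquiv W C (Point.some 0 0 h0) := by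
  obtain ⟨h1, e1⟩ := vcEquiv_origin W C h0
  obtain ⟨h1', e1'⟩ := vcEquiv_origin W C' h0'
  rw [e1, e1']
  set D : VariableChange F := C' * C⁻¹ with hD
  have hDW : D • (C • W) = C • W := by
    rw [hD, mul_smul, inv_smul_smul, hCC']
  have hC' : C' = D * C := by
    rw [hD, inv_mul_cancel_right]
  have hjC : (C • W).j ≠ 0 := by rwa [variableChange_j]
  have hjC' : (C • W).j ≠ 1728 := by rwa [variableChange_j]
  rcases aut_cases (C • W) hjC hjC' D hDW with ⟨hu, hr, hs, ht⟩ | ⟨hu, hr, hs, ht⟩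
  · left
    have hr' : C'.r = C.r := by
      rw [hC', VariableChange.mul_def]; simp [hr]
    have ht' : C'.t = C.t := by
      rw [hC', VariableChange.mul_def]; simp [hr, ht]
    exact some_eq_some _ _ hr' ht'
  · right
    have hr' : C'.r = C.r := by
      rw [hC', VariableChange.mul_def]; simp [hr]
    have ht' : C'.t = W.toAffine.negY C.r C.t := by
      rw [hC', VariableChange.mul_def]
      simp only [hr, ht, variableChange_a₃, negY]
      have : ((C.u⁻¹ : Fˣ) : F) * (C.u : F) = 1 := by simp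
      linear_combination (-(W.a₃ + C.r * W.a₁ + 2 * C.t)) * (((C.u⁻¹ : Fˣ) : F) ^ 2 * (C.u : F) ^ 2 + ((C.u⁻¹ : Fˣ) : F) * (C.u : F) + 1) * this
    rw [neg_some]
    exact some_eq_some _ _ hr' ht'


lemma eq_or_eq_neg_of_dInv_eq [CharZero F] (W : WeierstrassCurve F) [W.IsElliptic]
    (hj0 : W.j ≠ 0) (hj : W.j ≠ 1728) (P Q : W.toAffine.Point) (hP : P ≠ 0)
    (hP5 : (5 : ℤ) • P = 0) (hQ : Q ≠ 0) (hQ5 : (5 : ℤ) • Q = 0) (h : dInv W P = dInv W Q) :
    Q = P ∨ Q = -P := by
  obtain ⟨d, C, h0, hd, hC, hCP, hdP⟩ := exists_vc_tate W P hP hP5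
  obtain ⟨d', C', h0', hd', hC', hCQ, hdQ⟩ := exists_vc_tate W Q hQ hQ5
  have hdd : d = d' := by rw [← hdP, ← hdQ, h]
  subst hdd
  have := origin_eq_or_neg W hj0 hj C C' (hC.trans hC'.symm) h0 h0'
  rwa [hCP, hCQ] at this

end Aut

end Tor5

section
variable {F : Type} [Field F] [DecidableEq F] [IsAlgClosed F] [CharZero F]
variable (W : WeierstrassCurve F) [W.IsElliptic]

open Tor5 in
theorem exists_five_torsion : ∃ P : W.toAffine.Point, P ≠ 0 ∧ (5 : ℤ) • P = 0 := by
  have hdeg : (tatePoly W.j).degree ≠ 0 := by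
    rw [Polynomial.degree_eq_natDegree (tatePoly_ne_zero _), tatePoly_natDegree]
    norm_num
  obtain ⟨d, hd⟩ := IsAlgClosed.exists_root (tatePoly W.j) hdeg
  have hroot : (tatePoly W.j).eval d = 0 := hd
  obtain ⟨hd0, hd2⟩ := tate_root_facts W.j d hroot
  have hell := tateDD_isElliptic d hd0 hd2
  have hj : W.j = (tateDD d).j := by
    have h1 := tateDD_j d
    rw [tatePoly_eval] at hroot
    have hne : d ^ 5 * (d ^ 2 - 11 * d - 1) ≠ 0 := mul_ne_zero (pow_ne_zero _ hd0) hd2
    apply mul_right_cancel₀ hne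
    rw [h1]
    linear_combination -hroot
  obtain ⟨C, hC⟩ := exists_variableChange_of_j_eq W (tateDD d) hj
  obtain ⟨P, hP0, hP5⟩ := exists_five_torsion_of_eq_tate (C • W) d hd0 hd2 hC
  refine ⟨vcEquiv W C P, ?_, ?_⟩
  · simpa using hP0
  · rw [← map_zsmul, hP5, _root_.map_zero]


omit [IsAlgClosed F] in
open Tor5 in
open Classical in
theorem card_five_torsion_le (hj0 : W.j ≠ 0) (hj1728 : W.j ≠ 1728) :
    Finite (Submodule.torsionBy ℤ W.toAffine.Point (5 : ℕ)) ∧
      Nat.card (Submodule.torsionBy ℤ W.toAffine.Point (5 : ℕ)) ≤ 25 := by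
  -- choice of a point in each fibre of `dInv`
  let g : F → W.toAffine.Point := fun d =>
    if h : ∃ P : W.toAffine.Point, P ≠ 0 ∧ (5 : ℤ) • P = 0 ∧ dInv W P = d then h.choose else 0
  let R : Finset F := (tatePoly W.j).roots.toFinset
  let U : Finset W.toAffine.Point := insert 0 (R.biUnion fun d => {g d, -g d})
  have hsub : ((Submodule.torsionBy ℤ W.toAffine.Point (5 : ℕ) : Submodule ℤ W.toAffine.Point) :
      Set W.toAffine.Point) ⊆ (U : Set W.toAffine.Point) := by
    intro P hP
    have hP5 : (5 : ℤ) • P = 0 := by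
      have := (Submodule.mem_torsionBy_iff _ _).mp hP
      simpa using this
    by_cases hP0 : P = 0
    · simp [U, hP0]
    · have hex : ∃ Q : W.toAffine.Point, Q ≠ 0 ∧ (5 : ℤ) • Q = 0 ∧ dInv W Q = dInv W P :=
        ⟨P, hP0, hP5, rfl⟩
      have hg : g (dInv W P) = hex.choose := dif_pos hex
      obtain ⟨hQ0, hQ5, hQd⟩ := hex.choose_spec
      rw [← hg] at hQ0 hQ5 hQd
      have hroot : dInv W P ∈ R := by
        obtain ⟨_, _, h3⟩ := dInv_spec W P hP0 hP5
        simp only [R, Multiset.mem_toFinset]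
        rw [Polynomial.mem_roots (tatePoly_ne_zero _), Polynomial.IsRoot, tatePoly_eval, h3, sub_self]
      have := eq_or_eq_neg_of_dInv_eq W hj0 hj1728 (g (dInv W P)) P hQ0 hQ5 hP0 hP5 hQd
      simp only [U, Finset.coe_insert, Finset.coe_biUnion, Set.mem_insert_iff, Set.mem_iUnion]
      right
      refine ⟨dInv W P, hroot, ?_⟩
      simpa using this
  have hcardU : U.card ≤ 25 := by
    have h1 : U.card ≤ (R.biUnion fun d => ({g d, -g d} : Finset W.toAffine.Point)).card + 1 :=
      Finset.card_insert_le _ _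
    have h2 : (R.biUnion fun d => ({g d, -g d} : Finset W.toAffine.Point)).card ≤ R.card * 2 :=
      Finset.card_biUnion_le_card_mul _ _ _ (fun d _ => Finset.card_le_two)
    have h3 : R.card ≤ 12 := by
      calc R.card ≤ Multiset.card (tatePoly W.j).roots := Multiset.toFinset_card_le _
        _ ≤ (tatePoly W.j).natDegree := Polynomial.card_roots' _
        _ = 12 := tatePoly_natDegree _
    omega
  have hfin : ((Submodule.torsionBy ℤ W.toAffine.Point (5 : ℕ) : Submodule ℤ W.toAffine.Point) :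
      Set W.toAffine.Point).Finite := (Finset.finite_toSet U).subset hsub
  refine ⟨hfin.to_subtype, ?_⟩
  calc Nat.card (Submodule.torsionBy ℤ W.toAffine.Point (5 : ℕ))
      = ((Submodule.torsionBy ℤ W.toAffine.Point (5 : ℕ) : Submodule ℤ W.toAffine.Point) :
          Set W.toAffine.Point).ncard := _root_.Nat.card_coe_set_eq _
    _ ≤ (U : Set W.toAffine.Point).ncard := Set.ncard_le_ncard hsub (Finset.finite_toSet U)
    _ = U.card := Set.ncard_coe_finset U
    _ ≤ 25 := hcardU

end

end Fermat.Agent.S51x
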