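import Fermat.Agent.S51x.Gal
import Fermat.Agent.S51x.Tate5
import Fermat.Agent.S51x.Tor5

/-!
# S51 project, module M40_RED5 (assembly)

`exists_t_of_reducible_five`: if `E[5]` is a reducible Galois module (`E/ℚ` elliptic, `j ≠ 0, 1728`)
then there is a rational `t ≠ 0` with `j * t = (t^2 + 10 t + 5)^3` (a rational point of `X_0(5)`).
-/

set_option autoImplicit false
open WeierstrassCurve WeierstrassCurve.Affine WeierstrassCurve.Affine.Point

namespace Fermat.Agent.S51x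


noncomputable section

section R5

variable (E : WeierstrassCurve ℚ)

/-- `px` is Galois-equivariant. -/
theorem R5_px_smul (σ : Qbar ≃ₐ[ℚ] Qbar) (Q : (E⁄Qbar).Point) :
    px (σ • Q) = σ (px Q) := by
  cases Q with
  | zero =>
    have h0 : σ • (0 : (E⁄Qbar).Point) = 0 := rfl
    change px (σ • (0 : (E⁄Qbar).Point)) = σ (px (0 : (E⁄Qbar).Point))
    rw [h0]
    change (0 : Qbar) = σ 0
    simp
  | some x y h =>
    obtain ⟨h', he⟩ := smul_some E σ h
    rw [he]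
    rfl

theorem R5_peta_smul (σ : Qbar ≃ₐ[ℚ] Qbar) (Q : (E⁄Qbar).Point) :
    peta (σ • Q) = σ (peta Q) := by
  cases Q with
  | zero =>
    have h0 : σ • (0 : (E⁄Qbar).Point) = 0 := rfl
    change peta (σ • (0 : (E⁄Qbar).Point)) = σ (peta (0 : (E⁄Qbar).Point))
    rw [h0]
    change (0 : Qbar) = σ 0
    simp
  | some x y h =>
    obtain ⟨h', he⟩ := smul_some E σ h
    rw [he]
    change 2 * σ y + (E⁄Qbar).a₁ * σ x + (E⁄Qbar).a₃ = σ (2 * y + (E⁄Qbar).a₁ * x + (E⁄Qbar).a₃)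
    have h1 : (E⁄Qbar).a₁ = algebraMap ℚ Qbar E.a₁ := rfl
    have h3 : (E⁄Qbar).a₃ = algebraMap ℚ Qbar E.a₃ := rfl
    rw [h1, h3]
    simp only [map_add, map_mul, AlgEquiv.commutes, map_ofNat]

theorem R5_dInv_smul (σ : Qbar ≃ₐ[ℚ] Qbar) (Q : (E⁄Qbar).Point) :
    dInv (E⁄Qbar) (σ • Q) = σ (dInv (E⁄Qbar) Q) := by
  unfold dInv
  rw [← smul_add, R5_px_smul, R5_px_smul, R5_peta_smul]
  simp only [map_div₀, map_pow, map_sub]

end R5

section R5gen

variable {F : Type} [Field F] [DecidableEq F]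

omit [DecidableEq F] in
theorem R5_T_invariant (d : F) (hd : d ≠ 0) :
    (-d⁻¹) - 11 - (-d⁻¹)⁻¹ = d - 11 - d⁻¹ := by
  field_simp
  ring

theorem R5_dInv_nsmul [CharZero F] (W : WeierstrassCurve F) [W.IsElliptic]
    (P : W.toAffine.Point) (hP : P ≠ 0) (h5 : (5 : ℤ) • P = 0) (k : ℕ) (hk : ¬ 5 ∣ k) :
    dInv W (k • P) = dInv W P ∨ dInv W (k • P) = -(dInv W P)⁻¹ := by
  have h5' : (5 : ℕ) • P = 0 := by
    have := h5
    rwa [← Nat.cast_ofNat, natCast_zsmul] at this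
  have hk' : k • P = (k % 5) • P := by
    conv_lhs => rw [← Nat.div_add_mod k 5]
    rw [add_nsmul, mul_nsmul, h5', nsmul_zero, zero_add]
  rw [hk']
  have hlt : k % 5 < 5 := Nat.mod_lt _ (by norm_num)
  have hne : k % 5 ≠ 0 := fun h => hk (Nat.dvd_of_mod_eq_zero h)
  have h23 : (3 : ℕ) • P = -(P + P) := by
    have h : (3 : ℕ) • P + (P + P) = 0 := by
      rw [← two_nsmul, ← add_nsmul]
      exact h5'
    exact eq_neg_of_add_eq_zero_left h
  have h14 : (4 : ℕ) • P = -P := by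
    have h : (4 : ℕ) • P + P = 0 := by
      rw [← succ_nsmul]
      exact h5'
    exact eq_neg_of_add_eq_zero_left h
  interval_cases hk5 : k % 5
  · exact absurd rfl hne
  · left; rw [one_nsmul]
  · right; rw [two_nsmul]; exact dInv_two_smul W P hP h5
  · right; rw [h23, dInv_neg]; exact dInv_two_smul W P hP h5
  · left; rw [h14, dInv_neg]

end R5gen

section R5main

variable (E : WeierstrassCurve ℚ) [E.IsElliptic]

theorem exists_t_of_reducible_five (hj0 : E.j ≠ 0) (hj : E.j ≠ 1728)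
    (h : ¬ GaloisRepIsIrreducible (K := Qbar) ℚ E 5) :
    ∃ t : ℚ, t ≠ 0 ∧ E.j * t = (t ^ 2 + 10 * t + 5) ^ 3 := by
  have : (E⁄Qbar).IsElliptic := by
    change (E.map (algebraMap ℚ Qbar)).IsElliptic
    infer_instance
  have hjW : (E⁄Qbar).j = algebraMap ℚ Qbar E.j := by
    change (E.map (algebraMap ℚ Qbar)).j = _
    exact map_j E (algebraMap ℚ Qbar)
  have hinj : Function.Injective (algebraMap ℚ Qbar) := (algebraMap ℚ Qbar).injective
  have hj0' : (E⁄Qbar).j ≠ 0 := by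
    rw [hjW]
    exact fun h0 => hj0 (hinj (h0.trans (_root_.map_zero _).symm))
  have hj' : (E⁄Qbar).j ≠ 1728 := by
    rw [hjW]
    intro h0
    apply hj
    apply hinj
    rw [h0]
    simp
  -- nontriviality and cardinality of E[5]
  obtain ⟨P0, hP0, h5P0⟩ := exists_five_torsion (E⁄Qbar)
  obtain ⟨hfin, hcard⟩ := card_five_torsion_le (E⁄Qbar) hj0' hj'
  have hnt : Nontrivial (Submodule.torsionBy ℤ (E⁄Qbar).Point ((5 : ℕ) : ℤ)) := by
    refine ⟨⟨⟨P0, ?_⟩, 0, ?_⟩⟩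
    · rw [Submodule.mem_torsionBy_iff]
      exact_mod_cast h5P0
    · intro h0
      exact hP0 (congrArg Subtype.val h0)
  have : Fact (Nat.Prime 5) := ⟨by norm_num⟩
  obtain ⟨P, hP, h5P, hσ⟩ := exists_stable_line E 5 hnt hfin (by simpa using hcard) h
  have h5P' : (5 : ℤ) • P = 0 := by exact_mod_cast h5P
  obtain ⟨hd0, hd1, hd2⟩ := dInv_spec (E⁄Qbar) P hP h5P'
  set d : Qbar := dInv (E⁄Qbar) P with hd
  -- the invariant
  have hfix : ∀ σ : Qbar ≃ₐ[ℚ] Qbar, σ (d - 11 - d⁻¹) = d - 11 - d⁻¹ := by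
    intro σ
    obtain ⟨k, hk, hkP⟩ := hσ σ
    have h1 : σ d = dInv (E⁄Qbar) (k • P) := by
      rw [hd, ← R5_dInv_smul, hkP]
    have h2 : σ (d - 11 - d⁻¹) = σ d - 11 - (σ d)⁻¹ := by
      simp only [map_sub, map_inv₀, map_ofNat]
    rw [h2, h1]
    rcases R5_dInv_nsmul (E⁄Qbar) P hP h5P' k hk with h3 | h3
    · rw [h3]
    · rw [h3]
      exact R5_T_invariant d hd0
  obtain ⟨t, ht⟩ := exists_rat_of_fixed (d - 11 - d⁻¹) hfix
  have hTd : algebraMap ℚ Qbar t * d = d ^ 2 - 11 * d - 1 := by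
    rw [ht]
    field_simp
  refine ⟨t, ?_, ?_⟩
  · intro h0
    rw [h0, _root_.map_zero, zero_mul] at hTd
    exact hd1 hTd.symm
  · apply hinj
    rw [map_mul, ← hjW, map_pow, map_add, map_add, map_mul, map_pow, map_ofNat, map_ofNat]
    set T : Qbar := algebraMap ℚ Qbar t with hT
    have hd6 : d ^ 6 ≠ 0 := pow_ne_zero _ hd0
    apply mul_right_cancel₀ hd6
    have e1 : (T ^ 2 + 10 * T + 5) * d ^ 2 =
        d ^ 4 - 12 * d ^ 3 + 14 * d ^ 2 + 12 * d + 1 := by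
      have : (T ^ 2 + 10 * T + 5) * d ^ 2 = (T * d) ^ 2 + 10 * (T * d) * d + 5 * d ^ 2 := by ring
      rw [this, hTd]
      ring
    calc (E⁄Qbar).j * T * d ^ 6 = (E⁄Qbar).j * (d ^ 5 * (T * d)) := by ring
      _ = (E⁄Qbar).j * (d ^ 5 * (d ^ 2 - 11 * d - 1)) := by rw [hTd]
      _ = (d ^ 4 - 12 * d ^ 3 + 14 * d ^ 2 + 12 * d + 1) ^ 3 := hd2
      _ = ((T ^ 2 + 10 * T + 5) * d ^ 2) ^ 3 := by rw [e1]
      _ = (T ^ 2 + 10 * T + 5) ^ 3 * d ^ 6 := by ring

end R5main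

end

end Fermat.Agent.S51x
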