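import Mathlib

/-!
Rank-zero descent core for the curve `Y^2 = X (X - 1) (X - 81)`.

`Sol81 U D V W` encodes a rational point with `X = U^2 / D^2`, all three of
`X`, `X - 1`, `X - 81` rational squares.  Given the normalisation hypothesis
`NormalizeHyp` (every rational point with `Y ≠ 0` yields such a quadruple of controlled
height), the halving descent shows there is no such quadruple, hence no point with `Y ≠ 0`.
-/

namespace Fermat.Agent.S51x

/-- A point of `Y^2 = X (X-1) (X-81)` with `X = U^2/D^2`, `X - 1 = V^2/D^2`,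
`X - 81 = W^2/D^2`. -/
def Sol81 (U D V W : ℕ) : Prop :=
  0 < D ∧ 0 < V ∧ 0 < W ∧ Nat.Coprime U D ∧ U ^ 2 = V ^ 2 + D ^ 2 ∧ U ^ 2 = W ^ 2 + 81 * D ^ 2

/-- Normalisation hypothesis: every rational point `X = n/m` (lowest terms) with `Y ≠ 0`
gives a `Sol81` quadruple with `U^2 ≤ 81 * max n m`. -/
def NormalizeHyp : Prop :=
  ∀ n m : ℕ, 0 < n → 0 < m → Nat.Coprime n m →
    (∃ Y : ℚ, Y ≠ 0 ∧ Y ^ 2 = ((n : ℚ) / m) * ((n : ℚ) / m - 1) * ((n : ℚ) / m - 81)) →
    ∃ U D V W : ℕ, Sol81 U D V W ∧ U ^ 2 ≤ 81 * max n m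

/-- The halving identity. -/
theorem halving_identity81 {K : Type*} [Field K] (u v w : K) (h1 : u ^ 2 = v ^ 2 + 1)
    (h2 : u ^ 2 = w ^ 2 + 81) :
    ((u + v) * (v + w) * (w + u)) ^ 2 =
      ((u + v) * (u + w)) * ((u + v) * (u + w) - 1) * ((u + v) * (u + w) - 81) := by
  have e1 : (u + v) * (u + w) - 1 = (u + v) * (v + w) := by linear_combination h1
  have e2 : (u + v) * (u + w) - 81 = (u + w) * (v + w) := by linear_combination h2
  rw [e1, e2]; ring

/-- The finite check for the base case. -/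
theorem base_check81 : ∀ D < 18, ∀ e < D, ∀ f < 9 * D, 0 < e → 0 < f →
    f * (D ^ 2 + e ^ 2) ≠ e * (81 * D ^ 2 + f ^ 2) := by
  decide +kernel

/-- Base case of the descent: no solution with `U < 162`. -/
theorem no_sol81_small {U D V W : ℕ} (h : Sol81 U D V W) (hU : U < 162) : False := by
  obtain ⟨hD, hV, hW, -, h1, h2⟩ := h
  have hVU : V < U := by
    by_contra hc
    have : U ^ 2 ≤ V ^ 2 := Nat.pow_le_pow_left (not_lt.mp hc) 2
    have : 0 < D ^ 2 := by positivity
    omega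
  have hWU : W < U := by
    by_contra hc
    have : U ^ 2 ≤ W ^ 2 := Nat.pow_le_pow_left (not_lt.mp hc) 2
    have : 0 < D ^ 2 := by positivity
    omega
  obtain ⟨e, rfl⟩ : ∃ e, U = V + e := ⟨U - V, by omega⟩
  obtain ⟨f, hf⟩ : ∃ f, V + e = W + f := ⟨V + e - W, by omega⟩
  have he : 0 < e := by omega
  have hf0 : 0 < f := by omega
  have h1' : 2 * V * e + e ^ 2 = D ^ 2 := by nlinarith
  have h2' : 2 * W * f + f ^ 2 = 81 * D ^ 2 := by rw [hf] at h2; nlinarith
  have heD : e < D := by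
    by_contra hc
    have : D ^ 2 ≤ e ^ 2 := Nat.pow_le_pow_left (not_lt.mp hc) 2
    have : 0 < 2 * V * e := by positivity
    omega
  have hfD : f < 9 * D := by
    by_contra hc
    have : (9 * D) ^ 2 ≤ f ^ 2 := Nat.pow_le_pow_left (not_lt.mp hc) 2
    have : 0 < 2 * W * f := by positivity
    have : (9 * D) ^ 2 = 81 * D ^ 2 := by ring
    omega
  have hD18 : D < 18 := by
    by_contra hc
    have h18 : 18 ≤ D := not_lt.mp hc
    have : 18 ^ 2 ≤ D ^ 2 := Nat.pow_le_pow_left h18 2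
    have : (V + e) ^ 2 ≤ 161 ^ 2 := Nat.pow_le_pow_left (by omega) 2
    omega
  refine base_check81 D hD18 e heD f hfD he hf0 ?_
  calc f * (D ^ 2 + e ^ 2) = f * ((2 * V * e + e ^ 2) + e ^ 2) := by rw [h1']
    _ = 2 * e * f * (V + e) := by ring
    _ = 2 * e * f * (W + f) := by rw [hf]
    _ = e * ((2 * W * f + f ^ 2) + f ^ 2) := by ring
    _ = e * (81 * D ^ 2 + f ^ 2) := by rw [h2']

/-- The descent step: from a solution with `162 ≤ U` produce one with smaller `U`. -/
theorem sol81_descent (H : NormalizeHyp) {U D V W : ℕ} (h : Sol81 U D V W) (hU : 162 ≤ U) :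
    ∃ U' D' V' W' : ℕ, Sol81 U' D' V' W' ∧ U' < U := by
  obtain ⟨hD, hV, hW, -, h1, h2⟩ := h
  have hVU : V < U := by
    by_contra hc
    have : U ^ 2 ≤ V ^ 2 := Nat.pow_le_pow_left (not_lt.mp hc) 2
    have : 0 < D ^ 2 := by positivity
    omega
  have hWU : W < U := by
    by_contra hc
    have : U ^ 2 ≤ W ^ 2 := Nat.pow_le_pow_left (not_lt.mp hc) 2
    have : 0 < D ^ 2 := by positivity
    omega
  -- the new `X`-coordinate is `(U + W) / (U - V)`
  set N : ℕ := U + W with hN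
  set M : ℕ := U - V with hM
  have hNpos : 0 < N := by omega
  have hMpos : 0 < M := by omega
  set g : ℕ := Nat.gcd N M with hg
  have hgpos : 0 < g := Nat.gcd_pos_of_pos_left _ hNpos
  set n : ℕ := N / g with hn
  set m : ℕ := M / g with hm
  have hng : n * g = N := Nat.div_mul_cancel (Nat.gcd_dvd_left N M)
  have hmg : m * g = M := Nat.div_mul_cancel (Nat.gcd_dvd_right N M)
  have hnpos : 0 < n := Nat.div_pos (Nat.gcd_le_left _ hNpos) hgpos
  have hmpos : 0 < m := Nat.div_pos (Nat.gcd_le_right _ hMpos) hgpos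
  have hcop : Nat.Coprime n m := Nat.coprime_div_gcd_div_gcd hgpos
  have hnle : n ≤ N := Nat.div_le_self _ _
  have hmle : m ≤ M := Nat.div_le_self _ _
  -- rational versions
  have hDq : (D : ℚ) ≠ 0 := by exact_mod_cast hD.ne'
  have hDq0 : (0 : ℚ) < D := by exact_mod_cast hD
  have hUq0 : (0 : ℚ) < U := by exact_mod_cast (by omega : 0 < U)
  have hVq0 : (0 : ℚ) < V := by exact_mod_cast hV
  have hWq0 : (0 : ℚ) < W := by exact_mod_cast hW
  have h1q : ((U : ℚ) / D) ^ 2 = ((V : ℚ) / D) ^ 2 + 1 := by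
    have : (U : ℚ) ^ 2 = V ^ 2 + D ^ 2 := by exact_mod_cast h1
    field_simp
    linarith
  have h2q : ((U : ℚ) / D) ^ 2 = ((W : ℚ) / D) ^ 2 + 81 := by
    have : (U : ℚ) ^ 2 = W ^ 2 + 81 * D ^ 2 := by exact_mod_cast h2
    field_simp
    linarith
  have hgq : (g : ℚ) ≠ 0 := by exact_mod_cast hgpos.ne'
  have hmq : (m : ℚ) ≠ 0 := by exact_mod_cast hmpos.ne'
  have hMq : (M : ℚ) = (U : ℚ) - V := by
    rw [hM]; exact Nat.cast_sub hVU.le
  have hMq0 : (0 : ℚ) < (U : ℚ) - V := by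
    rw [← hMq]; exact_mod_cast hMpos
  have hX : (n : ℚ) / m = ((U : ℚ) / D + (V : ℚ) / D) * ((U : ℚ) / D + (W : ℚ) / D) := by
    have e1 : (n : ℚ) / m = (N : ℚ) / M := by
      rw [← hng, ← hmg]; push_cast
      rw [mul_div_mul_right _ _ hgq]
    have e2 : (N : ℚ) = (U : ℚ) + W := by rw [hN]; push_cast; ring
    have h1q' : (U : ℚ) ^ 2 = V ^ 2 + D ^ 2 := by exact_mod_cast h1
    rw [e1, e2, hMq, div_eq_iff hMq0.ne']
    field_simp
    linear_combination (-1 : ℚ) * h1q'
  obtain ⟨U', D', V', W', hsol, hbound⟩ := H n m hnpos hmpos hcop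
    ⟨((U : ℚ) / D + (V : ℚ) / D) * ((V : ℚ) / D + (W : ℚ) / D) * ((W : ℚ) / D + (U : ℚ) / D),
      by positivity, by rw [hX]; exact halving_identity81 _ _ _ h1q h2q⟩
  refine ⟨U', D', V', W', hsol, ?_⟩
  have hmax : max n m ≤ 2 * U - 1 := by
    apply max_le <;> omega
  have : U' ^ 2 < U ^ 2 := by
    calc U' ^ 2 ≤ 81 * max n m := hbound
      _ ≤ 81 * (2 * U - 1) := Nat.mul_le_mul_left _ hmax
      _ < U ^ 2 := by
        have : 162 * U ≤ U ^ 2 := by nlinarith
        omega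
  exact lt_of_pow_lt_pow_left₀ 2 (Nat.zero_le _) this

/-- No `Sol81` quadruple exists (given the normalisation hypothesis). -/
theorem no_sol81 (H : NormalizeHyp) : ∀ U D V W : ℕ, ¬ Sol81 U D V W := by
  intro U
  induction U using Nat.strong_induction_on with
  | _ U ih =>
    intro D V W h
    rcases lt_or_ge U 162 with hU | hU
    · exact no_sol81_small h hU
    · obtain ⟨U', D', V', W', hsol, hlt⟩ := sol81_descent H h hU
      exact ih U' hlt D' V' W' hsol

/-- All rational points of `Y^2 = X (X-1) (X-81)` have `Y = 0`. -/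
theorem E3_points (H : NormalizeHyp) {X Y : ℚ} (h : Y ^ 2 = X * (X - 1) * (X - 81)) : Y = 0 := by
  by_contra hY
  have hY2 : 0 < Y ^ 2 := by positivity
  have hXpos : 0 < X := by
    by_contra hc
    have hX0 : X ≤ 0 := not_lt.mp hc
    have : X * (X - 1) * (X - 81) ≤ 0 := by
      have h1 : 0 ≤ (-X) * (1 - X) := by nlinarith
      nlinarith
    linarith
  have hnum : 0 < X.num := Rat.num_pos.mpr hXpos
  have hcop : Nat.Coprime X.num.toNat X.den := by
    have := X.reduced
    rwa [← Int.toNat_of_nonneg hnum.le, Int.natAbs_natCast] at this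
  have hXeq : ((X.num.toNat : ℕ) : ℚ) / (X.den : ℚ) = X := by
    have : ((X.num.toNat : ℕ) : ℚ) = (X.num : ℚ) := by
      have := Int.toNat_of_nonneg hnum.le
      exact_mod_cast congrArg (fun z : ℤ => (z : ℚ)) this
    rw [this]; exact Rat.num_div_den X
  obtain ⟨U, D, V, W, hsol, -⟩ := H X.num.toNat X.den (by omega) X.den_pos hcop
    ⟨Y, hY, by rw [hXeq]; exact h⟩
  exact no_sol81 H U D V W hsol

end Fermat.Agent.S51x
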