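/-
S51 helper module (helper50): the "moduli identities".

For a Weierstrass curve `W` in general form, with
  g(x) = 4x³ + b₂x² + 2b₄x + b₆  (= Ψ₂Sq),   h(x) = 6x² + b₂x + b₄ (= g'/2),
  ψ(x) = 3x⁴ + b₂x³ + 3b₄x² + 3b₆x + b₈ (= Ψ₃),   N(x) = x⁴ - b₄x² - 2b₆x - b₈,
we prove universal identities expressing `c₄` and `Δ` through `g, h, ψ` (these come from
translating a point to the origin with horizontal tangent), and deduce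

* (M3) if `ψ(x₀) = 0`, `g(x₀) ≠ 0` then `τ := h³/g² - 27` satisfies `c₄³ τ = Δ (τ+27)(τ+3)³`;
* (M5) if `x₂ g(x₁) = N(x₁)`, `x₁ g(x₂) = N(x₂)`, `x₁ ≠ x₂`, `g(x₁) ≠ 0` then
  `t := (4s² - 4p + b₂ s + 2b₄)/(s² - 4p) - 11` (`s = x₁+x₂`, `p = x₁x₂`) satisfies
  `c₄³ t = Δ (t² + 10t + 5)³`.
-/
import Mathlib

set_option autoImplicit false

namespace Fermat.Agent.S51x.Moduli

open WeierstrassCurve

section Universal

variable {R : Type*} [CommRing R] (W : WeierstrassCurve R)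

/-- `g(x) = 4x³ + b₂x² + 2b₄x + b₆`, the value of `Ψ₂Sq`. -/
def gP (x : R) : R := 4 * x ^ 3 + W.b₂ * x ^ 2 + 2 * W.b₄ * x + W.b₆

/-- `h(x) = 6x² + b₂x + b₄`, half the derivative of `g`. -/
def hP (x : R) : R := 6 * x ^ 2 + W.b₂ * x + W.b₄

/-- `ψ(x) = 3x⁴ + b₂x³ + 3b₄x² + 3b₆x + b₈`, the value of `Ψ₃`. -/
def psiP (x : R) : R := 3 * x ^ 4 + W.b₂ * x ^ 3 + 3 * W.b₄ * x ^ 2 + 3 * W.b₆ * x + W.b₈

/-- `N(x) = x⁴ - b₄x² - 2b₆x - b₈`, the numerator of the duplication formula. -/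
def nP (x : R) : R := x ^ 4 - W.b₄ * x ^ 2 - 2 * W.b₆ * x - W.b₈

lemma x_mul_gP_sub_nP (x : R) : x * gP W x - nP W x = psiP W x := by
  simp only [gP, nP, psiP]; ring

lemma hP_sq (x : R) : hP W x ^ 2 = (W.b₂ + 12 * x) * gP W x - 4 * psiP W x := by
  simp only [gP, hP, psiP]
  linear_combination (1 : R) * W.b_relation

lemma c₄_mul_gP_sq (x : R) :
    W.c₄ * gP W x ^ 2 = (hP W x ^ 2 + 4 * psiP W x) ^ 2 - 24 * hP W x * gP W x ^ 2 := by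
  rw [hP_sq]
  simp only [c₄, hP]
  ring

lemma Δ_mul_gP_sq (x : R) :
    W.Δ * gP W x ^ 2 = -(hP W x ^ 2 + 4 * psiP W x) ^ 2 * psiP W x
      + (hP W x ^ 3 - 27 * gP W x ^ 2 + 36 * psiP W x * hP W x) * gP W x ^ 2 := by
  simp only [Δ, gP, hP, psiP, b₂, b₄, b₆, b₈]
  ring

lemma x_mul_gP_sub_nP_shift (x δ : R) :
    x * gP W (x - δ) - nP W (x - δ)
      = -(δ ^ 4 - hP W x * δ ^ 2 + 2 * gP W x * δ - psiP W x) := by
  simp only [gP, hP, psiP, nP]; ring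

lemma gP_shift (x δ : R) :
    gP W (x - δ) = -4 * δ ^ 3 + (W.b₂ + 12 * x) * δ ^ 2 - 2 * hP W x * δ + gP W x := by
  simp only [gP, hP]; ring

/-- Bezout identity: a common root of `g` and `h` forces `Δ = 0`. -/
lemma four_Δ_eq (x : R) :
    4 * W.Δ = (-6 * W.b₂ ^ 2 * x - W.b₂ ^ 3 + 30 * W.b₂ * W.b₄ + 144 * W.b₄ * x - 108 * W.b₆)
        * gP W x
      + (4 * W.b₂ ^ 2 * x ^ 2 + W.b₂ ^ 3 * x - 28 * W.b₂ * W.b₄ * x + W.b₂ ^ 2 * W.b₄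
          - 96 * W.b₄ * x ^ 2 + 6 * W.b₂ * W.b₆ - 32 * W.b₄ ^ 2 + 72 * W.b₆ * x) * hP W x := by
  simp only [Δ, gP, hP]
  linear_combination (-W.b₂ ^ 2) * W.b_relation

end Universal

section Field

variable {K : Type*} [Field K] (W : WeierstrassCurve K)

/-- If `Δ ≠ 0` (and `2 ≠ 0`), a root of `ψ` is not a root of `g`. -/
lemma gP_ne_zero_of_psiP_eq_zero (h2 : (2 : K) ≠ 0) (hΔ : W.Δ ≠ 0) {x : K}
    (hx : psiP W x = 0) : gP W x ≠ 0 := by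
  intro hg
  have hh : hP W x = 0 := by
    have := hP_sq W x
    rw [hg, hx] at this
    simpa using this
  have h4 := four_Δ_eq W x
  rw [hg, hh] at h4
  have h4' : (4 : K) * W.Δ = 0 := by simpa using h4
  have : (4 : K) ≠ 0 := by
    have : (4 : K) = 2 * 2 := by norm_num
    rw [this]; exact mul_ne_zero h2 h2
  exact hΔ ((mul_eq_zero.mp h4').resolve_left this)

/-- (M3) the `τ`-identity attached to a root of `ψ = Ψ₃`. -/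
theorem tau_identity {x : K} (hx : psiP W x = 0) (hg : gP W x ≠ 0) :
    W.c₄ ^ 3 * (hP W x ^ 3 / gP W x ^ 2 - 27)
      = W.Δ * ((hP W x ^ 3 / gP W x ^ 2 - 27) + 27)
          * ((hP W x ^ 3 / gP W x ^ 2 - 27) + 3) ^ 3 := by
  have h1 := c₄_mul_gP_sq W x
  have h2 := Δ_mul_gP_sq W x
  rw [hx] at h1 h2
  have hc : W.c₄ = hP W x * (hP W x ^ 3 - 24 * gP W x ^ 2) / gP W x ^ 2 := by
    rw [eq_div_iff (pow_ne_zero 2 hg)]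
    linear_combination h1
  have hd : W.Δ = hP W x ^ 3 - 27 * gP W x ^ 2 := by
    have hg2 : gP W x ^ 2 ≠ 0 := pow_ne_zero 2 hg
    apply mul_right_cancel₀ hg2
    linear_combination h2
  rw [hc, hd]
  field_simp
  ring

/-- (M5), first half: the relation `δ³ - h δ + g = 0` for `δ = x₁ - x₂`. -/
lemma delta_relation {x₁ x₂ : K} (hne : x₁ ≠ x₂)
    (h12 : x₂ * gP W x₁ = nP W x₁) (h21 : x₁ * gP W x₂ = nP W x₂) :
    psiP W x₁ = (x₁ - x₂) * gP W x₁ ∧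
    (x₁ - x₂) ^ 3 - hP W x₁ * (x₁ - x₂) + gP W x₁ = 0 := by
  have hpsi : psiP W x₁ = (x₁ - x₂) * gP W x₁ := by
    rw [← x_mul_gP_sub_nP]; linear_combination h12
  refine ⟨hpsi, ?_⟩
  have hδ : x₁ - x₂ ≠ 0 := sub_ne_zero.mpr hne
  have h3 := x_mul_gP_sub_nP_shift W x₁ (x₁ - x₂)
  rw [sub_sub_cancel, hpsi] at h3
  apply mul_left_cancel₀ hδ
  linear_combination h3 - h21

/-- (M5), symmetric product: `g(x₁) g(x₂) = (x₁ - x₂)⁶`. -/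
lemma gP_mul_gP {x₁ x₂ : K} (hne : x₁ ≠ x₂) (_hg : gP W x₁ ≠ 0)
    (h12 : x₂ * gP W x₁ = nP W x₁) (h21 : x₁ * gP W x₂ = nP W x₂) :
    gP W x₁ * gP W x₂ = (x₁ - x₂) ^ 6 := by
  obtain ⟨hpsi, hrel⟩ := delta_relation W hne h12 h21
  have h4 := hP_sq W x₁
  have h6 := gP_shift W x₁ (x₁ - x₂)
  rw [sub_sub_cancel] at h6
  rw [hpsi] at h4
  -- g(x₂) g = (hδ - g)², and hδ - g = δ³
  have key : gP W x₁ * gP W x₂ = (hP W x₁ * (x₁ - x₂) - gP W x₁) ^ 2 := by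
    rw [h6]
    linear_combination (-(x₁ - x₂) ^ 2) * h4
  rw [key]
  have : hP W x₁ * (x₁ - x₂) - gP W x₁ = (x₁ - x₂) ^ 3 := by linear_combination (-1 : K) * hrel
  rw [this]; ring

/-- (M5) the `t`-identity, in terms of `d = -δ³/g(x₁)`. -/
theorem t_identity_aux {x₁ x₂ : K} (hne : x₁ ≠ x₂) (hg : gP W x₁ ≠ 0)
    (h12 : x₂ * gP W x₁ = nP W x₁) (h21 : x₁ * gP W x₂ = nP W x₂) :
    W.c₄ ^ 3 * (-(x₁ - x₂) ^ 3 / gP W x₁ + gP W x₁ / (x₁ - x₂) ^ 3 - 11)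
      = W.Δ * ((-(x₁ - x₂) ^ 3 / gP W x₁ + gP W x₁ / (x₁ - x₂) ^ 3 - 11) ^ 2
          + 10 * (-(x₁ - x₂) ^ 3 / gP W x₁ + gP W x₁ / (x₁ - x₂) ^ 3 - 11) + 5) ^ 3 := by
  obtain ⟨hpsi, hrel⟩ := delta_relation W hne h12 h21
  have hδ : x₁ - x₂ ≠ 0 := sub_ne_zero.mpr hne
  have h1 := c₄_mul_gP_sq W x₁
  have h2 := Δ_mul_gP_sq W x₁
  rw [hpsi] at h1 h2
  set δ := x₁ - x₂ with hδdef
  set g := gP W x₁ with hgdef
  set h := hP W x₁ with hhdef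
  -- g = δ (h - δ²)
  have hgv : g = δ * (h - δ ^ 2) := by linear_combination hrel
  have he : h - δ ^ 2 ≠ 0 := by
    intro h0; apply hg; rw [hgv, h0, mul_zero]
  have hg2 : g ^ 2 ≠ 0 := pow_ne_zero 2 hg
  have hc : W.c₄ = ((h ^ 2 + 4 * (δ * g)) ^ 2 - 24 * h * g ^ 2) / g ^ 2 := by
    rw [eq_div_iff hg2]
    linear_combination h1
  have hd : W.Δ = (-(h ^ 2 + 4 * (δ * g)) ^ 2 * (δ * g)
      + (h ^ 3 - 27 * g ^ 2 + 36 * (δ * g) * h) * g ^ 2) / g ^ 2 := by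
    rw [eq_div_iff hg2]
    linear_combination h2
  rw [hc, hd, hgv]
  field_simp
  ring

/-- (M5) the symmetric expression of the parameter `t`. -/
lemma t_symm {x₁ x₂ : K} (hne : x₁ ≠ x₂) (hg : gP W x₁ ≠ 0)
    (h12 : x₂ * gP W x₁ = nP W x₁) (h21 : x₁ * gP W x₂ = nP W x₂) :
    -(x₁ - x₂) ^ 3 / gP W x₁ + gP W x₁ / (x₁ - x₂) ^ 3 - 11
      = (4 * (x₁ + x₂) ^ 2 - 4 * (x₁ * x₂) + W.b₂ * (x₁ + x₂) + 2 * W.b₄)
          / ((x₁ + x₂) ^ 2 - 4 * (x₁ * x₂)) - 11 := by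
  have hgg := gP_mul_gP W hne hg h12 h21
  have hδ : x₁ - x₂ ≠ 0 := sub_ne_zero.mpr hne
  have hδ3 : (x₁ - x₂) ^ 3 ≠ 0 := pow_ne_zero 3 hδ
  have hsp : (x₁ + x₂) ^ 2 - 4 * (x₁ * x₂) = (x₁ - x₂) ^ 2 := by ring
  have hsp0 : (x₁ + x₂) ^ 2 - 4 * (x₁ * x₂) ≠ 0 := by rw [hsp]; exact pow_ne_zero 2 hδ
  have hdiff : gP W x₁ - gP W x₂
      = (x₁ - x₂) * (4 * (x₁ + x₂) ^ 2 - 4 * (x₁ * x₂) + W.b₂ * (x₁ + x₂) + 2 * W.b₄) := by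
    simp only [gP]; ring
  congr 1
  rw [div_add_div _ _ hg hδ3, div_eq_div_iff (mul_ne_zero hg hδ3) hsp0, hsp]
  linear_combination ((x₁ - x₂) ^ 2) * hgg + (gP W x₁ * (x₁ - x₂) ^ 2) * hdiff

/-- (M5) the `t`-identity in symmetric form. -/
theorem t_identity {x₁ x₂ : K} (hne : x₁ ≠ x₂) (hg : gP W x₁ ≠ 0)
    (h12 : x₂ * gP W x₁ = nP W x₁) (h21 : x₁ * gP W x₂ = nP W x₂) :
    W.c₄ ^ 3 * ((4 * (x₁ + x₂) ^ 2 - 4 * (x₁ * x₂) + W.b₂ * (x₁ + x₂) + 2 * W.b₄)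
          / ((x₁ + x₂) ^ 2 - 4 * (x₁ * x₂)) - 11)
      = W.Δ * (((4 * (x₁ + x₂) ^ 2 - 4 * (x₁ * x₂) + W.b₂ * (x₁ + x₂) + 2 * W.b₄)
          / ((x₁ + x₂) ^ 2 - 4 * (x₁ * x₂)) - 11) ^ 2
          + 10 * ((4 * (x₁ + x₂) ^ 2 - 4 * (x₁ * x₂) + W.b₂ * (x₁ + x₂) + 2 * W.b₄)
          / ((x₁ + x₂) ^ 2 - 4 * (x₁ * x₂)) - 11) + 5) ^ 3 := by
  rw [← t_symm W hne hg h12 h21]
  exact t_identity_aux W hne hg h12 h21

end Field

section Rat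

variable (W : WeierstrassCurve ℚ)

/-- (M3) over `ℚ`: a rational root of `Ψ₃` yields a rational `τ ≠ 0` with
`c₄³ τ = Δ (τ + 27) (τ + 3)³`. -/
theorem exists_tau_of_root (hΔ : W.Δ ≠ 0) {x₀ : ℚ} (hx : psiP W x₀ = 0) :
    ∃ τ : ℚ, τ ≠ 0 ∧ W.c₄ ^ 3 * τ = W.Δ * (τ + 27) * (τ + 3) ^ 3 := by
  have hg := gP_ne_zero_of_psiP_eq_zero W two_ne_zero hΔ hx
  refine ⟨hP W x₀ ^ 3 / gP W x₀ ^ 2 - 27, ?_, tau_identity W hx hg⟩
  intro h0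
  have := tau_identity W hx hg
  rw [h0] at this
  apply hΔ
  have h' : W.Δ * 729 = 0 := by linear_combination (-1 : ℚ) * this
  exact (mul_eq_zero.mp h').resolve_right (by norm_num)

lemma psiP_eq_eval_Ψ₃ {R : Type*} [CommRing R] (W : WeierstrassCurve R) (x : R) :
    psiP W x = W.Ψ₃.eval x := by
  simp [psiP, WeierstrassCurve.Ψ₃]

lemma gP_eq_eval_Ψ₂Sq {R : Type*} [CommRing R] (W : WeierstrassCurve R) (x : R) :
    gP W x = W.Ψ₂Sq.eval x := by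
  simp [gP, WeierstrassCurve.Ψ₂Sq]

/-- (M3) over `ℚ`, stated with Mathlib's `Ψ₃`. -/
theorem exists_tau_of_Ψ₃_root (hΔ : W.Δ ≠ 0) {x₀ : ℚ} (hx : W.Ψ₃.eval x₀ = 0) :
    ∃ τ : ℚ, τ ≠ 0 ∧ W.c₄ ^ 3 * τ = W.Δ * (τ + 27) * (τ + 3) ^ 3 :=
  exists_tau_of_root W hΔ (by rw [psiP_eq_eval_Ψ₃]; exact hx)

/-- (M5) over `ℚ`: a pair `x₁ ≠ x₂` in an extension field `K`, swapped by the duplication map
and with rational sum and product, yields a rational `t ≠ 0` with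
`c₄³ t = Δ (t² + 10 t + 5)³`. -/
theorem exists_t_of_pair (hΔ : W.Δ ≠ 0) {K : Type*} [Field K] [Algebra ℚ K]
    {x₁ x₂ : K} {s p : ℚ} (hs : x₁ + x₂ = algebraMap ℚ K s) (hp : x₁ * x₂ = algebraMap ℚ K p)
    (hne : x₁ ≠ x₂) (hg : gP (W.map (algebraMap ℚ K)) x₁ ≠ 0)
    (h12 : x₂ * gP (W.map (algebraMap ℚ K)) x₁ = nP (W.map (algebraMap ℚ K)) x₁)
    (h21 : x₁ * gP (W.map (algebraMap ℚ K)) x₂ = nP (W.map (algebraMap ℚ K)) x₂) :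
    ∃ t : ℚ, t ≠ 0 ∧ W.c₄ ^ 3 * t = W.Δ * (t ^ 2 + 10 * t + 5) ^ 3 := by
  have key := t_identity (W.map (algebraMap ℚ K)) hne hg h12 h21
  rw [hs, hp, map_c₄, map_Δ, map_b₂, map_b₄] at key
  set t : ℚ := (4 * s ^ 2 - 4 * p + W.b₂ * s + 2 * W.b₄) / (s ^ 2 - 4 * p) - 11 with ht
  have hcast : (4 * (algebraMap ℚ K s) ^ 2 - 4 * (algebraMap ℚ K p)
      + (algebraMap ℚ K) W.b₂ * (algebraMap ℚ K s) + 2 * (algebraMap ℚ K) W.b₄)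
        / ((algebraMap ℚ K s) ^ 2 - 4 * (algebraMap ℚ K p)) - 11 = algebraMap ℚ K t := by
    rw [ht]
    simp only [map_sub, map_div₀, map_add, map_mul, map_pow, map_ofNat]
  rw [hcast] at key
  have hid : W.c₄ ^ 3 * t = W.Δ * (t ^ 2 + 10 * t + 5) ^ 3 := by
    apply (algebraMap ℚ K).injective
    simp only [map_mul, map_pow, map_add, map_ofNat]
    exact key
  refine ⟨t, ?_, hid⟩
  intro h0
  rw [h0] at hid
  apply hΔ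
  have h' : W.Δ * 125 = 0 := by linear_combination (-1 : ℚ) * hid
  exact (mul_eq_zero.mp h').resolve_right (by norm_num)

end Rat

end Fermat.Agent.S51x.Moduli
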