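/-
S51 helper module (helper50): interface `I3` of `TopLevel.lean` via route B
(`H52/T3c.lean` by helper52 + `Moduli.lean`).
-/
import Fermat.Agent.S51x.H52.T3c
import Fermat.Agent.S51x.Moduli
import Fermat.Agent.S51x.TopLevel

set_option autoImplicit false

namespace Fermat.Agent.S51x

open WeierstrassCurve

/-- Interface `I3` (3-part of S51), route B. -/
theorem i3_routeB : I3 := by
  intro W hΔ h3
  obtain ⟨x₀, hx⟩ := H52.exists_rat_root_Ψ₃_of_not_irreducible W hΔ h3
  have hΔq : (W.map (Int.castRingHom ℚ)).Δ ≠ 0 := by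
    rw [map_Δ, eq_intCast]
    exact_mod_cast hΔ
  obtain ⟨τ, hτ0, hτ⟩ := Moduli.exists_tau_of_Ψ₃_root _ hΔq hx
  refine ⟨τ, hτ0, ?_⟩
  rw [map_c₄, map_Δ, eq_intCast, eq_intCast] at hτ
  exact hτ

end Fermat.Agent.S51x
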