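import Mathlib
import Fermat.Prelude.Def_FLTPrelim_Modularity

/-!
# S51 helper: the four exceptional `j`-invariants are not semistable

If `W` is a semistable integral model with `Δ ≠ 0`, then `j = c₄³/Δ` cannot be a rational number
`n/d` with `5 ∤ d`, `5 ∣ n`, `125 ∤ n`.  In particular `j` is none of
`-25/2, -349938025/8, -121945/32, 46969655/32768` (the non-cuspidal rational points of `X₀(15)`).
-/

set_option autoImplicit false

namespace Fermat.Agent.S51x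

/-- Integer form: for a semistable model, `c₄³ * d = n * Δ` is impossible when
`5 ∤ d`, `5 ∣ n`, `125 ∤ n`. -/
theorem jcheck_int (W : WeierstrassCurve ℤ) (hW : W.IsSemistableModel)
    (n d : ℤ) (hd : ¬ (5 : ℤ) ∣ d) (hn : (5 : ℤ) ∣ n) (hn' : ¬ (125 : ℤ) ∣ n) :
    W.c₄ ^ 3 * d ≠ n * W.Δ := by
  intro h
  have h5 : Prime (5 : ℤ) := by norm_num
  have h5c : (5 : ℤ) ∣ W.c₄ := by
    have h1 : (5 : ℤ) ∣ W.c₄ ^ 3 * d := h ▸ Dvd.dvd.mul_right hn _
    rcases h5.dvd_or_dvd h1 with h2 | h2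
    · exact h5.dvd_of_dvd_pow h2
    · exact absurd h2 hd
  have h5Δ : ¬ (5 : ℤ) ∣ W.Δ := fun h5Δ => hW 5 (by norm_num) (by exact_mod_cast h5Δ)
    (by exact_mod_cast h5c)
  have h125 : (125 : ℤ) ∣ n * W.Δ := by
    rw [← h]
    obtain ⟨k, hk⟩ := h5c
    exact ⟨k ^ 3 * d, by rw [hk]; ring⟩
  have hcop : IsCoprime (125 : ℤ) W.Δ := by
    have : IsCoprime (5 : ℤ) W.Δ := (Prime.coprime_iff_not_dvd h5).mpr h5Δ
    have h3 : IsCoprime ((5 : ℤ) ^ 3) W.Δ := this.pow_left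
    norm_num at h3
    exact h3
  exact hn' (hcop.dvd_of_dvd_mul_right h125)

/-- Rational form: `c₄³ = (n/d) * Δ` is impossible under the same hypotheses. -/
theorem jcheck_rat (W : WeierstrassCurve ℤ) (hW : W.IsSemistableModel)
    (n d : ℤ) (hd0 : d ≠ 0) (hd : ¬ (5 : ℤ) ∣ d) (hn : (5 : ℤ) ∣ n) (hn' : ¬ (125 : ℤ) ∣ n) :
    (W.c₄ : ℚ) ^ 3 ≠ ((n : ℚ) / (d : ℚ)) * (W.Δ : ℚ) := by
  intro h
  apply jcheck_int W hW n d hd hn hn'
  have hd0' : (d : ℚ) ≠ 0 := by exact_mod_cast hd0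
  have h2 : (W.c₄ : ℚ) ^ 3 * (d : ℚ) = (n : ℚ) * (W.Δ : ℚ) := by
    rw [h]; field_simp
  exact_mod_cast h2

/-- The four non-cuspidal rational `j`-invariants of `X₀(15)` do not occur for semistable
models. -/
theorem jcheck_four (W : WeierstrassCurve ℤ) (hW : W.IsSemistableModel) (j : ℚ)
    (hj : (W.c₄ : ℚ) ^ 3 = j * (W.Δ : ℚ)) :
    j ≠ -25 / 2 ∧ j ≠ -349938025 / 8 ∧ j ≠ -121945 / 32 ∧ j ≠ 46969655 / 32768 := by
  refine ⟨?_, ?_, ?_, ?_⟩ <;> rintro rfl
  · exact jcheck_rat W hW (-25) 2 (by norm_num) (by norm_num) (by norm_num) (by norm_num)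
      (by rw [hj]; norm_num)
  · exact jcheck_rat W hW (-349938025) 8 (by norm_num) (by norm_num) (by norm_num) (by norm_num)
      (by rw [hj]; norm_num)
  · exact jcheck_rat W hW (-121945) 32 (by norm_num) (by norm_num) (by norm_num) (by norm_num)
      (by rw [hj]; norm_num)
  · exact jcheck_rat W hW 46969655 32768 (by norm_num) (by norm_num) (by norm_num) (by norm_num)
      (by rw [hj]; norm_num)

end Fermat.Agent.S51x
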