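import Mathlib

/-!
# S51, 5-part moduli identity (backup implementation, helper3)

Let `x₁ = x(P)`, `x₂ = x(2P)` for a point `P` of order `5` on a Weierstrass curve, so that
`x₂ = D(x₁)` and `x₁ = D(x₂)` for the duplication map `D = N/g`,
`g = 4x³ + b₂x² + 2b₄x + b₆`, `N = x⁴ - b₄x² - 2b₆x - b₈`.
With `e = (x₁ - x₂)²` and `h = 4(x₁² + x₁x₂ + x₂²) + b₂(x₁ + x₂) + 2b₄` we prove the three
small identities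
* `(x₁ - x₂)⁶ = g(x₁) g(x₂)`,
* `c₄ e = h² - 12 h e + 16 e²`,
* `Δ = e² (h - 11 e)`,
and deduce that `t = h/e - 11` satisfies `t ≠ 0` and `c₄³ t = Δ (t² + 10 t + 5)³`.
(These are the Tate normal form relations: `t = d - 1/d - 11`, `d = (x₂-x₁)³/g(x₁)`.)
All certificates were computed by weighted-homogeneous exact linear algebra.
-/

namespace Fermat.Agent.S51x.M5B

section Core

variable {F : Type*} [Field F]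

/-- `(x₁ - x₂)⁶ = g(x₁) g(x₂)`. -/
theorem core_sixth (b2 b4 b6 b8 x1 x2 : F) (hb8 : 4 * b8 = b2 * b6 - b4 ^ 2)
    (h1 : x2 * (4 * x1 ^ 3 + b2 * x1 ^ 2 + 2 * b4 * x1 + b6)
      = x1 ^ 4 - b4 * x1 ^ 2 - 2 * b6 * x1 - b8)
    (h2 : x1 * (4 * x2 ^ 3 + b2 * x2 ^ 2 + 2 * b4 * x2 + b6)
      = x2 ^ 4 - b4 * x2 ^ 2 - 2 * b6 * x2 - b8)
    (hne : x1 ≠ x2) :
    (x1 - x2) ^ 6 = (4 * x1 ^ 3 + b2 * x1 ^ 2 + 2 * b4 * x1 + b6)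
      * (4 * x2 ^ 3 + b2 * x2 ^ 2 + 2 * b4 * x2 + b6) := by
  have key : (x1 - x2) * ((x1 - x2) ^ 6 - (4 * x1 ^ 3 + b2 * x1 ^ 2 + 2 * b4 * x1 + b6)
      * (4 * x2 ^ 3 + b2 * x2 ^ 2 + 2 * b4 * x2 + b6)) = 0 := by
    linear_combination
      (-b2*x1*x2 - b4*x1 - b4*x2 - b6 - x1^3 + 3*x1^2*x2 - 9*x1*x2^2 + 3*x2^3) * h1
      + (b2*x1*x2 + b4*x1 + b4*x2 + b6 - 3*x1^3 + 9*x1^2*x2 - 3*x1*x2^2 + x2^3) * h2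
      + (x1^3 - 3*x1^2*x2 + 3*x1*x2^2 - x2^3) * hb8
  have := (mul_eq_zero.mp key).resolve_left (sub_ne_zero.mpr hne)
  linear_combination this

/-- `c₄ e = h² - 12 h e + 16 e²`. -/
theorem core_c4 (b2 b4 b6 b8 x1 x2 : F) (hb8 : 4 * b8 = b2 * b6 - b4 ^ 2)
    (h1 : x2 * (4 * x1 ^ 3 + b2 * x1 ^ 2 + 2 * b4 * x1 + b6)
      = x1 ^ 4 - b4 * x1 ^ 2 - 2 * b6 * x1 - b8)
    (h2 : x1 * (4 * x2 ^ 3 + b2 * x2 ^ 2 + 2 * b4 * x2 + b6)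
      = x2 ^ 4 - b4 * x2 ^ 2 - 2 * b6 * x2 - b8)
    (hne : x1 ≠ x2) :
    (b2 ^ 2 - 24 * b4) * (x1 - x2) ^ 2
      = (4 * (x1 ^ 2 + x1 * x2 + x2 ^ 2) + b2 * (x1 + x2) + 2 * b4) ^ 2
        - 12 * (4 * (x1 ^ 2 + x1 * x2 + x2 ^ 2) + b2 * (x1 + x2) + 2 * b4) * (x1 - x2) ^ 2
        + 16 * ((x1 - x2) ^ 2) ^ 2 := by
  have key : (x1 - x2) * ((b2 ^ 2 - 24 * b4) * (x1 - x2) ^ 2
      - ((4 * (x1 ^ 2 + x1 * x2 + x2 ^ 2) + b2 * (x1 + x2) + 2 * b4) ^ 2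
        - 12 * (4 * (x1 ^ 2 + x1 * x2 + x2 ^ 2) + b2 * (x1 + x2) + 2 * b4) * (x1 - x2) ^ 2
        + 16 * ((x1 - x2) ^ 2) ^ 2)) = 0 := by
    linear_combination (-4*b2 - 16*x1 - 32*x2) * h1 + (4*b2 + 32*x1 + 16*x2) * h2
      + (-4*x1 + 4*x2) * hb8
  have := (mul_eq_zero.mp key).resolve_left (sub_ne_zero.mpr hne)
  linear_combination this

/-- `Δ = e² (h - 11 e)`. -/
theorem core_disc (b2 b4 b6 b8 x1 x2 : F) (hb8 : 4 * b8 = b2 * b6 - b4 ^ 2)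
    (h1 : x2 * (4 * x1 ^ 3 + b2 * x1 ^ 2 + 2 * b4 * x1 + b6)
      = x1 ^ 4 - b4 * x1 ^ 2 - 2 * b6 * x1 - b8)
    (h2 : x1 * (4 * x2 ^ 3 + b2 * x2 ^ 2 + 2 * b4 * x2 + b6)
      = x2 ^ 4 - b4 * x2 ^ 2 - 2 * b6 * x2 - b8)
    (hne : x1 ≠ x2) :
    -b2 ^ 2 * b8 - 8 * b4 ^ 3 - 27 * b6 ^ 2 + 9 * b2 * b4 * b6
      = ((x1 - x2) ^ 2) ^ 2 * ((4 * (x1 ^ 2 + x1 * x2 + x2 ^ 2) + b2 * (x1 + x2) + 2 * b4)
          - 11 * (x1 - x2) ^ 2) := by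
  have key : (x1 - x2) * ((-b2 ^ 2 * b8 - 8 * b4 ^ 3 - 27 * b6 ^ 2 + 9 * b2 * b4 * b6)
      - ((x1 - x2) ^ 2) ^ 2 * ((4 * (x1 ^ 2 + x1 * x2 + x2 ^ 2) + b2 * (x1 + x2) + 2 * b4)
          - 11 * (x1 - x2) ^ 2)) = 0 := by
    linear_combination
      (b2^2*x2 + b2*b4 + b2*x1^2 - 7*b2*x1*x2 - 3*b2*x2^2 - 5*b4*x1 - 37*b4*x2 - 27*b6
        - 7*x1^3 + 33*x1^2*x2 - 75*x1*x2^2 + 13*x2^3) * h1
      + (-b2^2*x1 - b2*b4 + 3*b2*x1^2 + 7*b2*x1*x2 - b2*x2^2 + 37*b4*x1 + 5*b4*x2 + 27*b6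
        - 13*x1^3 + 75*x1^2*x2 - 33*x1*x2^2 + 7*x2^3) * h2
      + (-b2*x1^2 + b2*x2^2 - 8*b4*x1 + 8*b4*x2 + 5*x1^3 - 27*x1^2*x2 + 27*x1*x2^2 - 5*x2^3) * hb8
  have := (mul_eq_zero.mp key).resolve_left (sub_ne_zero.mpr hne)
  linear_combination this

/-- Pure algebra: from `c₄ e = h² - 12he + 16e²` and `Δ = e²(h - 11e)`, `e ≠ 0`, `Δ ≠ 0`, the
element `t = h/e - 11` is nonzero and satisfies `c₄³ t = Δ (t² + 10t + 5)³`. -/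
theorem t_of_core (c4 Δ e h : F) (he : e ≠ 0) (hΔ : Δ ≠ 0)
    (hc4 : c4 * e = h ^ 2 - 12 * h * e + 16 * e ^ 2) (hD : Δ = e ^ 2 * (h - 11 * e)) :
    h / e - 11 ≠ 0 ∧
      c4 ^ 3 * (h / e - 11) = Δ * ((h / e - 11) ^ 2 + 10 * (h / e - 11) + 5) ^ 3 := by
  have ht : h / e - 11 = (h - 11 * e) / e := by field_simp
  have hne : h - 11 * e ≠ 0 := by
    intro h0
    apply hΔ
    rw [hD, h0, mul_zero]
  have hq : (h / e - 11) ^ 2 + 10 * (h / e - 11) + 5 = c4 / e := by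
    rw [ht]
    have h1 : ((h - 11 * e) / e) ^ 2 + 10 * ((h - 11 * e) / e) + 5
        = (h ^ 2 - 12 * h * e + 16 * e ^ 2) / e ^ 2 := by
      field_simp
      ring
    rw [h1, ← hc4]
    field_simp
  refine ⟨by rw [ht]; exact div_ne_zero hne he, ?_⟩
  rw [hq, ht, hD]
  field_simp

end Core

end Fermat.Agent.S51x.M5B
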