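import Fermat.Agent.S51x.Descent81

/-! The four class-normalising cases (`d = 1, -1, 5, -5`) turning the output of the Selmer
analysis of `Y^2 = X (X-1) (X-81)` into a `Sol81` quadruple of controlled size. -/

namespace Fermat.Agent.S51x

/-- A not necessarily primitive solution can be made primitive without increasing `U`. -/
theorem sol81_primitive {U D V W : ℕ} (hD : 0 < D) (hV : 0 < V) (hW : 0 < W)
    (h1 : U ^ 2 = V ^ 2 + D ^ 2) (h2 : U ^ 2 = W ^ 2 + 81 * D ^ 2) :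
    ∃ U' D' V' W' : ℕ, Sol81 U' D' V' W' ∧ U' ≤ U := by
  have hg : 0 < Nat.gcd U D := Nat.gcd_pos_of_pos_right _ hD
  obtain ⟨U', D', hcop, hU, hD'⟩ := Nat.exists_coprime U D
  set g := Nat.gcd U D with hgdef
  have hgV : g ∣ V := by
    have : g ^ 2 ∣ V ^ 2 := by
      have h3 : g ^ 2 ∣ V ^ 2 + D ^ 2 := by
        rw [← h1, hU]; exact ⟨U' ^ 2, by ring⟩
      have h4 : g ^ 2 ∣ D ^ 2 := by rw [hD']; exact ⟨D' ^ 2, by ring⟩
      exact (Nat.dvd_add_left h4).mp h3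
    exact (Nat.pow_dvd_pow_iff two_ne_zero).mp this
  have hgW : g ∣ W := by
    have : g ^ 2 ∣ W ^ 2 := by
      have h3 : g ^ 2 ∣ W ^ 2 + 81 * D ^ 2 := by
        rw [← h2, hU]; exact ⟨U' ^ 2, by ring⟩
      have h4 : g ^ 2 ∣ 81 * D ^ 2 := by rw [hD']; exact ⟨81 * D' ^ 2, by ring⟩
      exact (Nat.dvd_add_left h4).mp h3
    exact (Nat.pow_dvd_pow_iff two_ne_zero).mp this
  obtain ⟨V', hV'⟩ := hgV
  obtain ⟨W', hW'⟩ := hgW
  have hg2 : 0 < g ^ 2 := by positivity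
  refine ⟨U', D', V', W', ⟨?_, ?_, ?_, hcop, ?_, ?_⟩, ?_⟩
  · rcases Nat.eq_zero_or_pos D' with h | h
    · rw [h, zero_mul] at hD'; omega
    · exact h
  · rcases Nat.eq_zero_or_pos V' with h | h
    · rw [h, mul_zero] at hV'; omega
    · exact h
  · rcases Nat.eq_zero_or_pos W' with h | h
    · rw [h, mul_zero] at hW'; omega
    · exact h
  · apply Nat.eq_of_mul_eq_mul_left hg2
    rw [hU, hV', hD'] at h1
    linarith
  · apply Nat.eq_of_mul_eq_mul_left hg2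
    rw [hU, hW', hD'] at h2
    linarith
  · rw [hU]; exact Nat.le_mul_of_pos_right _ hg

/-- Class `d = 1`. -/
theorem normalize81_pos_one {n m r q s z : ℕ} (hq : 0 < q) (hs : 0 < s) (hz : 0 < z)
    (hn : n = r ^ 2) (hm : m = q ^ 2) (h1 : (n : ℤ) - m = 1 * (s : ℤ) ^ 2)
    (h2 : (n : ℤ) - 81 * m = 1 * (z : ℤ) ^ 2) :
    ∃ U D V W : ℕ, Sol81 U D V W ∧ U ^ 2 ≤ 81 * max n m := by
  have e1 : r ^ 2 = s ^ 2 + q ^ 2 := by
    have : (r : ℤ) ^ 2 = (s : ℤ) ^ 2 + (q : ℤ) ^ 2 := by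
      rw [hn, hm] at h1; push_cast at h1; linarith
    exact_mod_cast this
  have e2 : r ^ 2 = z ^ 2 + 81 * q ^ 2 := by
    have : (r : ℤ) ^ 2 = (z : ℤ) ^ 2 + 81 * (q : ℤ) ^ 2 := by
      rw [hn, hm] at h2; push_cast at h2; linarith
    exact_mod_cast this
  obtain ⟨U, D, V, W, hsol, hle⟩ := sol81_primitive hq hs hz e1 e2
  refine ⟨U, D, V, W, hsol, ?_⟩
  calc U ^ 2 ≤ r ^ 2 := Nat.pow_le_pow_left hle 2
    _ = n := hn.symm
    _ ≤ max n m := le_max_left _ _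
    _ ≤ 81 * max n m := Nat.le_mul_of_pos_left _ (by norm_num)

/-- Class `d = -1`: apply `X ↦ 81 / X`. -/
theorem normalize81_neg_one {n m r q s z : ℕ} (hr : 0 < r) (hs : 0 < s) (hz : 0 < z)
    (hn : n = r ^ 2) (hm : m = q ^ 2) (h1 : (n : ℤ) - m = -1 * (s : ℤ) ^ 2)
    (h2 : (n : ℤ) - 81 * m = -1 * (z : ℤ) ^ 2) :
    ∃ U D V W : ℕ, Sol81 U D V W ∧ U ^ 2 ≤ 81 * max n m := by
  have e1 : (9 * q) ^ 2 = z ^ 2 + r ^ 2 := by
    have : (9 * (q : ℤ)) ^ 2 = (z : ℤ) ^ 2 + (r : ℤ) ^ 2 := by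
      rw [hn, hm] at h2; push_cast at h2; linarith
    exact_mod_cast this
  have e2 : (9 * q) ^ 2 = (9 * s) ^ 2 + 81 * r ^ 2 := by
    have : (9 * (q : ℤ)) ^ 2 = (9 * (s : ℤ)) ^ 2 + 81 * (r : ℤ) ^ 2 := by
      rw [hn, hm] at h1; push_cast at h1; linarith
    exact_mod_cast this
  obtain ⟨U, D, V, W, hsol, hle⟩ := sol81_primitive hr hz (by positivity : 0 < 9 * s) e1 e2
  refine ⟨U, D, V, W, hsol, ?_⟩
  calc U ^ 2 ≤ (9 * q) ^ 2 := Nat.pow_le_pow_left hle 2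
    _ = 81 * m := by rw [hm]; ring
    _ ≤ 81 * max n m := Nat.mul_le_mul_left _ (le_max_right _ _)

/-- Class `d = 5`: apply `X ↦ 81 (X - 1) / (X - 81)`. -/
theorem normalize81_pos_five {n m r q s z : ℕ} (hr : 0 < r) (hq : 0 < q) (hz : 0 < z)
    (hn : n = r ^ 2) (hm : m = q ^ 2) (h1 : (n : ℤ) - m = 5 * (s : ℤ) ^ 2)
    (h2 : (n : ℤ) - 81 * m = 5 * (z : ℤ) ^ 2) :
    ∃ U D V W : ℕ, Sol81 U D V W ∧ U ^ 2 ≤ 81 * max n m := by
  have e1 : (9 * s) ^ 2 = (4 * r) ^ 2 + z ^ 2 := by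
    have : (9 * (s : ℤ)) ^ 2 = (4 * (r : ℤ)) ^ 2 + (z : ℤ) ^ 2 := by
      rw [hn, hm] at h1 h2; push_cast at h1 h2; linarith
    exact_mod_cast this
  have e2 : (9 * s) ^ 2 = (36 * q) ^ 2 + 81 * z ^ 2 := by
    have : (9 * (s : ℤ)) ^ 2 = (36 * (q : ℤ)) ^ 2 + 81 * (z : ℤ) ^ 2 := by
      rw [hn, hm] at h1 h2; push_cast at h1 h2; linarith
    exact_mod_cast this
  obtain ⟨U, D, V, W, hsol, hle⟩ :=
    sol81_primitive hz (by positivity : 0 < 4 * r) (by positivity : 0 < 36 * q) e1 e2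
  refine ⟨U, D, V, W, hsol, ?_⟩
  have hsn : 81 * s ^ 2 ≤ 81 * n := by
    have : 5 * (s : ℤ) ^ 2 ≤ (n : ℤ) := by
      have : (0 : ℤ) ≤ m := Int.natCast_nonneg m
      linarith
    have : 5 * s ^ 2 ≤ n := by exact_mod_cast this
    omega
  calc U ^ 2 ≤ (9 * s) ^ 2 := Nat.pow_le_pow_left hle 2
    _ = 81 * s ^ 2 := by ring
    _ ≤ 81 * n := hsn
    _ ≤ 81 * max n m := Nat.mul_le_mul_left _ (le_max_left _ _)

/-- Class `d = -5`: apply `X ↦ (X - 81) / (X - 1)`. -/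
theorem normalize81_neg_five {n m r q s z : ℕ} (hr : 0 < r) (hq : 0 < q) (hs : 0 < s)
    (hn : n = r ^ 2) (hm : m = q ^ 2) (h1 : (n : ℤ) - m = -5 * (s : ℤ) ^ 2)
    (h2 : (n : ℤ) - 81 * m = -5 * (z : ℤ) ^ 2) :
    ∃ U D V W : ℕ, Sol81 U D V W ∧ U ^ 2 ≤ 81 * max n m := by
  have e1 : z ^ 2 = (4 * q) ^ 2 + s ^ 2 := by
    have : (z : ℤ) ^ 2 = (4 * (q : ℤ)) ^ 2 + (s : ℤ) ^ 2 := by
      rw [hn, hm] at h1 h2; push_cast at h1 h2; linarith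
    exact_mod_cast this
  have e2 : z ^ 2 = (4 * r) ^ 2 + 81 * s ^ 2 := by
    have : (z : ℤ) ^ 2 = (4 * (r : ℤ)) ^ 2 + 81 * (s : ℤ) ^ 2 := by
      rw [hn, hm] at h1 h2; push_cast at h1 h2; linarith
    exact_mod_cast this
  obtain ⟨U, D, V, W, hsol, hle⟩ :=
    sol81_primitive hs (by positivity : 0 < 4 * q) (by positivity : 0 < 4 * r) e1 e2
  refine ⟨U, D, V, W, hsol, ?_⟩
  have hzm : z ^ 2 ≤ 81 * m := by
    have : 5 * (z : ℤ) ^ 2 ≤ 81 * (m : ℤ) := by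
      have : (0 : ℤ) ≤ n := Int.natCast_nonneg n
      linarith
    have : 5 * z ^ 2 ≤ 81 * m := by exact_mod_cast this
    omega
  calc U ^ 2 ≤ z ^ 2 := Nat.pow_le_pow_left hle 2
    _ ≤ 81 * m := hzm
    _ ≤ 81 * max n m := Nat.mul_le_mul_left _ (le_max_right _ _)

/-- The output shape of the Selmer analysis. -/
def Selmer81Hyp : Prop :=
  ∀ n m : ℕ, 0 < n → 0 < m → Nat.Coprime n m →
    (∃ Y : ℚ, Y ≠ 0 ∧ Y ^ 2 = ((n : ℚ) / m) * ((n : ℚ) / m - 1) * ((n : ℚ) / m - 81)) →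
    ∃ r q s z : ℕ, 0 < r ∧ 0 < q ∧ 0 < s ∧ 0 < z ∧ ∃ d : ℤ,
      (d = 1 ∨ d = -1 ∨ d = 5 ∨ d = -5) ∧ n = r ^ 2 ∧ m = q ^ 2 ∧
        (n : ℤ) - m = d * (s : ℤ) ^ 2 ∧ (n : ℤ) - 81 * m = d * (z : ℤ) ^ 2

theorem normalizeHyp_of_selmer81Hyp (H : Selmer81Hyp) : NormalizeHyp := by
  intro n m hn hm hcop hY
  obtain ⟨r, q, s, z, hr, hq, hs, hz, d, hd, hnr, hmq, h1, h2⟩ := H n m hn hm hcop hY
  rcases hd with rfl | rfl | rfl | rfl
  · exact normalize81_pos_one hq hs hz hnr hmq h1 h2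
  · exact normalize81_neg_one hr hs hz hnr hmq h1 h2
  · exact normalize81_pos_five hr hq hz hnr hmq h1 h2
  · exact normalize81_neg_five hr hq hs hnr hmq h1 h2

end Fermat.Agent.S51x
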