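import Fermat.Agent.S51x.Descent81

/-! Transfer along the 2-isogeny from `y^2 = x (x+9) (x-16)` to `Y^2 = X (X-1) (X-81)`:
if the latter has only points with `Y = 0`, the former has only the eight torsion points. -/

namespace Fermat.Agent.S51x

theorem rank15a_of_E3 (H3 : ∀ X Y : ℚ, Y ^ 2 = X * (X - 1) * (X - 81) → Y = 0) :
    ∀ x y : ℚ, y ^ 2 = x * (x + 9) * (x - 16) →
      x = 0 ∨ x = -9 ∨ x = 16 ∨ x = 36 ∨ x = -4 := by
  intro x y h
  by_cases hx : x = 16
  · right; right; left; exact hx
  obtain ⟨z, hz⟩ : ∃ z : ℚ, z = x - 16 := ⟨_, rfl⟩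
  have hz0 : z ≠ 0 := by rw [hz]; exact sub_ne_zero.mpr hx
  have hxz : x = z + 16 := by rw [hz]; ring
  have h' : y ^ 2 = z * (z ^ 2 + 41 * z + 400) := by rw [h, hxz]; ring
  have key := H3 ((z ^ 2 + 41 * z + 400) / z) (y * (z ^ 2 - 400) / z ^ 2) (by
    rw [div_pow, mul_pow, h']
    field_simp
    ring)
  have hy0 : y * (z ^ 2 - 400) = 0 := by
    rcases div_eq_zero_iff.mp key with h0 | h0
    · exact h0
    · exact absurd h0 (pow_ne_zero 2 hz0)
  rcases mul_eq_zero.mp hy0 with hy | hz2
  · rw [hy] at h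
    have h0 : x * (x + 9) * (x - 16) = 0 := by rw [← h]; ring
    rcases mul_eq_zero.mp h0 with h1 | h1
    · rcases mul_eq_zero.mp h1 with h2 | h2
      · left; exact h2
      · right; left; linarith
    · right; right; left; linarith
  · have : (z - 20) * (z + 20) = 0 := by linear_combination hz2
    rcases mul_eq_zero.mp this with h1 | h1
    · right; right; right; left; rw [hxz]; linarith
    · right; right; right; right; rw [hxz]; linarith

/-- All rational points of `y^2 = x (x+9) (x-16)`, given the normalisation hypothesis. -/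
theorem rank15a_of_normalizeHyp (H : NormalizeHyp) (x y : ℚ)
    (h : y ^ 2 = x * (x + 9) * (x - 16)) :
    x = 0 ∨ x = -9 ∨ x = 16 ∨ x = 36 ∨ x = -4 :=
  rank15a_of_E3 (fun _ _ hXY => E3_points H hXY) x y h

end Fermat.Agent.S51x
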