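import Fermat.Agent.S51x.Rank15a
import Fermat.Agent.S51x.Normalize81

/-! Route B, input (I3) of the S51 assembly: all rational points of `y² = x (x + 9) (x - 16)`
(the curve 15a1 ≅ X₀(15)).  Combines `Normalize81.normalize81` (complete 2-descent + Moebius
normalisation), `Descent81` (halving descent) and `Rank15a` (transfer along the 2-isogeny). -/

namespace Fermat.Agent.S51x

/-- The normalisation hypothesis of `Descent81` holds. -/
theorem normalizeHyp : NormalizeHyp :=
  fun n m hn hm hnm h => Normalize81.normalize81 n m hn hm hnm h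

/-- `Y² = X (X - 1) (X - 81)` has no rational points with `Y ≠ 0`. -/
theorem E3_points_final {X Y : ℚ} (h : Y ^ 2 = X * (X - 1) * (X - 81)) : Y = 0 :=
  E3_points normalizeHyp h

/-- The curve `y² = x (x + 9) (x - 16)` has exactly the eight rational torsion points. -/
theorem rational_points_15a (x y : ℚ) (h : y ^ 2 = x * (x + 9) * (x - 16)) :
    x = 0 ∨ x = -9 ∨ x = 16 ∨ x = 36 ∨ x = -4 :=
  rank15a_of_normalizeHyp normalizeHyp x y h

end Fermat.Agent.S51x
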