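import Fermat.Agent.S51x.Basic
import Fermat.Agent.S51x.H52.Tors3

/-!
# S51 project, module M30 (first half): reducible mod `3` representation gives a rational root of
the `3`-division polynomial (helper98).

Main results:
* `h98_exists_rat_root_Ψ₃ (E : WeierstrassCurve ℚ) (hΔ : E.Δ ≠ 0)
    (h : ¬ GaloisRepIsIrreducible (K := Qbar) ℚ E 3) : ∃ q : ℚ, E.Ψ₃.eval q = 0`
* `h98_exists_rat_root_Ψ₃_of_not_modRepIsIrreducible (W : WeierstrassCurve ℤ) (hΔ : W.Δ ≠ 0)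
    (h : ¬ W.ModRepIsIrreducible 3) : ∃ q : ℚ, (W.map (Int.castRingHom ℚ)).Ψ₃.eval q = 0`
-/

set_option autoImplicit false
open WeierstrassCurve WeierstrassCurve.Affine WeierstrassCurve.Affine.Point

namespace Fermat.Agent.S51x

noncomputable section

variable (E : WeierstrassCurve ℚ)

/-- The `3`-torsion module of the base change is finite with at most `9` elements. -/
theorem h98_three_torsion_finite_card :
    Finite (Submodule.torsionBy ℤ (E⁄Qbar).Point (3 : ℕ)) ∧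
      Nat.card (Submodule.torsionBy ℤ (E⁄Qbar).Point (3 : ℕ)) ≤ 9 := by
  obtain ⟨hfin, hcard⟩ := H52.three_torsion_finite_card_le (E := (E⁄Qbar))
  have hset : ((Submodule.torsionBy ℤ (E⁄Qbar).Point (3 : ℕ) : Submodule ℤ (E⁄Qbar).Point) :
      Set (E⁄Qbar).Point) = {P : (E⁄Qbar).Point | (3 : ℤ) • P = 0} := by
    ext P
    simp
  constructor
  · have : Finite ↥((Submodule.torsionBy ℤ (E⁄Qbar).Point (3 : ℕ) : Submodule ℤ (E⁄Qbar).Point) :
      Set (E⁄Qbar).Point) := by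
      rw [hset]; exact Set.finite_coe_iff.mpr hfin
    exact this
  · have h1 : Nat.card ↥((Submodule.torsionBy ℤ (E⁄Qbar).Point (3 : ℕ) :
        Submodule ℤ (E⁄Qbar).Point) : Set (E⁄Qbar).Point) ≤ 9 := by
      rw [Nat.card_coe_set_eq, hset]; exact hcard
    exact h1

/-- Nontriviality of the `3`-torsion. -/
theorem h98_three_torsion_nontrivial (hΔ : E.Δ ≠ 0) :
    Nontrivial (Submodule.torsionBy ℤ (E⁄Qbar).Point (3 : ℕ)) := by
  have hΔK : (E⁄Qbar).Δ ≠ 0 := by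
    show (E.map (algebraMap ℚ Qbar)).Δ ≠ 0
    rw [WeierstrassCurve.map_Δ]
    exact (map_ne_zero_iff _ (algebraMap ℚ Qbar).injective).mpr hΔ
  obtain ⟨x, y, h, h3⟩ := H52.exists_three_torsion (E := (E⁄Qbar)) hΔK
  have hmem : Point.some x y h ∈ Submodule.torsionBy ℤ (E⁄Qbar).Point (3 : ℕ) := by
    rw [Submodule.mem_torsionBy_iff]
    simpa using h3
  refine ⟨⟨⟨_, hmem⟩, 0, ?_⟩⟩
  intro h0
  have := congrArg Subtype.val h0
  exact Point.some_ne_zero h this


instance h98_fact_three : Fact (Nat.Prime 3) := ⟨by norm_num⟩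

/-- A proper nonzero submodule of the `3`-torsion is a line. -/
theorem h98_line_of_proper
    (N : Submodule (ZMod 3) (Submodule.torsionBy ℤ (E⁄Qbar).Point (3 : ℕ)))
    (hbot : N ≠ ⊥) (htop : N ≠ ⊤) :
    ∃ v : Submodule.torsionBy ℤ (E⁄Qbar).Point (3 : ℕ), v ∈ N ∧ v ≠ 0 ∧
      ∀ w ∈ N, ∃ c : ZMod 3, c • v = w := by
  obtain ⟨hfin, hcard⟩ := h98_three_torsion_finite_card E
  have hmf : Module.Finite (ZMod 3) (Submodule.torsionBy ℤ (E⁄Qbar).Point (3 : ℕ)) :=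
    Module.Finite.of_finite
  have hpow := Module.natCard_eq_pow_finrank (K := ZMod 3)
    (V := Submodule.torsionBy ℤ (E⁄Qbar).Point (3 : ℕ))
  have hc3 : Nat.card (ZMod 3) = 3 := by simp
  rw [hc3] at hpow
  have hd : Module.finrank (ZMod 3) (Submodule.torsionBy ℤ (E⁄Qbar).Point (3 : ℕ)) ≤ 2 := by
    by_contra hlt
    have hlt : 3 ≤ Module.finrank (ZMod 3) (Submodule.torsionBy ℤ (E⁄Qbar).Point (3 : ℕ)) := by
      omega
    have : 3 ^ 3 ≤ 3 ^ Module.finrank (ZMod 3) (Submodule.torsionBy ℤ (E⁄Qbar).Point (3 : ℕ)) :=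
      Nat.pow_le_pow_right (by norm_num) hlt
    omega
  have h1 : Module.finrank (ZMod 3) N < Module.finrank (ZMod 3)
      (Submodule.torsionBy ℤ (E⁄Qbar).Point (3 : ℕ)) := Submodule.finrank_lt htop
  have h2 : 1 ≤ Module.finrank (ZMod 3) N := Submodule.one_le_finrank_iff.mpr hbot
  have h3 : Module.finrank (ZMod 3) N = 1 := by omega
  obtain ⟨v, hv0, hv⟩ := finrank_eq_one_iff'.mp h3
  refine ⟨v.1, v.2, ?_, ?_⟩
  · intro h0
    exact hv0 (Subtype.ext h0)
  · intro w hw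
    obtain ⟨c, hc⟩ := hv ⟨w, hw⟩
    exact ⟨c, congrArg Subtype.val hc⟩


/-- In a stable line of the `3`-torsion generated by `v = (x, y)`, the coordinate `x` is fixed by
every automorphism. -/
theorem h98_x_fixed
    (N : Submodule (ZMod 3) (Submodule.torsionBy ℤ (E⁄Qbar).Point (3 : ℕ)))
    (hst : IsGaloisStable ℚ N)
    (v : Submodule.torsionBy ℤ (E⁄Qbar).Point (3 : ℕ)) (hvN : v ∈ N)
    (hline : ∀ w ∈ N, ∃ c : ZMod 3, c • v = w)
    {x y : Qbar} (h : (E⁄Qbar).Nonsingular x y) (hv : (v : (E⁄Qbar).Point) = Point.some x y h)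
    (σ : Qbar ≃ₐ[ℚ] Qbar) : σ x = x := by
  obtain ⟨c, hc⟩ := hline (σ • v) (hst σ v hvN)
  have hσ : ((σ • v : Submodule.torsionBy ℤ (E⁄Qbar).Point (3 : ℕ)) : (E⁄Qbar).Point) =
      Point.map (W' := E) σ.toAlgHom (Point.some x y h) := by
    show σ • (v : (E⁄Qbar).Point) = _
    rw [hv]
    rfl
  rw [Point.map_some] at hσ
  have h3v : (v : (E⁄Qbar).Point) + v + v = 0 := by
    have h3 : ((3 : ℕ) : ℤ) • (v : (E⁄Qbar).Point) = 0 :=
      (Submodule.mem_torsionBy_iff _ _).mp v.2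
    have h3' : (3 : ℤ) • (v : (E⁄Qbar).Point) = 0 := by
      generalize (v : (E⁄Qbar).Point) = P at h3
      simpa using h3
    rw [← h3']; abel
  have hc3 : ∀ d : ZMod 3, d = 0 ∨ d = 1 ∨ d = 2 := by decide
  have hc3 := hc3 c
  have hcv := congrArg Subtype.val hc
  rw [hσ] at hcv
  rcases hc3 with rfl | rfl | rfl
  · rw [zero_smul] at hcv
    exact absurd hcv.symm (Point.some_ne_zero _)
  · rw [one_smul, hv, Point.some.injEq] at hcv
    exact hcv.1.symm
  · rw [two_smul] at hcv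
    have h2 : (v : (E⁄Qbar).Point) + v = -v := eq_neg_of_add_eq_zero_left h3v
    have h4 : ((v + v : Submodule.torsionBy ℤ (E⁄Qbar).Point (3 : ℕ)) : (E⁄Qbar).Point) =
        (v : (E⁄Qbar).Point) + v := rfl
    rw [h4, h2, hv, Point.neg_some, Point.some.injEq] at hcv
    exact hcv.1.symm

/-- If the mod `3` representation of `E` is reducible, the `3`-division polynomial of `E` has a
rational root. -/
theorem h98_exists_rat_root_Ψ₃ (E : WeierstrassCurve ℚ) (hΔ : E.Δ ≠ 0)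
    (h : ¬ GaloisRepIsIrreducible (K := Qbar) ℚ E 3) : ∃ q : ℚ, E.Ψ₃.eval q = 0 := by
  have hnt := h98_three_torsion_nontrivial E hΔ
  have h' : ¬ ∀ N : Submodule (ZMod 3) (Submodule.torsionBy ℤ (E⁄Qbar).Point (3 : ℕ)),
      IsGaloisStable ℚ N → N = ⊥ ∨ N = ⊤ := fun hall => h ⟨hnt, hall⟩
  push Not at h'
  obtain ⟨N, hst, hbot, htop⟩ := h'
  obtain ⟨v, hvN, hv0, hline⟩ := h98_line_of_proper E N hbot htop
  have hvP : (v : (E⁄Qbar).Point) ≠ 0 := fun h0 => hv0 (Subtype.ext h0)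
  rcases hP : (v : (E⁄Qbar).Point) with _ | ⟨x, y, hxy⟩
  · exact absurd hP hvP
  · have hfix : ∀ σ : Qbar ≃ₐ[ℚ] Qbar, σ x = x := fun σ =>
      h98_x_fixed E N hst v hvN hline hxy hP σ
    obtain ⟨q, hq⟩ := exists_rat_of_fixed x hfix
    refine ⟨q, ?_⟩
    have h3 : ((3 : ℕ) : ℤ) • (v : (E⁄Qbar).Point) = 0 :=
      (Submodule.mem_torsionBy_iff _ _).mp v.2
    rw [hP] at h3
    have h3' : (3 : ℤ) • (Point.some x y hxy : (E⁄Qbar).Point) = 0 := by simpa using h3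
    have hpsi := (H52.three_zsmul_eq_zero_iff hxy).mp h3'
    rw [H52.psi3_eq_eval] at hpsi
    have hmap : (E⁄Qbar).Ψ₃ = E.Ψ₃.map (algebraMap ℚ Qbar) := WeierstrassCurve.map_Ψ₃ E _
    rw [hmap, ← hq, Polynomial.eval_map_apply] at hpsi
    exact (map_eq_zero_iff _ (algebraMap ℚ Qbar).injective).mp hpsi

/-- The same statement for an integral model, in the form of the frozen definition. -/
theorem h98_exists_rat_root_Ψ₃_of_not_modRepIsIrreducible (W : WeierstrassCurve ℤ) (hΔ : W.Δ ≠ 0)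
    (h : ¬ W.ModRepIsIrreducible 3) : ∃ q : ℚ, (W.map (Int.castRingHom ℚ)).Ψ₃.eval q = 0 := by
  have hΔ' : (W.map (Int.castRingHom ℚ)).Δ ≠ 0 := by
    rw [WeierstrassCurve.map_Δ]
    simpa using hΔ
  exact h98_exists_rat_root_Ψ₃ _ hΔ' h

end

end Fermat.Agent.S51x
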