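import Fermat.Agent.S51x.RatRoot3
import Fermat.Agent.S51x.Mod3

/-!
# S51 project, module M30_RED3 (helper98): reducible mod `3` representation gives a rational
point on `X₀(3)`, i.e. a rational `τ ≠ 0` with `j τ = (τ + 27)(τ + 3)³`.
-/

set_option autoImplicit false
open WeierstrassCurve WeierstrassCurve.Affine WeierstrassCurve.Affine.Point

namespace Fermat.Agent.S51x

theorem exists_tau_of_reducible_three (E : WeierstrassCurve ℚ) [E.IsElliptic] (hj0 : E.j ≠ 0)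
    (_hj : E.j ≠ 1728) (h : ¬ GaloisRepIsIrreducible (K := Qbar) ℚ E 3) :
    ∃ τ : ℚ, τ ≠ 0 ∧ E.j * τ = (τ + 27) * (τ + 3) ^ 3 := by
  have hΔ : E.Δ ≠ 0 := by
    rw [← E.coe_Δ']
    exact E.Δ'.ne_zero
  obtain ⟨q, hq⟩ := h98_exists_rat_root_Ψ₃ E hΔ h
  exact tau_of_Ψ₃_root E hj0 q hq

end Fermat.Agent.S51x
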