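import Mathlib

set_option autoImplicit false

namespace Fermat.Agent.S51x

/-- If `p ^ e * c` is a perfect square and the prime `p` does not divide `c`,
then `e` is even and `c` is a perfect square. -/
theorem sel_prime_pow_mul_sq {p : ℤ} (hp : Prime p) :
    ∀ (e : ℕ) (c k : ℤ), ¬ p ∣ c → p ^ e * c = k ^ 2 → Even e ∧ ∃ k1 : ℤ, c = k1 ^ 2
  | 0, c, k, _, h => ⟨Even.zero, k, by simpa using h⟩
  | 1, c, k, hc, h => by
    exfalso
    have hpk : p ∣ k := by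
      have : p ∣ k ^ 2 := ⟨c, by rw [← h]; ring⟩
      exact hp.dvd_of_dvd_pow this
    obtain ⟨k', rfl⟩ := hpk
    apply hc
    refine ⟨k' ^ 2, ?_⟩
    have hp0 : p ≠ 0 := hp.ne_zero
    have : p * c = p * (p * k' ^ 2) := by rw [pow_one] at h; rw [h]; ring
    exact mul_left_cancel₀ hp0 this
  | e + 2, c, k, hc, h => by
    have hpk : p ∣ k := by
      have : p ∣ k ^ 2 := ⟨p ^ (e + 1) * c, by rw [← h]; ring⟩
      exact hp.dvd_of_dvd_pow this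
    obtain ⟨k', rfl⟩ := hpk
    have hp0 : p ≠ 0 := hp.ne_zero
    have h' : p ^ e * c = k' ^ 2 := by
      have : p ^ 2 * (p ^ e * c) = p ^ 2 * k' ^ 2 := by rw [← mul_assoc, ← pow_add, add_comm, h]; ring
      exact mul_left_cancel₀ (pow_ne_zero 2 hp0) this
    obtain ⟨he, hk1⟩ := sel_prime_pow_mul_sq hp e c k' hc h'
    exact ⟨by simpa [Nat.even_add] using he, hk1⟩

theorem sel_zmod3_aux : ∀ a b k : ZMod 3, a ≠ 0 → b ≠ 0 → k ^ 2 = -(a * b) ^ 2 → False := by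
  decide

theorem sel_zmod8_one : ∀ c k : ZMod 8, c ^ 2 = 1 → k ^ 2 = (2 * c + 1) * c * c → False := by
  decide

theorem sel_zmod8_three : ∀ c k : ZMod 8, c ^ 2 = 1 → k ^ 2 = c * (c - 2) → False := by
  decide

/-- Odd integers have square `1` modulo `8`. -/
theorem sel_odd_sq_zmod8 (c : ℤ) (hc : ¬ (2 : ℤ) ∣ c) : ((c : ZMod 8)) ^ 2 = 1 := by
  have h8 : (c : ZMod 8) = ((c % 8 : ℤ) : ZMod 8) := by
    have := ZMod.intCast_mod c 8
    push_cast at this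
    exact this.symm
  have : c % 8 = 1 ∨ c % 8 = 3 ∨ c % 8 = 5 ∨ c % 8 = 7 := by omega
  rcases this with h | h | h | h <;> rw [h8, h] <;> decide

theorem sel_not_dvd_zmod3 (c : ℤ) (hc : ¬ (3 : ℤ) ∣ c) : (c : ZMod 3) ≠ 0 := by
  intro h
  apply hc
  exact (ZMod.intCast_zmod_eq_zero_iff_dvd c 3).mp h

/-! ### The `3`-adic part -/

theorem sel_three_small (n' m q0 k : ℤ) (e t : ℕ) (he : 1 ≤ e) (ht : 1 ≤ t)
    (h3n' : ¬ (3 : ℤ) ∣ n') (h3q : ¬ (3 : ℤ) ∣ q0) (hmq : m = q0 ^ 2)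
    (hK : (3 ^ e * n') * (3 ^ e * n' - m) * (3 ^ e * n' - 3 ^ (e + t) * m) = k ^ 2) : False := by
  have key : (3 : ℤ) ^ (2 * e) * (n' * (3 ^ e * n' - m) * (n' - 3 ^ t * m)) = k ^ 2 := by
    rw [← hK]; ring
  set c : ℤ := n' * (3 ^ e * n' - m) * (n' - 3 ^ t * m) with hc
  have h30 : (3 : ZMod 3) = 0 := by decide
  have hc3 : (c : ZMod 3) = -((n' : ZMod 3) * (q0 : ZMod 3)) ^ 2 := by
    rw [hc, hmq]
    push_cast
    rw [h30, zero_pow (by omega), zero_pow (by omega)]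
    ring
  have ha := sel_not_dvd_zmod3 n' h3n'
  have hb := sel_not_dvd_zmod3 q0 h3q
  have hcne : ¬ (3 : ℤ) ∣ c := by
    intro hd
    have h0 := (ZMod.intCast_zmod_eq_zero_iff_dvd c 3).mpr hd
    rw [hc3, neg_eq_zero, sq_eq_zero_iff, mul_eq_zero] at h0
    rcases h0 with h0 | h0
    · exact ha h0
    · exact hb h0
  obtain ⟨-, k1, hk1⟩ := sel_prime_pow_mul_sq Int.prime_three (2 * e) c k hcne key
  have h2 := congrArg (Int.cast : ℤ → ZMod 3) hk1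
  rw [hc3] at h2
  push_cast at h2
  exact sel_zmod3_aux _ _ _ ha hb h2.symm

theorem sel_three_large (n' m q0 k : ℤ) (u : ℕ) (hu : 1 ≤ u)
    (h3n' : ¬ (3 : ℤ) ∣ n') (h3q : ¬ (3 : ℤ) ∣ q0) (hmq : m = q0 ^ 2)
    (hK : (3 ^ (u + 4) * n') * (3 ^ (u + 4) * n' - m) * (3 ^ (u + 4) * n' - 81 * m) = k ^ 2) :
    Even u := by
  have key : (3 : ℤ) ^ (u + 8) * (n' * (3 ^ (u + 4) * n' - m) * (3 ^ u * n' - m)) = k ^ 2 := by
    rw [← hK]; ring
  set c : ℤ := n' * (3 ^ (u + 4) * n' - m) * (3 ^ u * n' - m) with hc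
  have h30 : (3 : ZMod 3) = 0 := by decide
  have hc3 : (c : ZMod 3) = (n' : ZMod 3) * ((q0 : ZMod 3) ^ 2) ^ 2 := by
    rw [hc, hmq]
    push_cast
    rw [h30, zero_pow (by omega), zero_pow (by omega)]
    ring
  have ha := sel_not_dvd_zmod3 n' h3n'
  have hb := sel_not_dvd_zmod3 q0 h3q
  have hcne : ¬ (3 : ℤ) ∣ c := by
    intro hd
    have h0 := (ZMod.intCast_zmod_eq_zero_iff_dvd c 3).mpr hd
    rw [hc3, mul_eq_zero, sq_eq_zero_iff, sq_eq_zero_iff] at h0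
    rcases h0 with h0 | h0
    · exact ha h0
    · exact hb h0
  obtain ⟨hev, -⟩ := sel_prime_pow_mul_sq Int.prime_three (u + 8) c k hcne key
  have : Even 8 := by decide
  exact (Nat.even_add.mp hev).mpr this

/-- The exponent of `3` in `n` is even. -/
theorem sel_three_even (n' m q0 k : ℤ) (e : ℕ)
    (h3n' : ¬ (3 : ℤ) ∣ n') (h3q : 1 ≤ e → ¬ (3 : ℤ) ∣ q0) (hmq : m = q0 ^ 2)
    (hK : (3 ^ e * n') * (3 ^ e * n' - m) * (3 ^ e * n' - 81 * m) = k ^ 2) : Even e := by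
  rcases e with _ | _ | _ | _ | _ | u
  · exact Even.zero
  · exact (sel_three_small n' m q0 k 1 3 le_rfl (by norm_num) h3n' (h3q (by norm_num)) hmq
      (by norm_num at hK ⊢; exact hK)).elim
  · exact ⟨1, rfl⟩
  · exact (sel_three_small n' m q0 k 3 1 (by norm_num) le_rfl h3n' (h3q (by norm_num)) hmq
      (by norm_num at hK ⊢; exact hK)).elim
  · exact ⟨2, rfl⟩
  · have := sel_three_large n' m q0 k (u + 1) (by omega) h3n' (h3q (by omega)) hmq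
      (by rw [show u + 1 + 4 = u + 1 + 1 + 1 + 1 + 1 by ring]; exact hK)
    have h4 : Even 4 := by decide
    rw [show u + 1 + 1 + 1 + 1 + 1 = (u + 1) + 4 by ring]
    exact Nat.even_add.mpr ⟨fun _ => h4, fun _ => this⟩

/-! ### The `2`-adic part -/

theorem sel_two_dvd_mul3 {a b c : ℤ} (h : (2 : ℤ) ∣ a * b * c) :
    (2 : ℤ) ∣ a ∨ (2 : ℤ) ∣ b ∨ (2 : ℤ) ∣ c := by
  rcases Int.prime_two.dvd_mul.mp h with h | h
  · rcases Int.prime_two.dvd_mul.mp h with h | h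
    · exact Or.inl h
    · exact Or.inr (Or.inl h)
  · exact Or.inr (Or.inr h)

/-- The exponent of `2` in `n - m` is even. -/
theorem sel_two_even (c m q0 k : ℤ) (i : ℕ) (hc : ¬ (2 : ℤ) ∣ c) (hmq : m = q0 ^ 2)
    (hq : 1 ≤ i → ¬ (2 : ℤ) ∣ q0)
    (hK : (2 ^ i * c + m) * (2 ^ i * c) * (2 ^ i * c - 80 * m) = k ^ 2) : Even i := by
  rcases i with _ | _ | _ | _ | _ | u
  · exact Even.zero
  · -- i = 1
    exfalso
    have hq0 := hq (by norm_num)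
    have hm2 : ¬ (2 : ℤ) ∣ m := by
      rw [hmq]; intro h; exact hq0 (Int.prime_two.dvd_of_dvd_pow h)
    have key : (2 : ℤ) ^ 2 * ((2 * c + m) * c * (c - 40 * m)) = k ^ 2 := by
      rw [← hK]; ring
    have hodd : ¬ (2 : ℤ) ∣ (2 * c + m) * c * (c - 40 * m) := by
      intro h
      rcases sel_two_dvd_mul3 h with h | h | h <;> omega
    obtain ⟨-, k1, hk1⟩ := sel_prime_pow_mul_sq Int.prime_two 2 _ k hodd key
    have h2 := congrArg (Int.cast : ℤ → ZMod 8) hk1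
    push_cast at h2
    have hm8 : (m : ZMod 8) = 1 := by rw [hmq]; push_cast; exact sel_odd_sq_zmod8 q0 hq0
    have h40 : (40 : ZMod 8) = 0 := by decide
    rw [hm8, h40] at h2
    exact sel_zmod8_one (c : ZMod 8) (k1 : ZMod 8) (sel_odd_sq_zmod8 c hc) (by rw [← h2]; ring)
  · exact ⟨1, rfl⟩
  · -- i = 3
    exfalso
    have hq0 := hq (by norm_num)
    have hm2 : ¬ (2 : ℤ) ∣ m := by
      rw [hmq]; intro h; exact hq0 (Int.prime_two.dvd_of_dvd_pow h)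
    have key : (2 : ℤ) ^ 6 * ((8 * c + m) * c * (c - 10 * m)) = k ^ 2 := by
      rw [← hK]; ring
    have hodd : ¬ (2 : ℤ) ∣ (8 * c + m) * c * (c - 10 * m) := by
      intro h
      rcases sel_two_dvd_mul3 h with h | h | h <;> omega
    obtain ⟨-, k1, hk1⟩ := sel_prime_pow_mul_sq Int.prime_two 6 _ k hodd key
    have h2 := congrArg (Int.cast : ℤ → ZMod 8) hk1
    push_cast at h2
    have hm8 : (m : ZMod 8) = 1 := by rw [hmq]; push_cast; exact sel_odd_sq_zmod8 q0 hq0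
    have h8 : (8 : ZMod 8) = 0 := by decide
    have h10 : (10 : ZMod 8) = 2 := by decide
    rw [hm8, h8, h10] at h2
    exact sel_zmod8_three (c : ZMod 8) (k1 : ZMod 8) (sel_odd_sq_zmod8 c hc) (by rw [← h2]; ring)
  · exact ⟨2, rfl⟩
  · -- i = u + 5
    have hq0 := hq (by omega)
    have hm2 : ¬ (2 : ℤ) ∣ m := by
      rw [hmq]; intro h; exact hq0 (Int.prime_two.dvd_of_dvd_pow h)
    have key : (2 : ℤ) ^ (u + 9) *
        ((2 * (2 ^ (u + 4) * c) + m) * c * (2 * (2 ^ u * c) - 5 * m)) = k ^ 2 := by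
      rw [← hK]; ring
    have hodd : ¬ (2 : ℤ) ∣ (2 * (2 ^ (u + 4) * c) + m) * c * (2 * (2 ^ u * c) - 5 * m) := by
      intro h
      rcases sel_two_dvd_mul3 h with h | h | h <;> omega
    obtain ⟨hev, -⟩ := sel_prime_pow_mul_sq Int.prime_two (u + 9) _ k hodd key
    rcases hev with ⟨w, hw⟩
    exact ⟨w - 2, by omega⟩

/-! ### Global assembly -/

theorem sel_coprime_prime_pow {p a : ℤ} (hp : Prime p) (h : ¬ p ∣ a) (e : ℕ) :
    IsCoprime a (p ^ e) :=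
  ((hp.coprime_iff_not_dvd).mpr h).symm.pow_right

theorem sel_m_square (n m Z : ℤ) (hm : 0 < m) (hcop : IsCoprime n m)
    (hZ : n * m * (n - m) * (n - 81 * m) = Z ^ 2) (hZ0 : Z ≠ 0) :
    ∃ q0 k : ℤ, q0 ≠ 0 ∧ k ≠ 0 ∧ m = q0 ^ 2 ∧ n * (n - m) * (n - 81 * m) = k ^ 2 := by
  obtain ⟨a, b, hab⟩ := hcop
  have h1 : IsCoprime m n := ⟨b, a, by linear_combination hab⟩
  have h2 : IsCoprime m (n - m) := ⟨a + b, a, by linear_combination hab⟩
  have h3 : IsCoprime m (n - 81 * m) := ⟨b + 81 * a, a, by linear_combination hab⟩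
  have h4 : IsCoprime m (n * (n - m) * (n - 81 * m)) := (h1.mul_right h2).mul_right h3
  have hZ' : m * (n * (n - m) * (n - 81 * m)) = Z ^ 2 := by rw [← hZ]; ring
  obtain ⟨q0, hq | hq⟩ := Int.sq_of_isCoprime h4 hZ'
  · have hq0 : q0 ≠ 0 := by
      rintro rfl
      simp at hq
      omega
    have hdvd : q0 ∣ Z := by
      rw [← Int.pow_dvd_pow_iff (n := 2) (by norm_num), ← hZ', hq]
      exact dvd_mul_right _ _
    obtain ⟨k, rfl⟩ := hdvd
    refine ⟨q0, k, hq0, ?_, hq, ?_⟩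
    · rintro rfl
      simp at hZ0
    · have : q0 ^ 2 * (n * (n - m) * (n - 81 * m)) = q0 ^ 2 * k ^ 2 := by
        linear_combination hZ' - (n * (n - m) * (n - 81 * m)) * hq
      exact mul_left_cancel₀ (pow_ne_zero 2 hq0) this
  · exfalso
    nlinarith [sq_nonneg q0]

theorem sel_n_square (n m q0 k : ℤ) (hn : 0 < n) (hcop : IsCoprime n m) (hmq : m = q0 ^ 2)
    (hK : n * (n - m) * (n - 81 * m) = k ^ 2) : ∃ r : ℤ, n = r ^ 2 := by
  obtain ⟨e, n', h3n', hne⟩ := WfDvdMonoid.max_power_factor hn.ne' Int.prime_three.irreducible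
  have h3pos : (0 : ℤ) < 3 ^ e := by positivity
  have hn'pos : 0 < n' := by
    rw [hne] at hn
    exact (mul_pos_iff_of_pos_left h3pos).mp hn
  have hcop' : IsCoprime n' m := by
    rw [hne] at hcop
    exact hcop.of_mul_left_right
  have hc3 : IsCoprime n' ((3 : ℤ) ^ e) := sel_coprime_prime_pow Int.prime_three h3n' e
  have hc81 : IsCoprime n' (81 : ℤ) := by
    have := sel_coprime_prime_pow Int.prime_three h3n' 4
    norm_num at this ⊢
    exact this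
  have hA2 : IsCoprime n' (n - m) := by
    obtain ⟨a, b, hab⟩ := hcop'
    exact ⟨a + b * 3 ^ e, -b, by rw [hne]; linear_combination hab⟩
  have hA3 : IsCoprime n' (n - 81 * m) := by
    obtain ⟨a, b, hab⟩ := hcop'.mul_right hc81
    exact ⟨a + b * 3 ^ e, -b, by rw [hne]; linear_combination hab⟩
  have hco : IsCoprime n' (3 ^ e * (n - m) * (n - 81 * m)) := (hc3.mul_right hA2).mul_right hA3
  have hK' : n' * (3 ^ e * (n - m) * (n - 81 * m)) = k ^ 2 := by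
    linear_combination hK - (n - m) * (n - 81 * m) * hne
  obtain ⟨r0, hr | hr⟩ := Int.sq_of_isCoprime hco hK'
  swap
  · exfalso
    nlinarith [sq_nonneg r0]
  have h3q : 1 ≤ e → ¬ (3 : ℤ) ∣ q0 := by
    intro he h3
    have h3m : (3 : ℤ) ∣ m := by
      rw [hmq]
      exact dvd_pow h3 (by norm_num)
    have h3n : (3 : ℤ) ∣ n := by
      rw [hne]
      exact dvd_mul_of_dvd_left (dvd_pow_self 3 (by omega)) _
    have := hcop.isUnit_of_dvd' h3n h3m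
    rw [Int.isUnit_iff] at this
    omega
  have hK3 : (3 ^ e * n') * (3 ^ e * n' - m) * (3 ^ e * n' - 81 * m) = k ^ 2 := by
    rw [← hne]
    exact hK
  obtain ⟨f, hf⟩ := sel_three_even n' m q0 k e h3n' h3q hmq hK3
  refine ⟨3 ^ f * r0, ?_⟩
  rw [hne, hr, hf]
  ring

theorem sel_A2_class (n m q0 k : ℤ) (hcop : IsCoprime n m) (hmq : m = q0 ^ 2) (hk : k ≠ 0)
    (hK : n * (n - m) * (n - 81 * m) = k ^ 2) :
    ∃ (d s : ℤ), (d = 1 ∨ d = -1 ∨ d = 5 ∨ d = -5) ∧ n - m = d * s ^ 2 := by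
  have hk2 : k ^ 2 ≠ 0 := pow_ne_zero 2 hk
  have hA2ne : n - m ≠ 0 := by
    intro h
    apply hk2
    rw [← hK, h]
    ring
  obtain ⟨i, c, h2c, hA2c⟩ := WfDvdMonoid.max_power_factor hA2ne Int.prime_two.irreducible
  have hcne : c ≠ 0 := by
    rintro rfl
    simp at h2c
  have h5 : Prime (5 : ℤ) := by norm_num
  obtain ⟨j, c', h5c', hcc'⟩ := WfDvdMonoid.max_power_factor hcne h5.irreducible
  have h2c' : ¬ (2 : ℤ) ∣ c' := fun h => h2c (by rw [hcc']; exact dvd_mul_of_dvd_right h _)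
  have hc2 : IsCoprime c' ((2 : ℤ) ^ i) := sel_coprime_prime_pow Int.prime_two h2c' i
  have hc5 : IsCoprime c' ((5 : ℤ) ^ j) := sel_coprime_prime_pow h5 h5c' j
  have hc80 : IsCoprime c' (80 : ℤ) := by
    have h16 := sel_coprime_prime_pow Int.prime_two h2c' 4
    have h51 := sel_coprime_prime_pow h5 h5c' 1
    have := h16.mul_right h51
    norm_num at this ⊢
    exact this
  obtain ⟨a, b, hab⟩ := hcop
  have hA2n : IsCoprime (n - m) n := ⟨-b, a + b, by linear_combination hab⟩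
  have hA2m : IsCoprime (n - m) m := ⟨a, a + b, by linear_combination hab⟩
  have hc'dvd : n - m = (2 ^ i * 5 ^ j) * c' := by
    rw [hA2c, hcc']
    ring
  have hc'n : IsCoprime c' n := by
    rw [hc'dvd] at hA2n
    exact hA2n.of_mul_left_right
  have hc'm : IsCoprime c' m := by
    rw [hc'dvd] at hA2m
    exact hA2m.of_mul_left_right
  have hc'A3 : IsCoprime c' (n - 81 * m) := by
    obtain ⟨x, y, hxy⟩ := hc80.mul_right hc'm
    refine ⟨x + y * (2 ^ i * 5 ^ j), -y, ?_⟩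
    have : n - 81 * m = (2 ^ i * 5 ^ j) * c' - 80 * m := by
      rw [← hc'dvd]
      ring
    rw [this]
    linear_combination hxy
  have hco : IsCoprime c' (2 ^ i * 5 ^ j * n * (n - 81 * m)) :=
    ((hc2.mul_right hc5).mul_right hc'n).mul_right hc'A3
  have hK' : c' * (2 ^ i * 5 ^ j * n * (n - 81 * m)) = k ^ 2 := by
    linear_combination hK - n * (n - 81 * m) * hc'dvd
  obtain ⟨c0, hc0⟩ := Int.sq_of_isCoprime hco hK'
  have hq : 1 ≤ i → ¬ (2 : ℤ) ∣ q0 := by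
    intro hi h2
    have h2m : (2 : ℤ) ∣ m := by
      rw [hmq]
      exact dvd_pow h2 (by norm_num)
    have h2A : (2 : ℤ) ∣ n - m := by
      rw [hA2c]
      exact dvd_mul_of_dvd_left (dvd_pow_self 2 (by omega)) _
    have h2n : (2 : ℤ) ∣ n := by
      have := dvd_add h2A h2m
      simpa using this
    have := IsCoprime.isUnit_of_dvd' ⟨a, b, hab⟩ h2n h2m
    rw [Int.isUnit_iff] at this
    omega
  have hK2 : (2 ^ i * c + m) * (2 ^ i * c) * (2 ^ i * c - 80 * m) = k ^ 2 := by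
    rw [← hA2c, ← hK]
    ring
  obtain ⟨h, hh⟩ := sel_two_even c m q0 k i h2c hmq hq hK2
  rcases Nat.even_or_odd' j with ⟨g, hg | hg⟩
  · rcases hc0 with hc0 | hc0
    · exact ⟨1, 2 ^ h * 5 ^ g * c0, Or.inl rfl, by rw [hc'dvd, hc0, hh, hg]; ring⟩
    · exact ⟨-1, 2 ^ h * 5 ^ g * c0, Or.inr (Or.inl rfl), by rw [hc'dvd, hc0, hh, hg]; ring⟩
  · rcases hc0 with hc0 | hc0
    · exact ⟨5, 2 ^ h * 5 ^ g * c0, Or.inr (Or.inr (Or.inl rfl)), by
        rw [hc'dvd, hc0, hh, hg]; ring⟩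
    · exact ⟨-5, 2 ^ h * 5 ^ g * c0, Or.inr (Or.inr (Or.inr rfl)), by
        rw [hc'dvd, hc0, hh, hg]; ring⟩

theorem sel_A3_class (r s d A3 k : ℤ) (hd : d = 1 ∨ d = -1 ∨ d = 5 ∨ d = -5) (hr : r ≠ 0)
    (hs : s ≠ 0) (hK : r ^ 2 * (d * s ^ 2) * A3 = k ^ 2) : ∃ z : ℤ, A3 = d * z ^ 2 := by
  have hdvd : r * s ∣ k := by
    rw [← Int.pow_dvd_pow_iff (n := 2) (by norm_num), ← hK]
    exact ⟨d * A3, by ring⟩
  obtain ⟨k2, rfl⟩ := hdvd
  have hrs : (r * s) ^ 2 ≠ 0 := pow_ne_zero 2 (mul_ne_zero hr hs)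
  have h2 : d * A3 = k2 ^ 2 := by
    have : (r * s) ^ 2 * (d * A3) = (r * s) ^ 2 * k2 ^ 2 := by
      rw [← mul_pow, ← hK]
      ring
    exact mul_left_cancel₀ hrs this
  have h5 : Prime (5 : ℤ) := by norm_num
  rcases hd with rfl | rfl | rfl | rfl
  · exact ⟨k2, by linarith⟩
  · exact ⟨k2, by linarith⟩
  · have : (5 : ℤ) ∣ k2 := h5.dvd_of_dvd_pow ⟨A3, h2.symm⟩
    obtain ⟨z, rfl⟩ := this
    exact ⟨z, by linarith⟩
  · have : (5 : ℤ) ∣ k2 := h5.dvd_of_dvd_pow ⟨-A3, by rw [← h2]; ring⟩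
    obtain ⟨z, rfl⟩ := this
    exact ⟨z, by linarith⟩

/-- **Complete 2-descent information on `Y² = X (X - 1) (X - 81)`**, integral version. -/
theorem selmer81_int (n m Z : ℤ) (hn : 0 < n) (hm : 0 < m) (hcop : IsCoprime n m) (hZ0 : Z ≠ 0)
    (hZ : n * m * (n - m) * (n - 81 * m) = Z ^ 2) :
    ∃ (r q s z d : ℤ), r ≠ 0 ∧ q ≠ 0 ∧ s ≠ 0 ∧ z ≠ 0 ∧ n = r ^ 2 ∧ m = q ^ 2 ∧
      (d = 1 ∨ d = -1 ∨ d = 5 ∨ d = -5) ∧ n - m = d * s ^ 2 ∧ n - 81 * m = d * z ^ 2 := by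
  obtain ⟨q0, k, hq0, hk, hmq, hK⟩ := sel_m_square n m Z hm hcop hZ hZ0
  obtain ⟨r, hr⟩ := sel_n_square n m q0 k hn hcop hmq hK
  obtain ⟨d, s, hd, hs⟩ := sel_A2_class n m q0 k hcop hmq hk hK
  have hr0 : r ≠ 0 := by
    rintro rfl
    simp at hr
    omega
  have hk2 : k ^ 2 ≠ 0 := pow_ne_zero 2 hk
  have hs0 : s ≠ 0 := by
    rintro rfl
    apply hk2
    rw [← hK, hs]
    ring
  have hK' : r ^ 2 * (d * s ^ 2) * (n - 81 * m) = k ^ 2 := by
    rw [← hr, ← hs]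
    exact hK
  obtain ⟨z, hz⟩ := sel_A3_class r s d (n - 81 * m) k hd hr0 hs0 hK'
  have hz0 : z ≠ 0 := by
    rintro rfl
    apply hk2
    rw [← hK, hz]
    ring
  exact ⟨r, q0, s, z, d, hr0, hq0, hs0, hz0, hr, hmq, hd, hs, hz⟩

/-- **Complete 2-descent information on `E₃ : Y² = X (X - 1) (X - 81)`**: for a rational point
with `Y ≠ 0` and `X = n / m` in lowest terms (`n, m > 0`), both `n` and `m` are squares and
`n - m = d s²`, `n - 81 m = d z²` with the same `d ∈ {1, -1, 5, -5}`. -/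
theorem selmer81 (n m : ℕ) (hn : 0 < n) (hm : 0 < m) (hcop : Nat.Coprime n m)
    (h : ∃ Y : ℚ, Y ≠ 0 ∧ Y ^ 2 = ((n : ℚ) / m) * ((n : ℚ) / m - 1) * ((n : ℚ) / m - 81)) :
    ∃ (r q s z : ℕ) (d : ℤ), 0 < r ∧ 0 < q ∧ 0 < s ∧ 0 < z ∧ n = r ^ 2 ∧ m = q ^ 2 ∧
      (d = 1 ∨ d = -1 ∨ d = 5 ∨ d = -5) ∧ (n : ℤ) - m = d * (s : ℤ) ^ 2 ∧
      (n : ℤ) - 81 * m = d * (z : ℤ) ^ 2 := by
  obtain ⟨Y, hY0, hY⟩ := h
  have hmQ : (m : ℚ) ≠ 0 := by exact_mod_cast hm.ne'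
  have hsq : (((n : ℤ) * m * (n - m) * (n - 81 * m) : ℤ) : ℚ) = (Y * (m : ℚ) ^ 2) ^ 2 := by
    push_cast
    rw [mul_pow, hY]
    field_simp
  have hIsSq : IsSquare (((n : ℤ) * m * (n - m) * (n - 81 * m) : ℤ) : ℚ) :=
    ⟨Y * (m : ℚ) ^ 2, by rw [hsq]; ring⟩
  rw [Rat.isSquare_intCast_iff] at hIsSq
  obtain ⟨Z, hZ⟩ := hIsSq
  have hZ' : (n : ℤ) * m * (n - m) * (n - 81 * m) = Z ^ 2 := by
    rw [hZ]
    ring
  have hZ0 : Z ≠ 0 := by
    rintro rfl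
    have h0 : (Y * (m : ℚ) ^ 2) ^ 2 = 0 := by
      rw [← hsq, hZ']
      simp
    have h1 := (pow_eq_zero_iff two_ne_zero).mp h0
    rcases mul_eq_zero.mp h1 with h2 | h2
    · exact hY0 h2
    · exact hmQ ((pow_eq_zero_iff two_ne_zero).mp h2)
  obtain ⟨r, q, s, z, d, hr, hq, hs, hz, hnr, hmq, hd, hA2, hA3⟩ :=
    selmer81_int n m Z (by exact_mod_cast hn) (by exact_mod_cast hm)
      (Nat.isCoprime_iff_coprime.mpr hcop) hZ0 hZ'
  refine ⟨r.natAbs, q.natAbs, s.natAbs, z.natAbs, d, Int.natAbs_pos.mpr hr,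
    Int.natAbs_pos.mpr hq, Int.natAbs_pos.mpr hs, Int.natAbs_pos.mpr hz, ?_, ?_, hd, ?_, ?_⟩
  · have : ((n : ℤ)) = ((r.natAbs ^ 2 : ℕ) : ℤ) := by
      rw [Nat.cast_pow, Int.natAbs_sq]
      exact hnr
    exact_mod_cast this
  · have : ((m : ℤ)) = ((q.natAbs ^ 2 : ℕ) : ℤ) := by
      rw [Nat.cast_pow, Int.natAbs_sq]
      exact hmq
    exact_mod_cast this
  · rw [Int.natAbs_sq]
    exact hA2
  · rw [Int.natAbs_sq]
    exact hA3

end Fermat.Agent.S51x
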