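import Fermat.Agent.S51x.Basic

/-! S51 project: INTERFACE SPEC. Every statement below is a stub with `sorry`; the real proofs live in the
module files listed in table `s51` (namespace `Fermat.Agent.S51x`, same names without `Spec`).
This file is never imported by the final `S51.lean`. -/

set_option autoImplicit false
open WeierstrassCurve WeierstrassCurve.Affine WeierstrassCurve.Affine.Point

namespace Fermat.Agent.S51x.Spec

noncomputable section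

/-! ## M10_VC : variable change on points -/
section VC
variable {F : Type} [Field F] [DecidableEq F]

def vcEquiv (W : WeierstrassCurve F) (C : VariableChange F) :
    (C • W).toAffine.Point ≃+ W.toAffine.Point := sorry

theorem vcEquiv_some (W : WeierstrassCurve F) (C : VariableChange F) {x y : F}
    (h : (C • W).toAffine.Nonsingular x y) :
    ∃ h' : W.toAffine.Nonsingular ((C.u : F) ^ 2 * x + C.r)
        ((C.u : F) ^ 3 * y + (C.u : F) ^ 2 * C.s * x + C.t),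
      vcEquiv W C (Point.some x y h) = Point.some _ _ h' := sorry
end VC

/-! ## M20_TOR3 / M42_TOR5 : torsion over an algebraically closed field of char 0 -/
section TOR
variable {F : Type} [Field F] [DecidableEq F] [IsAlgClosed F] [CharZero F]
variable (W : WeierstrassCurve F) [W.IsElliptic]

theorem Ψ₃_eval_eq_zero_of_three_torsion {x y : F} (h : W.toAffine.Nonsingular x y)
    (h3 : (3 : ℤ) • (Point.some x y h) = 0) : W.Ψ₃.eval x = 0 := sorry

theorem exists_three_torsion : ∃ P : W.toAffine.Point, P ≠ 0 ∧ (3 : ℤ) • P = 0 := sorry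

theorem card_three_torsion_le :
    Finite (Submodule.torsionBy ℤ W.toAffine.Point (3 : ℕ)) ∧
      Nat.card (Submodule.torsionBy ℤ W.toAffine.Point (3 : ℕ)) ≤ 9 := sorry

theorem exists_five_torsion : ∃ P : W.toAffine.Point, P ≠ 0 ∧ (5 : ℤ) • P = 0 := sorry

theorem card_five_torsion_le (hj0 : W.j ≠ 0) (hj1728 : W.j ≠ 1728) :
    Finite (Submodule.torsionBy ℤ W.toAffine.Point (5 : ℕ)) ∧
      Nat.card (Submodule.torsionBy ℤ W.toAffine.Point (5 : ℕ)) ≤ 25 := sorry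

end TOR

/-! ## M21_MOD3 : pure algebra over ℚ -/

theorem tau_of_Ψ₃_root (E : WeierstrassCurve ℚ) [E.IsElliptic] (hj0 : E.j ≠ 0) (q : ℚ)
    (hq : E.Ψ₃.eval q = 0) : ∃ τ : ℚ, τ ≠ 0 ∧ E.j * τ = (τ + 27) * (τ + 3) ^ 3 := sorry

/-! ## M22_GAL : from reducibility to a Galois-stable cyclic subgroup -/
section GAL
variable (E : WeierstrassCurve ℚ)

theorem smul_some (σ : Qbar ≃ₐ[ℚ] Qbar) {x y : Qbar} (h : (E⁄Qbar).Nonsingular x y) :
    ∃ h' : (E⁄Qbar).Nonsingular (σ x) (σ y),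
      σ • (Point.some x y h : (E⁄Qbar).Point) = Point.some (σ x) (σ y) h' := sorry

theorem exists_stable_line (p : ℕ) [Fact p.Prime]
    (hnt : Nontrivial (Submodule.torsionBy ℤ (E⁄Qbar).Point p))
    (hfin : Finite (Submodule.torsionBy ℤ (E⁄Qbar).Point p))
    (hcard : Nat.card (Submodule.torsionBy ℤ (E⁄Qbar).Point p) ≤ p ^ 2)
    (hred : ¬ GaloisRepIsIrreducible (K := Qbar) ℚ E p) :
    ∃ P : (E⁄Qbar).Point, P ≠ 0 ∧ (p : ℤ) • P = 0 ∧
      ∀ σ : Qbar ≃ₐ[ℚ] Qbar, ∃ k : ℕ, ¬ p ∣ k ∧ σ • P = k • P := sorry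

end GAL

/-! ## M41_TATE5 : the Tate-normal-form parameter of a point of order 5 -/
section MOD5
variable {F : Type} [Field F] [DecidableEq F]

/-- x-coordinate of a point (0 for the point at infinity). -/
def px {W : WeierstrassCurve F} : W.toAffine.Point → F
  | .zero => 0
  | .some x _ _ => x

/-- `η = 2y + a₁x + a₃` of a point (0 for the point at infinity). -/
def peta {W : WeierstrassCurve F} : W.toAffine.Point → F
  | .zero => 0
  | .some x y _ => 2 * y + W.a₁ * x + W.a₃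

/-- `(x(2P) - x(P))^3 / η(P)^2`. -/
def dInv (W : WeierstrassCurve F) (P : W.toAffine.Point) : F :=
  (px (P + P) - px P) ^ 3 / (peta P) ^ 2

variable (W : WeierstrassCurve F) [W.IsElliptic]

theorem dInv_spec [CharZero F] (P : W.toAffine.Point) (hP : P ≠ 0) (h5 : (5 : ℤ) • P = 0) :
    dInv W P ≠ 0 ∧ dInv W P ^ 2 - 11 * dInv W P - 1 ≠ 0 ∧
      W.j * (dInv W P ^ 5 * (dInv W P ^ 2 - 11 * dInv W P - 1)) =
        (dInv W P ^ 4 - 12 * dInv W P ^ 3 + 14 * dInv W P ^ 2 + 12 * dInv W P + 1) ^ 3 := sorry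

theorem dInv_two_smul [CharZero F] (P : W.toAffine.Point) (hP : P ≠ 0) (h5 : (5 : ℤ) • P = 0) :
    dInv W (P + P) = - (dInv W P)⁻¹ := sorry

theorem dInv_neg (P : W.toAffine.Point) : dInv W (-P) = dInv W P := sorry

/-- Tate normal form: `(W, P)` is a variable change of `(T(d,d), (0,0))`. -/
theorem exists_vc_tate [CharZero F] (P : W.toAffine.Point) (hP : P ≠ 0) (h5 : (5 : ℤ) • P = 0) :
    ∃ (d : F) (C : VariableChange F)
      (h0 : (C • W).toAffine.Nonsingular 0 0),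
      d ≠ 0 ∧ C • W = ⟨1 - d, -d, -d, 0, 0⟩ ∧ vcEquiv W C (Point.some 0 0 h0) = P ∧
        dInv W P = d := sorry

end MOD5

/-! ## M30_RED3 / M40_RED5 -/
section RED
variable (E : WeierstrassCurve ℚ) [E.IsElliptic]

theorem exists_tau_of_reducible_three (hj0 : E.j ≠ 0) (hj : E.j ≠ 1728)
    (h : ¬ GaloisRepIsIrreducible (K := Qbar) ℚ E 3) :
    ∃ τ : ℚ, τ ≠ 0 ∧ E.j * τ = (τ + 27) * (τ + 3) ^ 3 := sorry

theorem exists_t_of_reducible_five (hj0 : E.j ≠ 0) (hj : E.j ≠ 1728)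
    (h : ¬ GaloisRepIsIrreducible (K := Qbar) ℚ E 5) :
    ∃ t : ℚ, t ≠ 0 ∧ E.j * t = (t ^ 2 + 10 * t + 5) ^ 3 := sorry

end RED

/-! ## M51..M54 : descent on 15a1 : y² = x(x+9)(x-16) -/

/-- the curve 15a1 in the form `y² = x³ - 7x² - 144x`. -/
def W15 : WeierstrassCurve ℚ := ⟨0, -7, 0, -144, 0⟩

theorem sqclass_15a1 (x y : ℚ) (h : y ^ 2 = x * (x + 9) * (x - 16)) (hy : y ≠ 0) :
    (IsSquare x ∧ IsSquare (x + 9) ∧ IsSquare (x - 16)) ∨
    (IsSquare (-x) ∧ IsSquare (x + 9) ∧ IsSquare (-(x - 16))) ∨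
    (IsSquare x ∧ IsSquare (5 * (x + 9)) ∧ IsSquare (5 * (x - 16))) ∨
    (IsSquare (-x) ∧ IsSquare (5 * (x + 9)) ∧ IsSquare (-(5 * (x - 16)))) := sorry

theorem exists_four_torsion_add_two_smul (P : W15.toAffine.Point) :
    ∃ T Q : W15.toAffine.Point, (4 : ℤ) • T = 0 ∧ P = T + (2 : ℤ) • Q := sorry

theorem no_infinitely_two_divisible (P : W15.toAffine.Point)
    (hdiv : ∀ k : ℕ, ∃ Q : W15.toAffine.Point, P = (2 ^ k : ℤ) • Q) : P = 0 := sorry

theorem rational_points_15a1 (x y : ℚ) (h : y ^ 2 = x * (x + 9) * (x - 16)) :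
    x = 0 ∨ x = -9 ∨ x = 16 ∨ x = 36 ∨ x = -4 := sorry

/-! ## M50_X015 -/

theorem exists_uw_of_tau_t (τ t : ℚ) (hτ0 : τ ≠ 0) (ht0 : t ≠ 0) (h3 : τ + 3 ≠ 0)
    (h1728 : τ ^ 2 + 18 * τ - 27 ≠ 0)
    (hP : t * ((τ + 27) * (τ + 3) ^ 3) = τ * (t ^ 2 + 10 * t + 5) ^ 3) :
    ∃ u w : ℚ, u ≠ 0 ∧ w ≠ 0 ∧ u ^ 2 * w - u * w ^ 2 - 5 * u * w - 9 * u - w = 0 ∧
      τ * w ^ 3 = 729 * u ^ 2 := sorry

theorem tau_classification (j τ t : ℚ) (hτ0 : τ ≠ 0) (ht0 : t ≠ 0) (hj0 : j ≠ 0)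
    (hj1728 : j ≠ 1728)
    (h3 : j * τ = (τ + 27) * (τ + 3) ^ 3) (h5 : j * t = (t ^ 2 + 10 * t + 5) ^ 3) :
    τ = -729 / 2 ∨ τ = -32 ∨ τ = -729 / 32 ∨ τ = -2 := sorry

/-! ## M60_SEMISTABLE -/

theorem semistable_j_facts (W : WeierstrassCurve ℤ) (hΔ : W.Δ ≠ 0) (hW : W.IsSemistableModel)
    [(W.map (Int.castRingHom ℚ)).IsElliptic] :
    (W.map (Int.castRingHom ℚ)).j ≠ 0 ∧ (W.map (Int.castRingHom ℚ)).j ≠ 1728 ∧
    ∀ τ : ℚ, (τ = -729 / 2 ∨ τ = -32 ∨ τ = -729 / 32 ∨ τ = -2) →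
      (W.map (Int.castRingHom ℚ)).j * τ ≠ (τ + 27) * (τ + 3) ^ 3 := sorry

/-! ## M70_FINAL (compiles from the above) -/

theorem result_from_spec (W : WeierstrassCurve ℤ) (hΔ : W.Δ ≠ 0) (hW : W.IsSemistableModel) :
    W.ModRepIsIrreducible 3 ∨ W.ModRepIsIrreducible 5 := by
  by_contra hcon
  rw [not_or] at hcon
  obtain ⟨h3, h5⟩ := hcon
  have hΔ' : (W.map (Int.castRingHom ℚ)).Δ ≠ 0 := by
    rw [WeierstrassCurve.map_Δ]
    simpa using hΔ
  have : (W.map (Int.castRingHom ℚ)).IsElliptic := ⟨isUnit_iff_ne_zero.mpr hΔ'⟩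
  obtain ⟨hj0, hj1728, hex⟩ := semistable_j_facts W hΔ hW
  obtain ⟨τ, hτ0, hτ⟩ := exists_tau_of_reducible_three (W.map (Int.castRingHom ℚ)) hj0 hj1728 h3
  obtain ⟨t, ht0, ht⟩ := exists_t_of_reducible_five (W.map (Int.castRingHom ℚ)) hj0 hj1728 h5
  exact hex τ (tau_classification _ τ t hτ0 ht0 hj0 hj1728 hτ ht) hτ

end

end Fermat.Agent.S51x.Spec
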