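import Mathlib.AlgebraicGeometry.EllipticCurve.Affine.Point
import Mathlib.AlgebraicGeometry.EllipticCurve.VariableChange

/-!
# S51 project: explicit computations on the Tate normal form `T(b,c)`

`T(b,c) : y² + (1-c)xy - by = x³ - bx²`, with the point `P₀ = (0,0)`:
`2P₀ = (b, bc)`, `3P₀ = (c, b-c)`, `-2P₀ = (b, 0)`; so `5P₀ = 0` forces `c = b`.
On `T(d,d)`: `2P₀ = (d, d²)`, `3P₀ = (d, 0) = -2P₀`, `4P₀ = -P₀ = (0, d)`.
Also `Δ`, `c₄`, `j` of `T(d,d)`.
-/

set_option autoImplicit false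
open WeierstrassCurve WeierstrassCurve.Affine WeierstrassCurve.Affine.Point

namespace Fermat.Agent.S51x
namespace TateCalc

variable {F : Type} [Field F]

/-- Tate normal form curve `T(b,c)`. -/
def tateBC (b c : F) : WeierstrassCurve F := ⟨1 - c, -b, -b, 0, 0⟩

lemma some_congr {W : Affine F} {x y x' y' : F} (h : W.Nonsingular x y)
    (h' : W.Nonsingular x' y') (hx : x = x') (hy : y = y') :
    Point.some x y h = Point.some x' y' h' := by
  subst hx hy; rfl

lemma some_inj {W : Affine F} {x y x' y' : F} {h : W.Nonsingular x y}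
    {h' : W.Nonsingular x' y'} (e : Point.some x y h = Point.some x' y' h') :
    x = x' ∧ y = y' := by
  injection e with hx hy
  exact ⟨hx, hy⟩

section calc_bc
variable [DecidableEq F] (b c : F)

omit [DecidableEq F] in
lemma tateBC_negY_zero : (tateBC b c).toAffine.negY 0 0 = b := by
  simp [negY, tateBC]

/-- `2P₀ = (b, bc)` -/
lemma two_smul_origin (hb : b ≠ 0) (h0 : (tateBC b c).toAffine.Nonsingular 0 0) :
    ∃ h2 : (tateBC b c).toAffine.Nonsingular b (b * c),
      (Point.some 0 0 h0 : (tateBC b c).toAffine.Point) + Point.some 0 0 h0 =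
        Point.some b (b * c) h2 := by
  have hy0 : (0 : F) ≠ (tateBC b c).toAffine.negY 0 0 := by
    rw [tateBC_negY_zero]; exact hb.symm
  have hs : (tateBC b c).toAffine.slope 0 0 0 0 = 0 := by
    rw [slope_of_Y_ne rfl hy0]
    simp [tateBC]
  have hx : (tateBC b c).toAffine.addX 0 0 ((tateBC b c).toAffine.slope 0 0 0 0) = b := by
    rw [hs]; simp [addX, tateBC]
  have hy : (tateBC b c).toAffine.addY 0 0 0 ((tateBC b c).toAffine.slope 0 0 0 0) = b * c := by
    rw [hs]; simp [addY, negAddY, negY, addX, tateBC]; ring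
  have hns := nonsingular_add h0 h0 (fun hxy => hy0 hxy.right)
  rw [hx, hy] at hns
  refine ⟨hns, ?_⟩
  rw [add_self_of_Y_ne hy0]
  exact some_congr _ _ hx hy

/-- `(b, bc) + P₀ = (c, b - c)` -/
lemma three_smul_origin (hb : b ≠ 0) (h0 : (tateBC b c).toAffine.Nonsingular 0 0)
    (h2 : (tateBC b c).toAffine.Nonsingular b (b * c)) :
    ∃ h3 : (tateBC b c).toAffine.Nonsingular c (b - c),
      (Point.some b (b * c) h2 : (tateBC b c).toAffine.Point) + Point.some 0 0 h0 =
        Point.some c (b - c) h3 := by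
  have hs : (tateBC b c).toAffine.slope b 0 (b * c) 0 = c := by
    rw [slope_of_X_ne hb, sub_zero, sub_zero, mul_comm, mul_div_assoc, div_self hb, mul_one]
  have hx : (tateBC b c).toAffine.addX b 0 ((tateBC b c).toAffine.slope b 0 (b * c) 0) = c := by
    rw [hs]; simp [addX, tateBC]; ring
  have hy : (tateBC b c).toAffine.addY b 0 (b * c)
      ((tateBC b c).toAffine.slope b 0 (b * c) 0) = b - c := by
    rw [hs]; simp [addY, negAddY, negY, addX, tateBC]; ring
  have hns := nonsingular_add h2 h0 (fun hxy => hb hxy.left)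
  rw [hx, hy] at hns
  refine ⟨hns, ?_⟩
  rw [add_of_X_ne hb]
  exact some_congr _ _ hx hy

omit [DecidableEq F] in
/-- `-(b, bc) = (b, 0)` -/
lemma neg_two_smul_origin (h2 : (tateBC b c).toAffine.Nonsingular b (b * c)) :
    ∃ h2' : (tateBC b c).toAffine.Nonsingular b 0,
      -(Point.some b (b * c) h2 : (tateBC b c).toAffine.Point) = Point.some b 0 h2' := by
  have hy : (tateBC b c).toAffine.negY b (b * c) = 0 := by
    simp [negY, tateBC]; ring
  have hns := (nonsingular_neg ..).mpr h2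
  rw [hy] at hns
  refine ⟨hns, ?_⟩
  rw [neg_some]
  exact some_congr _ _ rfl hy

/-- If `P₀ = (0,0)` on `T(b,c)` (with `b ≠ 0`) is killed by 5, then `c = b`. -/
theorem c_eq_b_of_five_smul (hb : b ≠ 0) (h0 : (tateBC b c).toAffine.Nonsingular 0 0)
    (h5 : (5 : ℤ) • (Point.some 0 0 h0 : (tateBC b c).toAffine.Point) = 0) : c = b := by
  set P : (tateBC b c).toAffine.Point := Point.some 0 0 h0 with hP
  obtain ⟨h2, e2⟩ := two_smul_origin b c hb h0
  obtain ⟨h3, e3⟩ := three_smul_origin b c hb h0 h2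
  obtain ⟨h2', e2'⟩ := neg_two_smul_origin b c h2
  have h5' : (5 : ℤ) • P = (P + P) + ((P + P) + P) := by
    rw [show (5 : ℤ) = 1 + 1 + (1 + 1 + 1) by norm_num]
    simp only [add_smul, one_smul]
  rw [h5', hP, e2, e3] at h5
  have : (Point.some c (b - c) h3 : (tateBC b c).toAffine.Point) = Point.some b 0 h2' := by
    rw [← e2']
    exact eq_neg_of_add_eq_zero_right h5
  exact (some_inj this).1

end calc_bc

section calc_dd
variable (d : F)

lemma tateBC_Δ : (tateBC d d).Δ = d ^ 5 * (d ^ 2 - 11 * d - 1) := by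
  simp only [tateBC, Δ, b₂, b₄, b₆, b₈]; ring

lemma tateBC_c₄ : (tateBC d d).c₄ = d ^ 4 - 12 * d ^ 3 + 14 * d ^ 2 + 12 * d + 1 := by
  simp only [tateBC, c₄, b₂, b₄]; ring

lemma tateBC_isElliptic (hd : d ≠ 0) (hd2 : d ^ 2 - 11 * d - 1 ≠ 0) :
    (tateBC d d).IsElliptic := by
  rw [isElliptic_iff, tateBC_Δ]
  exact isUnit_iff_ne_zero.mpr (mul_ne_zero (pow_ne_zero _ hd) hd2)

lemma tateBC_Δ_ne_zero [(tateBC d d).IsElliptic] :
    d ≠ 0 ∧ d ^ 2 - 11 * d - 1 ≠ 0 := by
  have h : (tateBC d d).Δ ≠ 0 := by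
    rw [← coe_Δ']; exact (tateBC d d).Δ'.ne_zero
  rw [tateBC_Δ] at h
  exact ⟨fun h0 => h (by rw [h0]; ring), fun h0 => h (by rw [h0]; ring)⟩

lemma tateBC_j [(tateBC d d).IsElliptic] :
    (tateBC d d).j * (d ^ 5 * (d ^ 2 - 11 * d - 1)) =
      (d ^ 4 - 12 * d ^ 3 + 14 * d ^ 2 + 12 * d + 1) ^ 3 := by
  rw [j, ← tateBC_Δ, ← tateBC_c₄, ← coe_Δ', mul_right_comm, Units.inv_mul, one_mul]

variable [DecidableEq F]

/-- On `T(d,d)`: `2P₀ = (d, d²)`, `4P₀ = -P₀ = (0, d)`, `5P₀ = 0`. -/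
theorem tate_dd_multiples (hd : d ≠ 0) (h0 : (tateBC d d).toAffine.Nonsingular 0 0) :
    ∃ (h2 : (tateBC d d).toAffine.Nonsingular d (d ^ 2))
      (h4 : (tateBC d d).toAffine.Nonsingular 0 d),
      (Point.some 0 0 h0 : (tateBC d d).toAffine.Point) + Point.some 0 0 h0 = Point.some d (d ^ 2) h2 ∧
      (Point.some d (d ^ 2) h2 : (tateBC d d).toAffine.Point) + Point.some d (d ^ 2) h2 =
        Point.some 0 d h4 ∧
      -(Point.some 0 0 h0 : (tateBC d d).toAffine.Point) = Point.some 0 d h4 ∧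
      (5 : ℤ) • (Point.some 0 0 h0 : (tateBC d d).toAffine.Point) = 0 := by
  set P : (tateBC d d).toAffine.Point := Point.some 0 0 h0 with hP
  obtain ⟨h2, e2⟩ := two_smul_origin d d hd h0
  obtain ⟨h3, e3⟩ := three_smul_origin d d hd h0 h2
  obtain ⟨h2', e2'⟩ := neg_two_smul_origin d d h2
  have h2sq : (tateBC d d).toAffine.Nonsingular d (d ^ 2) := by
    rw [pow_two]; exact h2
  have e2sq : P + P = Point.some d (d ^ 2) h2sq := by
    rw [hP, e2]; exact some_congr _ _ rfl (pow_two d).symm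
  -- `3P₀ = -2P₀`
  have e32 : (P + P) + P = -(P + P) := by
    rw [hP, e2, e3, e2']
    exact some_congr _ _ rfl (sub_self d)
  have h5 : (5 : ℤ) • P = 0 := by
    have h5' : (5 : ℤ) • P = (P + P) + ((P + P) + P) := by
      rw [show (5 : ℤ) = 1 + 1 + (1 + 1 + 1) by norm_num]
      simp only [add_smul, one_smul]
    rw [h5', e32, add_neg_cancel]
  have hneg : (tateBC d d).toAffine.negY 0 0 = d := tateBC_negY_zero d d
  have h4 : (tateBC d d).toAffine.Nonsingular 0 d := by
    have := (nonsingular_neg ..).mpr h0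
    rwa [hneg] at this
  have eneg : -P = Point.some 0 d h4 := by
    rw [hP, neg_some]
    exact some_congr _ _ rfl hneg
  have e4 : (P + P) + (P + P) = -P := by
    have : (P + P) + (P + P) + P = 0 := by
      have h5' : (5 : ℤ) • P = (P + P) + (P + P) + P := by
        rw [show (5 : ℤ) = 1 + 1 + (1 + 1) + 1 by norm_num]
        simp only [add_smul, one_smul]
      rw [← h5', h5]
    exact eq_neg_of_add_eq_zero_left this
  refine ⟨h2sq, h4, e2sq, ?_, eneg, h5⟩
  rw [← e2sq, e4, eneg]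

end calc_dd

end TateCalc
end Fermat.Agent.S51x
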