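import Mathlib

/-!
# S51 project, module M20_TOR3: 3-torsion of an elliptic curve over an algebraically closed field

* `Ψ₃_eval_eq_zero_of_three_torsion` : the x-coordinate of a point of order 3 is a root of `Ψ₃`.
* `exists_three_torsion` : there is a nonzero 3-torsion point (alg. closed, char 0).
* `card_three_torsion_le` : there are at most 9 points killed by 3.
-/

set_option autoImplicit false
set_option linter.unusedSectionVars false

open WeierstrassCurve WeierstrassCurve.Affine WeierstrassCurve.Affine.Point Polynomial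

namespace Fermat.Agent.S51x

section Tor3

variable {F : Type} [Field F] [DecidableEq F] (W : WeierstrassCurve F)

theorem tor3_Ψ₃_eval (x : F) :
    W.Ψ₃.eval x = 3 * x ^ 4 + W.b₂ * x ^ 3 + 3 * W.b₄ * x ^ 2 + 3 * W.b₆ * x + W.b₈ := by
  simp [Ψ₃]

/-- Key polynomial identity: `N² + a₁Nη - (a₂+3x)η² + Ψ₃ = -(12x+b₂)·(Weierstrass equation)`. -/
theorem tor3_key (x y : F) :
    (3 * x ^ 2 + 2 * W.a₂ * x + W.a₄ - W.a₁ * y) ^ 2 +
      W.a₁ * (3 * x ^ 2 + 2 * W.a₂ * x + W.a₄ - W.a₁ * y) * (2 * y + W.a₁ * x + W.a₃) -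
      (W.a₂ + 3 * x) * (2 * y + W.a₁ * x + W.a₃) ^ 2 + W.Ψ₃.eval x =
    -(12 * x + W.b₂) *
      (y ^ 2 + W.a₁ * x * y + W.a₃ * y - (x ^ 3 + W.a₂ * x ^ 2 + W.a₄ * x + W.a₆)) := by
  rw [tor3_Ψ₃_eval]
  simp only [b₂, b₄, b₆, b₈]
  ring

/-- Doubling formula: `x(2P) - x(P) = -Ψ₃(x)/η²`. -/
theorem tor3_addX_sub {x y : F} (h : W.toAffine.Equation x y)
    (hy : y ≠ W.toAffine.negY x y) :
    W.toAffine.addX x x (W.toAffine.slope x x y y) - x =
      -(W.Ψ₃.eval x) / (2 * y + W.a₁ * x + W.a₃) ^ 2 := by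
  have hη : (2 * y + W.a₁ * x + W.a₃) ≠ 0 := by
    intro h0
    apply hy
    simp only [negY]
    linear_combination h0
  rw [slope_of_Y_ne rfl hy]
  have hden : y - W.toAffine.negY x y = 2 * y + W.a₁ * x + W.a₃ := by
    simp only [negY]; ring
  rw [hden]
  rw [equation_iff] at h
  have key := tor3_key W x y
  rw [eq_div_iff (pow_ne_zero 2 hη)]
  obtain ⟨t, ht⟩ : ∃ t, t = (3 * x ^ 2 + 2 * W.a₂ * x + W.a₄ - W.a₁ * y) /
      (2 * y + W.a₁ * x + W.a₃) := ⟨_, rfl⟩
  have e1 : t * (2 * y + W.a₁ * x + W.a₃) = 3 * x ^ 2 + 2 * W.a₂ * x + W.a₄ - W.a₁ * y := by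
    rw [ht, div_mul_cancel₀ _ hη]
  rw [← ht]
  simp only [addX]
  linear_combination key - (12 * x + W.b₂) * h +
    (t * (2 * y + W.a₁ * x + W.a₃) + (3 * x ^ 2 + 2 * W.a₂ * x + W.a₄ - W.a₁ * y) +
      W.a₁ * (2 * y + W.a₁ * x + W.a₃)) * e1

theorem tor3_three_zsmul (P : W.toAffine.Point) : (3 : ℤ) • P = P + P + P := by
  abel

/-- The x-coordinate of a point of order 3 is a root of `Ψ₃`. -/
theorem Ψ₃_eval_eq_zero_of_three_torsion {x y : F} (h : W.toAffine.Nonsingular x y)
    (h3 : (3 : ℤ) • (Point.some x y h) = 0) : W.Ψ₃.eval x = 0 := by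
  rw [tor3_three_zsmul] at h3
  have h2 : Point.some x y h + Point.some x y h = -Point.some x y h :=
    eq_neg_of_add_eq_zero_left h3
  by_cases hy : y = W.toAffine.negY x y
  · rw [add_self_of_Y_eq hy] at h2
    have : Point.some x y h = 0 := by
      have := congrArg Neg.neg h2
      simpa using this.symm
    exact absurd this (some_ne_zero h)
  · rw [add_self_of_Y_ne hy, neg_some] at h2
    have hx : W.toAffine.addX x x (W.toAffine.slope x x y y) = x := by
      injection h2
    have hsub := tor3_addX_sub W h.1 hy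
    rw [hx, sub_self] at hsub
    have hη : (2 * y + W.a₁ * x + W.a₃) ≠ 0 := by
      intro h0
      apply hy
      simp only [negY]
      linear_combination h0
    have := (div_eq_zero_iff.mp hsub.symm).resolve_right (pow_ne_zero 2 hη)
    simpa using this

/-- On an elliptic curve, a point with `Ψ₃(x) = 0` is not a 2-torsion point. -/
theorem tor3_eta_ne_zero {x y : F} (h : W.toAffine.Nonsingular x y) (hΨ : W.Ψ₃.eval x = 0) :
    y ≠ W.toAffine.negY x y := by
  intro hy
  have hη : 2 * y + W.a₁ * x + W.a₃ = 0 := by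
    simp only [negY] at hy
    linear_combination hy
  have key := tor3_key W x y
  have heq := (equation_iff _ _).mp h.1
  rw [hΨ, hη] at key
  have hN : (3 * x ^ 2 + 2 * W.a₂ * x + W.a₄ - W.a₁ * y) ^ 2 = 0 := by
    linear_combination key - (12 * x + W.b₂) * heq
  have hN' : 3 * x ^ 2 + 2 * W.a₂ * x + W.a₄ - W.a₁ * y = 0 := by
    simpa using hN
  rcases ((nonsingular_iff' _ _).mp h).2 with h1 | h1
  · apply h1
    linear_combination -hN'
  · exact h1 hη

/-- A nonsingular point whose x-coordinate is a root of `Ψ₃` is killed by 3. -/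
theorem tor3_three_zsmul_eq_zero_of_root {x y : F} (h : W.toAffine.Nonsingular x y)
    (hΨ : W.Ψ₃.eval x = 0) : (3 : ℤ) • (Point.some x y h) = 0 := by
  have hy := tor3_eta_ne_zero W h hΨ
  have hη : (2 * y + W.a₁ * x + W.a₃) ≠ 0 := by
    intro h0
    apply hy
    simp only [negY]
    linear_combination h0
  have hsub := tor3_addX_sub W h.1 hy
  rw [hΨ, _root_.neg_zero, zero_div, sub_eq_zero] at hsub
  have h2 := add_self_of_Y_ne (h₁ := h) hy
  rcases (X_eq_iff (h₁ := nonsingular_add h h fun hxy => hy hxy.right) (h₂ := h)).mp hsub with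
    h' | h'
  · rw [h'] at h2
    have : Point.some x y h = 0 := by
      have h3 : Point.some x y h + Point.some x y h = Point.some x y h + 0 := by
        rw [h2, add_zero]
      exact add_left_cancel h3
    exact absurd this (some_ne_zero h)
  · rw [h'] at h2
    rw [tor3_three_zsmul, h2]
    exact neg_add_cancel _

end Tor3

section Tor3Closed

variable {F : Type} [Field F] [DecidableEq F] [IsAlgClosed F] [CharZero F]
variable (W : WeierstrassCurve F) [W.IsElliptic]

theorem tor3_exists_y (x : F) : ∃ y : F, W.toAffine.Nonsingular x y := by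
  obtain ⟨z, hz⟩ := IsAlgClosed.exists_eq_mul_self
    ((W.a₁ * x + W.a₃) ^ 2 / 4 + (x ^ 3 + W.a₂ * x ^ 2 + W.a₄ * x + W.a₆))
  refine ⟨z - (W.a₁ * x + W.a₃) / 2, ?_⟩
  rw [← equation_iff_nonsingular, equation_iff]
  have h2 : (2 : F) ≠ 0 := two_ne_zero
  field_simp
  field_simp at hz
  linear_combination -hz

theorem exists_three_torsion : ∃ P : W.toAffine.Point, P ≠ 0 ∧ (3 : ℤ) • P = 0 := by
  have h3 : (3 : F) ≠ 0 := by norm_num
  have hdeg : W.Ψ₃.degree ≠ 0 := by
    rw [Polynomial.degree_eq_natDegree (W.Ψ₃_ne_zero h3), W.natDegree_Ψ₃ h3]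
    norm_num
  obtain ⟨x, hx⟩ := IsAlgClosed.exists_root W.Ψ₃ hdeg
  obtain ⟨y, hy⟩ := tor3_exists_y W x
  exact ⟨Point.some x y hy, some_ne_zero hy, tor3_three_zsmul_eq_zero_of_root W hy hx⟩

open Classical in
/-- Every point killed by 3 lies in an explicit finite set of at most 9 points. -/
theorem tor3_exists_finset :
    ∃ B : Finset W.toAffine.Point, B.card ≤ 9 ∧ ∀ P : W.toAffine.Point, (3 : ℤ) • P = 0 → P ∈ B := by
  have h3 : (3 : F) ≠ 0 := by norm_num
  have hΨ : W.Ψ₃ ≠ 0 := W.Ψ₃_ne_zero h3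
  let R : Finset F := W.Ψ₃.roots.toFinset
  have hR : R.card ≤ 4 := by
    calc R.card ≤ Multiset.card W.Ψ₃.roots := Multiset.toFinset_card_le _
      _ ≤ W.Ψ₃.natDegree := Polynomial.card_roots' _
      _ ≤ 4 := W.natDegree_Ψ₃_le
  let g : F → W.toAffine.Point := fun x =>
    Point.some x (tor3_exists_y W x).choose (tor3_exists_y W x).choose_spec
  refine ⟨insert 0 (R.image g ∪ R.image (fun x => -g x)), ?_, ?_⟩
  · calc (insert 0 (R.image g ∪ R.image (fun x => -g x))).card
        ≤ (R.image g ∪ R.image (fun x => -g x)).card + 1 := Finset.card_insert_le _ _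
      _ ≤ (R.image g).card + (R.image (fun x => -g x)).card + 1 := by
          gcongr; exact Finset.card_union_le _ _
      _ ≤ R.card + R.card + 1 := by
          gcongr <;> exact Finset.card_image_le
      _ ≤ 9 := by omega
  · intro P hP
    rcases P with _ | ⟨x, y, h⟩
    · exact Finset.mem_insert_self _ _
    · have hx : W.Ψ₃.eval x = 0 := Ψ₃_eval_eq_zero_of_three_torsion W h hP
      have hxR : x ∈ R := by
        rw [Multiset.mem_toFinset, Polynomial.mem_roots hΨ]
        exact hx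
      apply Finset.mem_insert_of_mem
      rcases (X_eq_iff (h₁ := h) (h₂ := (tor3_exists_y W x).choose_spec)).mp rfl with h' | h'
      · exact Finset.mem_union_left _ (Finset.mem_image.mpr ⟨x, hxR, h'.symm⟩)
      · exact Finset.mem_union_right _ (Finset.mem_image.mpr ⟨x, hxR, h'.symm⟩)

theorem card_three_torsion_le :
    Finite (Submodule.torsionBy ℤ W.toAffine.Point (3 : ℕ)) ∧
      Nat.card (Submodule.torsionBy ℤ W.toAffine.Point (3 : ℕ)) ≤ 9 := by
  obtain ⟨B, hB, hmem⟩ := tor3_exists_finset W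
  have hmem' : ∀ P : Submodule.torsionBy ℤ W.toAffine.Point (3 : ℕ), (P : W.toAffine.Point) ∈ B := by
    intro P
    apply hmem
    have := (Submodule.mem_torsionBy_iff _ _).mp P.2
    simpa using this
  let f : Submodule.torsionBy ℤ W.toAffine.Point (3 : ℕ) → B := fun P => ⟨P, hmem' P⟩
  have hf : Function.Injective f := by
    intro P Q hPQ
    apply Subtype.ext
    exact congrArg (fun z : B => (z : W.toAffine.Point)) hPQ
  have hfin : Finite (Submodule.torsionBy ℤ W.toAffine.Point (3 : ℕ)) := Finite.of_injective f hf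
  refine ⟨hfin, ?_⟩
  calc Nat.card (Submodule.torsionBy ℤ W.toAffine.Point (3 : ℕ)) ≤ Nat.card B :=
        Nat.card_le_card_of_injective f hf
    _ = B.card := by simp
    _ ≤ 9 := hB

end Tor3Closed

end Fermat.Agent.S51x
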