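import Mathlib

/-!
# S51, moduli part: from a rational `3`-isogeny parameter `τ` and a rational `5`-isogeny
parameter `t` of the same curve to a contradiction with semistability.

`j τ = (τ+27)(τ+3)^3`, `j t = (t^2+10t+5)^3` define a (singular) model of `X₀(15)`; the substitution
`s = (t^2+10t+5)/(τ+3)` and `x = 3(1+s-s^2+st-t)/(s^3+3s^2-6s-3-t)`, `y = s x` maps it to the
Weierstrass curve `y^2+xy+6y = x^3-2x^2-12x-9` (a model of `15a1`), i.e. to `Y^2 = X(X+9)(X-16)`
with `X = 4x`, `Y = 8y+4x+24`.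
-/

set_option autoImplicit false

namespace Fermat.Agent.S51x.X015

theorem not_isSquare_twenty : ¬ IsSquare (20 : ℕ) := by
  rintro ⟨r, hr⟩
  have : r ≤ 4 := by nlinarith
  interval_cases r <;> omega

/-- `t^2+10t+5` has no rational root. -/
theorem quad_ne_zero (t : ℚ) : t ^ 2 + 10 * t + 5 ≠ 0 := by
  intro h
  have h1 : IsSquare ((20 : ℕ) : ℚ) := ⟨t + 5, by push_cast; linear_combination -h⟩
  rw [Rat.isSquare_natCast_iff] at h1
  exact not_isSquare_twenty h1

open Polynomial in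
/-- `s^4+2s^3-10s^2+4s+4` has no rational root. -/
theorem quartic_ne_zero (s : ℚ) : s ^ 4 + 2 * s ^ 3 - 10 * s ^ 2 + 4 * s + 4 ≠ 0 := by
  intro h
  let p : ℤ[X] := X ^ 4 + 2 * X ^ 3 - 10 * X ^ 2 + 4 * X + 4
  have hp : p.Monic := by
    unfold p
    monicity!
  have hr : aeval s p = 0 := by
    simp only [p, map_add, map_sub, map_mul, map_pow, aeval_X, map_ofNat]
    linear_combination h
  obtain ⟨n, hn⟩ := isInteger_of_is_root_of_monic hp hr
  have hn' : (n : ℚ) = s := by simpa using hn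
  rw [← hn'] at h
  have h2 : n ^ 4 + 2 * n ^ 3 - 10 * n ^ 2 + 4 * n + 4 = 0 := by exact_mod_cast h
  have h3 : n ∣ 4 := ⟨-(n ^ 3 + 2 * n ^ 2 - 10 * n + 4), by linear_combination h2⟩
  have h4 : n ≤ 4 := Int.le_of_dvd (by norm_num) h3
  have h5 : -4 ≤ n := by
    have : -n ∣ 4 := (neg_dvd).mpr h3
    have := Int.le_of_dvd (by norm_num) this
    omega
  interval_cases n <;> omega

/-- The algebraic core: rational points of the `(s,t)`-model of `X₀(15)` with `t ≠ 0`. -/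
theorem t_mem_of_G
    (hdesc : ∀ X Y : ℚ, Y ^ 2 = X * (X + 9) * (X - 16) →
      X = 0 ∨ X = -9 ∨ X = 16 ∨ X = 36 ∨ X = -4)
    (s t : ℚ) (ht : t ≠ 0)
    (hG : t ^ 3 + (10 - s ^ 3) * t ^ 2 + (5 + 24 * s - 10 * s ^ 3) * t + s ^ 3 * (3 * s - 5) = 0) :
    t = -25 / 2 ∨ t = -25 / 8 ∨ t = -40 ∨ t = -10 := by
  set D : ℚ := s ^ 3 + 3 * s ^ 2 - 6 * s - 3 - t with hD
  set N : ℚ := 3 * (1 + s - s ^ 2 + s * t - t) with hN
  -- the two certificates
  have I1 : s ^ 2 * N ^ 2 * D + s * N ^ 2 * D + 6 * s * N * D ^ 2 - N ^ 3 + 2 * N ^ 2 * D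
      + 12 * N * D ^ 2 + 9 * D ^ 3 = 0 := by
    rw [hD, hN]
    linear_combination (-9 * (s ^ 4 + 2 * s ^ 3 - 10 * s ^ 2 + 4 * s + 4)) * hG
  have I2 : s * N ^ 2 - N ^ 2 - (s + 4 + t) * N * D - 3 * D ^ 2 = 0 := by
    rw [hD, hN]
    linear_combination (3 * s - 3) * hG
  by_cases hD0 : D = 0
  · -- degenerate case: impossible
    exfalso
    rw [hD0] at I1
    have hN0 : N = 0 := by
      have : N ^ 3 = 0 := by linear_combination -I1
      exact pow_eq_zero_iff (by norm_num) |>.mp this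
    have ht' : t = s ^ 3 + 3 * s ^ 2 - 6 * s - 3 := by linear_combination -hD0
    have hq : s ^ 4 + 2 * s ^ 3 - 10 * s ^ 2 + 4 * s + 4 = 0 := by
      have h1 : 1 + s - s ^ 2 + s * t - t = 0 := by
        have : (3 : ℚ) * (1 + s - s ^ 2 + s * t - t) = 0 := hN0
        linarith
      rw [ht'] at h1
      linear_combination h1
    exact quartic_ne_zero s hq
  · -- generic case
    set x : ℚ := N / D with hx
    have hxD : x * D = N := by rw [hx]; field_simp
    -- Weierstrass equation with `y = s x`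
    have hW : (s * x) ^ 2 + x * (s * x) + 6 * (s * x) = x ^ 3 - 2 * x ^ 2 - 12 * x - 9 := by
      have hD3 : D ^ 3 ≠ 0 := pow_ne_zero 3 hD0
      apply mul_left_cancel₀ hD3
      rw [← hxD] at I1
      linear_combination I1
    -- the `t` formula
    have hT : t * x = s * x ^ 2 - x ^ 2 - s * x - 4 * x - 3 := by
      have hD2 : D ^ 2 ≠ 0 := pow_ne_zero 2 hD0
      apply mul_left_cancel₀ hD2
      rw [← hxD] at I2
      linear_combination -I2
    have hXY : (8 * (s * x) + 4 * x + 24) ^ 2 = (4 * x) * (4 * x + 9) * (4 * x - 16) := by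
      linear_combination 64 * hW
    rcases hdesc _ _ hXY with h | h | h | h | h
    · -- x = 0
      exfalso
      have hx0 : x = 0 := by linarith
      rw [hx0] at hW
      norm_num at hW
    · -- x = -9/4
      have hx0 : x = -9 / 4 := by linarith
      rw [hx0] at hW hT
      have hs : (18 * s - 15) ^ 2 = 0 := by linear_combination 64 * hW
      have hs' : s = 5 / 6 := by
        have := pow_eq_zero_iff (two_ne_zero) |>.mp hs
        linarith
      rw [hs'] at hT
      right; left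
      linarith
    · -- x = 4
      have hx0 : x = 4 := by linarith
      rw [hx0] at hW hT
      have hs : (4 * s + 5) ^ 2 = 0 := by linear_combination hW
      have hs' : s = -5 / 4 := by
        have := pow_eq_zero_iff (two_ne_zero) |>.mp hs
        linarith
      rw [hs'] at hT
      left
      linarith
    · -- x = 9
      have hx0 : x = 9 := by linarith
      rw [hx0] at hW hT
      have hs : (3 * s - 5) * (3 * s + 10) = 0 := by linear_combination (1 / 9 : ℚ) * hW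
      rcases mul_eq_zero.mp hs with h1 | h1
      · exfalso
        have hs' : s = 5 / 3 := by linarith
        rw [hs'] at hT
        apply ht
        linarith
      · have hs' : s = -10 / 3 := by linarith
        rw [hs'] at hT
        right; right; left
        linarith
    · -- x = -1
      have hx0 : x = -1 := by linarith
      rw [hx0] at hW hT
      have hs : s * (s - 5) = 0 := by linear_combination hW
      rcases mul_eq_zero.mp hs with h1 | h1
      · exfalso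
        rw [h1] at hT
        apply ht
        linarith
      · have hs' : s = 5 := by linarith
        rw [hs'] at hT
        right; right; right
        linarith


/-- `5`-adic bookkeeping for the endgame. -/
theorem five_dvd_both (c4 Δ α β : ℤ) (hα : ¬ (5 : ℤ) ∣ α) (hβ : (5 : ℤ) ∣ β)
    (hβ' : ¬ (125 : ℤ) ∣ β) (h : α * c4 ^ 3 = β * Δ) : (5 : ℤ) ∣ c4 ∧ (5 : ℤ) ∣ Δ := by
  have hp : Prime (5 : ℤ) := by norm_num
  have h1 : (5 : ℤ) ∣ α * c4 ^ 3 := by rw [h]; exact Dvd.dvd.mul_right hβ Δ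
  have h2 : (5 : ℤ) ∣ c4 := by
    rcases hp.dvd_or_dvd h1 with h' | h'
    · exact absurd h' hα
    · exact hp.dvd_of_dvd_pow h'
  refine ⟨h2, ?_⟩
  by_contra hΔ
  obtain ⟨k, rfl⟩ := h2
  have h3 : (125 : ℤ) ∣ β * Δ := ⟨α * k ^ 3, by rw [← h]; ring⟩
  have hcop : IsCoprime (125 : ℤ) Δ := by
    have : IsCoprime (5 : ℤ) Δ := (Prime.coprime_iff_not_dvd hp).mpr hΔ
    have := this.pow_left (m := 3)
    norm_num at this
    exact this
  exact hβ' (hcop.dvd_of_dvd_mul_right h3)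

/-- The four exceptional `t`-values contradict semistability. -/
theorem false_of_t (c4 Δ : ℤ) (hss : ∀ p : ℕ, p.Prime → (p : ℤ) ∣ Δ → ¬ (p : ℤ) ∣ c4)
    (t : ℚ) (h5 : (c4 : ℚ) ^ 3 * t = Δ * (t ^ 2 + 10 * t + 5) ^ 3)
    (ht : t = -25 / 2 ∨ t = -25 / 8 ∨ t = -40 ∨ t = -10) : False := by
  have key : ∀ α β : ℤ, ¬ (5 : ℤ) ∣ α → (5 : ℤ) ∣ β → ¬ (125 : ℤ) ∣ β →
      α * c4 ^ 3 = β * Δ → False := by
    intro α β hα hβ hβ' h
    obtain ⟨h1, h2⟩ := five_dvd_both c4 Δ α β hα hβ hβ' h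
    exact hss 5 (by norm_num) (by exact_mod_cast h2) (by exact_mod_cast h1)
  rcases ht with rfl | rfl | rfl | rfl
  · -- t = -25/2 : -32 c4^3 = 121945 Δ
    refine key (-32) 121945 (by norm_num) (by norm_num) (by norm_num) ?_
    have : ((-32 : ℤ) : ℚ) * (c4 : ℚ) ^ 3 = ((121945 : ℤ) : ℚ) * (Δ : ℚ) := by
      push_cast
      linear_combination (64 / 25 : ℚ) * h5
    exact_mod_cast this
  · -- t = -25/8 : 32768 c4^3 = 46969655 Δ
    refine key 32768 46969655 (by norm_num) (by norm_num) (by norm_num) ?_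
    have : ((32768 : ℤ) : ℚ) * (c4 : ℚ) ^ 3 = ((46969655 : ℤ) : ℚ) * (Δ : ℚ) := by
      push_cast
      linear_combination (-262144 / 25 : ℚ) * h5
    exact_mod_cast this
  · -- t = -40 : -8 c4^3 = 349938025 Δ
    refine key (-8) 349938025 (by norm_num) (by norm_num) (by norm_num) ?_
    have : ((-8 : ℤ) : ℚ) * (c4 : ℚ) ^ 3 = ((349938025 : ℤ) : ℚ) * (Δ : ℚ) := by
      push_cast
      linear_combination (1 / 5 : ℚ) * h5
    exact_mod_cast this
  · -- t = -10 : -2 c4^3 = 25 Δ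
    refine key (-2) 25 (by norm_num) (by norm_num) (by norm_num) ?_
    have : ((-2 : ℤ) : ℚ) * (c4 : ℚ) ^ 3 = ((25 : ℤ) : ℚ) * (Δ : ℚ) := by
      push_cast
      linear_combination (1 / 5 : ℚ) * h5
    exact_mod_cast this

/-- **S51, moduli part.**  A semistable curve cannot have both a rational `3`-isogeny parameter `τ`
and a rational `5`-isogeny parameter `t` (given the rational points of `Y² = X(X+9)(X-16)`). -/
theorem false_of_tau_t
    (hdesc : ∀ X Y : ℚ, Y ^ 2 = X * (X + 9) * (X - 16) →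
      X = 0 ∨ X = -9 ∨ X = 16 ∨ X = 36 ∨ X = -4)
    (c4 Δ : ℤ) (hΔ : Δ ≠ 0) (hss : ∀ p : ℕ, p.Prime → (p : ℤ) ∣ Δ → ¬ (p : ℤ) ∣ c4)
    (τ t : ℚ) (hτ : τ ≠ 0) (ht : t ≠ 0)
    (h3 : (c4 : ℚ) ^ 3 * τ = Δ * (τ + 27) * (τ + 3) ^ 3)
    (h5 : (c4 : ℚ) ^ 3 * t = Δ * (t ^ 2 + 10 * t + 5) ^ 3) : False := by
  have hΔ' : (Δ : ℚ) ≠ 0 := by exact_mod_cast hΔ
  -- τ ≠ -3
  have hτ3 : τ + 3 ≠ 0 := by
    intro h
    have h0 : (c4 : ℚ) ^ 3 * τ = 0 := by rw [h3, h]; ring
    have hc : (c4 : ℚ) ^ 3 = 0 := by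
      rcases mul_eq_zero.mp h0 with h' | h'
      · exact h'
      · exact absurd h' hτ
    rw [hc, zero_mul] at h5
    have : (t ^ 2 + 10 * t + 5) ^ 3 = 0 := by
      rcases mul_eq_zero.mp h5.symm with h' | h'
      · exact absurd h' hΔ'
      · exact h'
    exact quad_ne_zero t (pow_eq_zero_iff (by norm_num) |>.mp this)
  obtain ⟨s, h1⟩ : ∃ s : ℚ, s * (τ + 3) = t ^ 2 + 10 * t + 5 :=
    ⟨(t ^ 2 + 10 * t + 5) / (τ + 3), by field_simp⟩
  have h2 : s ^ 3 * τ = t * (τ + 27) := by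
    have hne : (Δ : ℚ) * (τ + 3) ^ 3 ≠ 0 := mul_ne_zero hΔ' (pow_ne_zero 3 hτ3)
    apply mul_left_cancel₀ hne
    have e1 : (s * (τ + 3)) ^ 3 = (t ^ 2 + 10 * t + 5) ^ 3 := by rw [h1]
    linear_combination (Δ : ℚ) * τ * e1 - τ * h5 + t * h3
  have hG : t ^ 3 + (10 - s ^ 3) * t ^ 2 + (5 + 24 * s - 10 * s ^ 3) * t
      + s ^ 3 * (3 * s - 5) = 0 := by
    linear_combination (s ^ 3 - t) * h1 - s * h2
  exact false_of_t c4 Δ hss t h5 (t_mem_of_G hdesc s t ht hG)

end Fermat.Agent.S51x.X015
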